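import Fermat.Agent.LR.Isec
import Fermat.Agent.Ihara.Cos

/-!
# Adjunction formula for the intersection pairing
-/

set_option autoImplicit false

noncomputable section

namespace Fermat.Agent.LR

open CongruenceSubgroup Matrix.SpecialLinearGroup Fermat.Agent.Ihara Fermat.Agent.AnJac
open scoped MatrixGroups

theorem adj {Γ Γ' : Subgroup SL(2,ℤ)} {ι ι' : Type*} [Fintype ι] [Fintype ι']
    (A : ι → GL (Fin 2) ℚ) (A' : ι' → GL (Fin 2) ℚ) (hA : ∀ i, 0 < dt (A i))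
    (γ : SL(2,ℤ)) (g : ι → Γ') (s : ι ≃ ι)
    (hs : ∀ i, A i * mq γ = mq (g i) * A (s i))
    (Φ : ι' × Γ ≃ ι × Γ')
    (hΦ : ∀ (p : ι' × Γ) (c : Cusp), mq p.2 • A' p.1 • c = (A (Φ p).1)⁻¹ • mq (Φ p).2 • c)
    (α β : Cusp) :
    ∑ i', iota Γ γ (A' i' • α) (A' i' • β) = ∑ i, iota Γ' (g i) α β := by
  classical
  -- the function on the right
  let G : ι × Γ' → ℤ := fun p => sm (mq γ⁻¹ * (A p.1)⁻¹) (A p.1)⁻¹ α β p.2
  let F : ι' × Γ → ℤ := fun p => sm (mq γ⁻¹) 1 (A' p.1 • α) (A' p.1 • β) p.2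
  have hFG : ∀ p, F p = G (Φ p) := by
    intro p
    change e0 (mq γ⁻¹ • mq p.2 • A' p.1 • α) (mq γ⁻¹ • mq p.2 • A' p.1 • β) -
      e0 ((1 : GL (Fin 2) ℚ) • mq p.2 • A' p.1 • α) ((1 : GL (Fin 2) ℚ) • mq p.2 • A' p.1 • β) =
      e0 ((mq γ⁻¹ * (A (Φ p).1)⁻¹) • mq (Φ p).2 • α) ((mq γ⁻¹ * (A (Φ p).1)⁻¹) • mq (Φ p).2 • β) -
      e0 ((A (Φ p).1)⁻¹ • mq (Φ p).2 • α) ((A (Φ p).1)⁻¹ • mq (Φ p).2 • β)
    rw [hΦ, hΦ, mul_smul, mul_smul, one_smul, one_smul]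
  have hp1 : ∀ i, 0 < dt (A i)⁻¹ := fun i => dt_pos_inv (hA i)
  have hp2 : ∀ i, 0 < dt (mq γ⁻¹ * (A i)⁻¹) := fun i => dt_pos_mul (dt_pos_mq _) (hp1 i)
  have hGfin : (Function.support G).Finite := by
    have h1 : Function.support G ⊆ ⋃ i : ι, (fun h : Γ' => (i, h)) ''
        (Function.support fun h : Γ' => sm (mq γ⁻¹ * (A i)⁻¹) (A i)⁻¹ α β h) := by
      rintro ⟨i, h⟩ hh
      rw [Set.mem_iUnion]
      exact ⟨i, h, hh, rfl⟩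
    exact (Set.finite_iUnion fun i => (sm_finH (hp2 i) (hp1 i) α β).image _).subset h1
  have hFfin : (Function.support F).Finite := by
    have : Function.support F = Φ ⁻¹' Function.support G := by
      ext p
      simp [hFG]
    rw [this]
    exact hGfin.preimage Φ.injective.injOn
  have e1 : ∑ i', iota Γ γ (A' i' • α) (A' i' • β) = ∑ᶠ p, F p := by
    rw [finsum_curry F hFfin, finsum_eq_sum_of_fintype]
    rfl
  have e2 : ∑ᶠ p, F p = ∑ᶠ p, G p := by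
    rw [← finsum_comp_equiv Φ]
    exact finsum_congr hFG
  have e3 : ∑ᶠ p, G p = ∑ i, cc Γ' (mq γ⁻¹ * (A i)⁻¹) (A i)⁻¹ α β := by
    rw [finsum_curry G hGfin, finsum_eq_sum_of_fintype]
    rfl
  rw [e1, e2, e3]
  have h4 : ∀ i, cc Γ' (mq γ⁻¹ * (A i)⁻¹) (A i)⁻¹ α β =
      iota Γ' (g i) α β + (cc Γ' (A (s i))⁻¹ 1 α β - cc Γ' (A i)⁻¹ 1 α β) := by
    intro i
    have e5 : mq γ⁻¹ * (A i)⁻¹ = (A (s i))⁻¹ * mq (g i : SL(2,ℤ))⁻¹ := by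
      have e6 : mq γ⁻¹ = (mq γ)⁻¹ := map_inv _ _
      have e7 : mq (g i : SL(2,ℤ))⁻¹ = (mq (g i : SL(2,ℤ)))⁻¹ := map_inv _ _
      rw [e6, e7, ← mul_inv_rev, ← mul_inv_rev, hs]
    rw [e5]
    have hq := dt_pos_mq (g i : SL(2,ℤ))⁻¹
    rw [← cc_add (g' := mq (g i : SL(2,ℤ))⁻¹) (dt_pos_mul (hp1 (s i)) hq) hq (hp1 i),
      ← cc_add (g := mq (g i : SL(2,ℤ))⁻¹) (g' := 1) hq dt_pos_one (hp1 i)]
    have e8 : cc Γ' ((A (s i))⁻¹ * mq (g i : SL(2,ℤ))⁻¹) (mq (g i : SL(2,ℤ))⁻¹) α β =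
        cc Γ' (A (s i))⁻¹ 1 α β := by
      have := cc_right (g := (A (s i))⁻¹) (g' := 1) (α := α) (β := β) (inv_mem (g i).2)
      rwa [one_mul] at this
    have e9 : cc Γ' 1 (A i)⁻¹ α β = - cc Γ' (A i)⁻¹ 1 α β := by
      have := cc_add (H := Γ') (α := α) (β := β) (hp1 i) dt_pos_one (hp1 i)
      rw [cc_self] at this
      linarith
    rw [e8, e9]
    change _ = cc Γ' (mq (g i : SL(2,ℤ))⁻¹) 1 α β + _
    ring
  rw [Finset.sum_congr rfl fun i _ => h4 i, Finset.sum_add_distrib, Finset.sum_sub_distrib,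
    Equiv.sum_comp s (fun i => cc Γ' (A i)⁻¹ 1 α β), sub_self, add_zero]

end Fermat.Agent.LR
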