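import Fermat.Agent.LR.IM

/-!
# The families `res`, `conj`, `j₁`, `j₂`
-/

set_option autoImplicit false

noncomputable section

namespace Fermat.Agent.LR

open CongruenceSubgroup Matrix.SpecialLinearGroup Fermat.Agent.Ihara Fermat.Agent.AnJac
open scoped MatrixGroups

variable {N q : ℕ} [hq : Fact q.Prime]

lemma um_00 {a b d : ℚ} (h : a * d ≠ 0) : (um a b d) 0 0 = a := by rw [coe_um h]; rfl
lemma um_01 {a b d : ℚ} (h : a * d ≠ 0) : (um a b d) 0 1 = b := by rw [coe_um h]; rfl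
lemma um_10 {a b d : ℚ} (h : a * d ≠ 0) : (um a b d) 1 0 = 0 := by rw [coe_um h]; rfl
lemma um_11 {a b d : ℚ} (h : a * d ≠ 0) : (um a b d) 1 1 = d := by rw [coe_um h]; rfl

section dl

variable (q)

lemma q_ne : (q : ℚ) ≠ 0 := by exact_mod_cast hq.out.ne_zero

lemma dl_00 : (um q 0 1) 0 0 = (q : ℚ) := um_00 (by simpa using q_ne q)
lemma dl_01 : (um q 0 1) 0 1 = (0 : ℚ) := um_01 (by simpa using q_ne q)
lemma dl_10 : (um q 0 1) 1 0 = (0 : ℚ) := um_10 (by simpa using q_ne q)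
lemma dl_11 : (um q 0 1) 1 1 = (1 : ℚ) := um_11 (by simpa using q_ne q)

lemma ds_00 : (um 1 0 q) 0 0 = (1 : ℚ) := um_00 (by simpa using q_ne q)
lemma ds_01 : (um 1 0 q) 0 1 = (0 : ℚ) := um_01 (by simpa using q_ne q)
lemma ds_10 : (um 1 0 q) 1 0 = (0 : ℚ) := um_10 (by simpa using q_ne q)
lemma ds_11 : (um 1 0 q) 1 1 = (q : ℚ) := um_11 (by simpa using q_ne q)

/-- the scalar matrix -/
def sc : GL (Fin 2) ℚ := um q 0 q

lemma sc_00 : (sc q) 0 0 = (q : ℚ) := um_00 (by simpa using q_ne q)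
lemma sc_01 : (sc q) 0 1 = (0 : ℚ) := um_01 (by simpa using q_ne q)
lemma sc_10 : (sc q) 1 0 = (0 : ℚ) := um_10 (by simpa using q_ne q)
lemma sc_11 : (sc q) 1 1 = (q : ℚ) := um_11 (by simpa using q_ne q)

lemma sc_comm (x : GL (Fin 2) ℚ) : sc q * x = x * sc q := by
  apply gl_ext
  · rw [mul_00, mul_00, sc_00, sc_01, sc_10]; ring
  · rw [mul_01, mul_01, sc_00, sc_01, sc_11]; ring
  · rw [mul_10, mul_10, sc_10, sc_00, sc_11]; ring
  · rw [mul_11, mul_11, sc_10, sc_01, sc_11]; ring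

lemma dl_ds : um q 0 1 * um 1 0 q = sc q := by
  apply gl_ext
  · rw [mul_00, dl_00, dl_01, ds_00, sc_00]; ring
  · rw [mul_01, dl_00, dl_01, ds_01, ds_11, sc_01]; ring
  · rw [mul_10, dl_10, dl_11, ds_10, sc_10]; ring
  · rw [mul_11, dl_10, dl_11, ds_11, sc_11]; ring

lemma ds_dl : um 1 0 q * um q 0 1 = sc q := by
  apply gl_ext
  · rw [mul_00, ds_00, ds_01, dl_00, sc_00]; ring
  · rw [mul_01, ds_00, ds_01, dl_01, dl_11, sc_01]; ring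
  · rw [mul_10, ds_10, ds_11, dl_10, sc_10, dl_00]; ring
  · rw [mul_11, ds_10, ds_11, dl_11, sc_11]; ring

lemma IM_dl (N : ℕ) : IM N q (um q 0 1) :=
  ⟨q, 0, 0, 1, by rw [dl_00]; simp, by rw [dl_01]; simp, by rw [dl_10]; simp, by rw [dl_11]; simp,
    by ring⟩

lemma IM_ds (N : ℕ) : IM N q (um 1 0 q) :=
  ⟨1, 0, 0, q, by rw [ds_00]; simp, by rw [ds_01]; simp, by rw [ds_10]; simp, by rw [ds_11]; simp,
    by ring⟩

end dl

/-- `δ g = g' δ` with `g' ∈ Γ₀(N)` forces `g ∈ Γ₀(N q)` -/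
lemma mem_of_conj {g : SL(2,ℤ)} {g' : Gamma0 N}
    (h : um q 0 1 * mapGL ℚ g = mapGL ℚ (g' : SL(2,ℤ)) * um q 0 1) : g ∈ Gamma0 (N * q) := by
  have h1 := congrArg (fun z : GL (Fin 2) ℚ => z 1 0) h
  simp only [mul_10, dl_10, dl_11, dl_00, mapGL_10, mapGL_11] at h1
  have h2 := (ZMod.intCast_zmod_eq_zero_iff_dvd _ _).mp (Gamma0_mem.mp g'.2)
  obtain ⟨c, hc⟩ := h2
  rw [Gamma0_mem, ZMod.intCast_zmod_eq_zero_iff_dvd]
  refine ⟨c, ?_⟩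
  have h3 : (g 1 0 : ℚ) = ((N * c : ℤ) : ℚ) * q := by
    rw [← hc]; linear_combination h1
  have : g 1 0 = (N * c) * q := by exact_mod_cast h3
  rw [this]; push_cast; ring

/-- conjugation by `δ = diag(q,1)` -/
lemma exists_conj (g : Gamma0 (N * q)) : ∃ g' : Gamma0 N,
    um q 0 1 * mapGL ℚ (g : SL(2,ℤ)) = mapGL ℚ (g' : SL(2,ℤ)) * um q 0 1 := by
  have h2 := (ZMod.intCast_zmod_eq_zero_iff_dvd _ _).mp (Gamma0_mem.mp g.2)
  obtain ⟨c, hc⟩ := h2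
  have hd := Matrix.SpecialLinearGroup.det_coe (g : SL(2,ℤ))
  rw [Matrix.det_fin_two] at hd
  push_cast at hc
  obtain ⟨γ, e00, e01, e10, e11⟩ := exists_SL4 (a := (g : SL(2,ℤ)) 0 0)
    (b := q * (g : SL(2,ℤ)) 0 1) (c := N * c) (d := (g : SL(2,ℤ)) 1 1) (by
      linear_combination hd - (g : SL(2,ℤ)) 0 1 * (hc.symm))
  refine ⟨⟨γ, ?_⟩, ?_⟩
  · rw [Gamma0_mem, e10, ZMod.intCast_zmod_eq_zero_iff_dvd]
    exact dvd_mul_right _ _
  · change um q 0 1 * mapGL ℚ (g : SL(2,ℤ)) = mapGL ℚ γ * um q 0 1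
    apply gl_ext
    · rw [mul_00, mul_00, dl_00, dl_01, dl_10, mapGL_00, mapGL_00, e00]; ring
    · rw [mul_01, mul_01, dl_00, dl_01, dl_11, mapGL_01, mapGL_01, e01]; push_cast; ring
    · rw [mul_10, mul_10, dl_10, dl_11, dl_00, mapGL_10, mapGL_10, e10, hc]; push_cast; ring
    · rw [mul_11, mul_11, dl_10, dl_11, dl_01, mapGL_11, mapGL_11, e11]; ring

/-! ### representatives -/

section reps

variable (hqN : ¬ q ∣ N)

include hqN in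
lemma exists_rep (i : OnePoint (ZMod q)) : ∃ γ β : Gamma0 N,
    mapGL ℚ (γ : SL(2,ℤ)) * rq q i = um q 0 1 * mapGL ℚ (β : SL(2,ℤ)) := by
  have hq0 : q ≠ 0 := hq.out.ne_zero
  induction i using OnePoint.rec with
  | infty =>
    refine ⟨1, 1, ?_⟩
    rw [OneMemClass.coe_one, map_one, mul_one, one_mul]
    apply gl_ext
    · rw [dl_00, rq_00 hq0, ea_infty]; simp
    · rw [dl_01, rq_01 hq0, eb_infty]; simp
    · rw [dl_10, rq_10 hq0]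
    · rw [dl_11, rq_11 hq0, ed_infty]; simp
  | coe x =>
    have hcop : IsCoprime (q : ℤ) (N : ℤ) :=
      Nat.isCoprime_iff_coprime.mpr ((Nat.Prime.coprime_iff_not_dvd hq.out).mpr hqN)
    obtain ⟨a, b, hab⟩ := hcop
    obtain ⟨γ, e00, e01, e10, e11⟩ := exists_SL4 (a := q * a) (b := -b) (c := N) (d := 1)
      (by linear_combination hab)
    obtain ⟨β, f00, f01, f10, f11⟩ := exists_SL4 (a := a) (b := a * (x.val : ℤ) - b) (c := N)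
      (d := N * (x.val : ℤ) + q) (by linear_combination hab)
    refine ⟨⟨γ, ?_⟩, ⟨β, ?_⟩, ?_⟩
    · rw [Gamma0_mem, e10]; simp
    · rw [Gamma0_mem, f10]; simp
    · change mapGL ℚ γ * rq q _ = um q 0 1 * mapGL ℚ β
      apply gl_ext
      · rw [mul_00, mul_00, dl_00, dl_01, rq_00 hq0, rq_10 hq0, ea_coe, mapGL_00, mapGL_00, e00, f00]
        push_cast; ring
      · rw [mul_01, mul_01, dl_00, dl_01, rq_01 hq0, rq_11 hq0, eb_coe, ed_coe, mapGL_00, mapGL_01,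
          mapGL_01, e00, e01, f01]
        push_cast; ring
      · rw [mul_10, mul_10, dl_10, dl_11, rq_00 hq0, rq_10 hq0, ea_coe, mapGL_10, mapGL_10, e10, f10]
        push_cast; ring
      · rw [mul_11, mul_11, dl_10, dl_11, rq_01 hq0, rq_11 hq0, eb_coe, ed_coe, mapGL_10, mapGL_11,
          mapGL_11, e10, e11, f11]
        push_cast; ring

/-- `δ β_i = γ_i A_i` -/
def gm (i : OnePoint (ZMod q)) : Gamma0 N := (exists_rep hqN i).choose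
def bt (i : OnePoint (ZMod q)) : Gamma0 N := (exists_rep hqN i).choose_spec.choose
lemma bt_spec (i : OnePoint (ZMod q)) :
    um q 0 1 * mapGL ℚ (bt hqN i : SL(2,ℤ)) = mapGL ℚ (gm hqN i : SL(2,ℤ)) * rq q i :=
  (exists_rep hqN i).choose_spec.choose_spec.symm

include hqN in
lemma exists_rep2 (i : OnePoint (ZMod q)) : ∃ γ β : Gamma0 N,
    mapGL ℚ (γ : SL(2,ℤ)) * rq q i = um 1 0 q * mapGL ℚ (β : SL(2,ℤ)) := by
  have hq0 : q ≠ 0 := hq.out.ne_zero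
  have key : ∀ x : ZMod q, rq q (x : OnePoint (ZMod q)) = um 1 0 q * mapGL ℚ (Tz x.val) := by
    intro x
    apply gl_ext
    · rw [mul_00, ds_00, ds_01, rq_00 hq0, ea_coe, mapGL_00, Tz_00]; push_cast; ring
    · rw [mul_01, ds_00, ds_01, rq_01 hq0, eb_coe, mapGL_01, mapGL_11, Tz_01, Tz_11]
      push_cast; ring
    · rw [mul_10, ds_10, ds_11, rq_10 hq0, mapGL_00, mapGL_10, Tz_00, Tz_10]; push_cast; ring
    · rw [mul_11, ds_10, ds_11, rq_11 hq0, ed_coe, mapGL_01, mapGL_11, Tz_01, Tz_11]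
      push_cast; ring
  induction i using OnePoint.rec with
  | infty =>
    obtain ⟨γ, β, h⟩ := exists_rep hqN ((0 : ZMod q) : OnePoint (ZMod q))
    have h0 : rq q OnePoint.infty = um q 0 1 := by
      apply gl_ext
      · rw [dl_00, rq_00 hq0, ea_infty]; simp
      · rw [dl_01, rq_01 hq0, eb_infty]; simp
      · rw [dl_10, rq_10 hq0]
      · rw [dl_11, rq_11 hq0, ed_infty]; simp
    rw [key, ZMod.val_zero, Nat.cast_zero] at h
    have h1 : Tz 0 = 1 := by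
      ext i j
      fin_cases i <;> fin_cases j <;> rfl
    rw [h1, map_one, mul_one] at h
    refine ⟨γ⁻¹, β⁻¹, ?_⟩
    rw [h0, Subgroup.coe_inv, map_inv, inv_mul_eq_iff_eq_mul, ← mul_assoc, h, Subgroup.coe_inv,
      map_inv, mul_inv_cancel_right]
  | coe x =>
    refine ⟨1, ⟨Tz x.val, Tz_mem _⟩, ?_⟩
    rw [OneMemClass.coe_one, map_one, one_mul, key]

/-- `δ* h_i = γ'_i A_i` -/
def gm2 (i : OnePoint (ZMod q)) : Gamma0 N := (exists_rep2 hqN i).choose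
def bt2 (i : OnePoint (ZMod q)) : Gamma0 N := (exists_rep2 hqN i).choose_spec.choose
lemma bt2_spec (i : OnePoint (ZMod q)) :
    um 1 0 q * mapGL ℚ (bt2 hqN i : SL(2,ℤ)) = mapGL ℚ (gm2 hqN i : SL(2,ℤ)) * rq q i :=
  (exists_rep2 hqN i).choose_spec.choose_spec.symm

/-- `Γ₀(N) = ⊔ Γ₀(Nq) β_i` -/
lemma cos1 (γ : Gamma0 N) : ∃ (g : Gamma0 (N * q)) (i : OnePoint (ZMod q)),
    mapGL ℚ (γ : SL(2,ℤ)) = mapGL ℚ (g : SL(2,ℤ)) * mapGL ℚ (bt hqN i : SL(2,ℤ)) := by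
  have h1 : IM N q (um q 0 1 * mapGL ℚ (γ : SL(2,ℤ))) := by
    have := (IM_dl q N).mul (IM_mapGL γ.2)
    rwa [mul_one] at this
  obtain ⟨y, i, hy⟩ := h1.exists_rq1 hqN
  have h2 : um q 0 1 * mapGL ℚ ((γ * (bt hqN i)⁻¹ : Gamma0 N) : SL(2,ℤ)) =
      mapGL ℚ ((y * (gm hqN i)⁻¹ : Gamma0 N) : SL(2,ℤ)) * um q 0 1 := by
    have h3 := bt_spec hqN i
    rw [Subgroup.coe_mul, map_mul, ← mul_assoc, hy, Subgroup.coe_mul, map_mul, Subgroup.coe_inv,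
      Subgroup.coe_inv, map_inv, map_inv, mul_inv_eq_iff_eq_mul, mul_assoc _ (um q 0 1), h3,
      mul_assoc (mapGL ℚ (y : SL(2,ℤ))), inv_mul_cancel_left]
  refine ⟨⟨(γ * (bt hqN i)⁻¹ : Gamma0 N), mem_of_conj h2⟩, i, ?_⟩
  rw [← map_mul]
  congr 1
  rw [Subgroup.coe_mul, Subgroup.coe_inv, inv_mul_cancel_right]

lemma uniq1 (i j : OnePoint (ZMod q)) (g : Gamma0 (N * q))
    (h : mapGL ℚ (bt hqN i : SL(2,ℤ)) = mapGL ℚ (g : SL(2,ℤ)) * mapGL ℚ (bt hqN j : SL(2,ℤ))) :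
    i = j := by
  obtain ⟨g', hg'⟩ := exists_conj g
  have h1 := bt_spec hqN i
  rw [h, ← mul_assoc, hg', mul_assoc, bt_spec] at h1
  apply rq_uniq (g := (((gm hqN i)⁻¹ * (g' * gm hqN j) : Gamma0 N) : SL(2,ℤ)))
  rw [Subgroup.coe_mul, Subgroup.coe_mul, map_mul, map_mul, Subgroup.coe_inv, map_inv, mul_assoc,
    mul_assoc, h1, inv_mul_cancel_left]

/-- `δ⁻¹ Γ₀(N) = ⊔ Γ₀(Nq) δ⁻¹ h_i` -/
lemma cos2 (γ : Gamma0 N) : ∃ (g : Gamma0 (N * q)) (i : OnePoint (ZMod q)),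
    (um q 0 1)⁻¹ * mapGL ℚ (γ : SL(2,ℤ)) =
      mapGL ℚ (g : SL(2,ℤ)) * ((um q 0 1)⁻¹ * mapGL ℚ (bt2 hqN i : SL(2,ℤ))) := by
  have h1 : IM N q (um 1 0 q * mapGL ℚ (γ : SL(2,ℤ))) := by
    have := (IM_ds q N).mul (IM_mapGL γ.2)
    rwa [mul_one] at this
  obtain ⟨y, i, hy⟩ := h1.exists_rq1 hqN
  have h3 := bt2_spec hqN i
  -- `δ* (γ h_i⁻¹) = (y γ'_i⁻¹) δ*`
  have h2 : um 1 0 q * mapGL ℚ ((γ * (bt2 hqN i)⁻¹ : Gamma0 N) : SL(2,ℤ)) =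
      mapGL ℚ ((y * (gm2 hqN i)⁻¹ : Gamma0 N) : SL(2,ℤ)) * um 1 0 q := by
    rw [Subgroup.coe_mul, map_mul, ← mul_assoc, hy, Subgroup.coe_mul, map_mul, Subgroup.coe_inv,
      Subgroup.coe_inv, map_inv, map_inv, mul_inv_eq_iff_eq_mul, mul_assoc _ (um 1 0 q), h3,
      mul_assoc (mapGL ℚ (y : SL(2,ℤ))), inv_mul_cancel_left]
  set g := (y * (gm2 hqN i)⁻¹ : Gamma0 N) with hg
  set x := (γ * (bt2 hqN i)⁻¹ : Gamma0 N) with hx
  have h4 : um q 0 1 * mapGL ℚ (g : SL(2,ℤ)) = mapGL ℚ (x : SL(2,ℤ)) * um q 0 1 := by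
    have h5 : um 1 0 q * (um q 0 1 * mapGL ℚ (g : SL(2,ℤ)) * um 1 0 q) =
        um 1 0 q * (mapGL ℚ (x : SL(2,ℤ)) * um q 0 1 * um 1 0 q) := by
      rw [mul_assoc (um q 0 1), ← h2, ← mul_assoc (um 1 0 q), ds_dl, mul_assoc (mapGL ℚ _), dl_ds,
        ← mul_assoc (um 1 0 q), sc_comm]
    exact mul_right_cancel (mul_left_cancel h5)
  refine ⟨⟨g, mem_of_conj h4⟩, i, ?_⟩
  rw [inv_mul_eq_iff_eq_mul, ← mul_assoc, ← mul_assoc]
  change _ = um q 0 1 * mapGL ℚ (g : SL(2,ℤ)) * (um q 0 1)⁻¹ * _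
  rw [h4, mul_inv_cancel_right, ← map_mul, hx, Subgroup.coe_mul, Subgroup.coe_inv,
    inv_mul_cancel_right]

lemma uniq2 (i j : OnePoint (ZMod q)) (g : Gamma0 (N * q))
    (h : (um q 0 1)⁻¹ * mapGL ℚ (bt2 hqN i : SL(2,ℤ)) =
      mapGL ℚ (g : SL(2,ℤ)) * ((um q 0 1)⁻¹ * mapGL ℚ (bt2 hqN j : SL(2,ℤ)))) :
    i = j := by
  have e : (um q 0 1)⁻¹ = (sc q)⁻¹ * um 1 0 q := by
    rw [← ds_dl, mul_inv_rev, inv_mul_cancel_right]
  have h0 : um 1 0 q * mapGL ℚ (bt2 hqN i : SL(2,ℤ)) =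
      mapGL ℚ (g : SL(2,ℤ)) * (um 1 0 q * mapGL ℚ (bt2 hqN j : SL(2,ℤ))) := by
    have hc : (sc q)⁻¹ * mapGL ℚ (g : SL(2,ℤ)) = mapGL ℚ (g : SL(2,ℤ)) * (sc q)⁻¹ := by
      rw [inv_mul_eq_iff_eq_mul, ← mul_assoc, sc_comm, mul_inv_cancel_right]
    rw [e, mul_assoc, mul_assoc, ← mul_assoc (mapGL ℚ (g : SL(2,ℤ))), ← hc, mul_assoc] at h
    exact mul_left_cancel h
  have hgN : (g : SL(2,ℤ)) ∈ Gamma0 N := by
    rw [Gamma0_mem, ZMod.intCast_zmod_eq_zero_iff_dvd]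
    have := (ZMod.intCast_zmod_eq_zero_iff_dvd _ _).mp (Gamma0_mem.mp g.2)
    push_cast at this
    exact (dvd_mul_right _ _).trans this
  rw [bt2_spec, bt2_spec] at h0
  apply rq_uniq (g := (((gm2 hqN i)⁻¹ * (⟨g, hgN⟩ * gm2 hqN j) : Gamma0 N) : SL(2,ℤ)))
  rw [Subgroup.coe_mul, Subgroup.coe_mul, map_mul, map_mul, Subgroup.coe_inv, map_inv, mul_assoc,
    mul_assoc, ← h0, inv_mul_cancel_left]

end reps

/-! ### the families -/

variable (N q)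

lemma Gamma0_mul_le : Gamma0 (N * q) ≤ Gamma0 N := by
  intro g hg
  rw [Gamma0_mem, ZMod.intCast_zmod_eq_zero_iff_dvd] at hg ⊢
  push_cast at hg
  exact (dvd_mul_right _ _).trans hg

/-- restriction `X N → X (N q)` -/
def wRes : WF (Gamma0 N) (Gamma0 (N * q)) Unit where
  A _ := 1
  g γ _ := ⟨γ, Gamma0_mul_le N q γ.2⟩
  s _ i := i
  spec γ i := by rw [one_mul, mul_one]
  s_one _ := rfl
  s_mul _ _ _ := rfl

/-- conjugate `X N → X (N q)`, `x ↦ x (δ γ δ⁻¹)` -/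
def wCj : WF (Gamma0 N) (Gamma0 (N * q)) Unit where
  A _ := um q 0 1
  g γ _ := (exists_conj γ).choose
  s _ i := i
  spec γ _ := (exists_conj γ).choose_spec
  s_one _ := rfl
  s_mul _ _ _ := rfl

variable (hqN : ¬ q ∣ N)

/-- `j₁ : X (N q) → X N` -/
def w1 : WF (Gamma0 (N * q)) (Gamma0 N) (OnePoint (ZMod q)) :=
  WF.mk' (fun i => mapGL ℚ (bt hqN i : SL(2,ℤ))) (fun γ i => by
    obtain ⟨g, j, h⟩ := cos1 hqN (bt hqN i * γ)
    refine ⟨g, j, ?_⟩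
    rw [← h, Subgroup.coe_mul, map_mul]) (uniq1 hqN)

/-- `j₂ : X (N q) → X N` -/
def w2 : WF (Gamma0 (N * q)) (Gamma0 N) (OnePoint (ZMod q)) :=
  WF.mk' (fun i => (um q 0 1)⁻¹ * mapGL ℚ (bt2 hqN i : SL(2,ℤ))) (fun γ i => by
    obtain ⟨g, j, h⟩ := cos2 hqN (bt2 hqN i * γ)
    refine ⟨g, j, ?_⟩
    rw [← h, Subgroup.coe_mul, map_mul, mul_assoc]) (uniq2 hqN)

lemma w1_A (i : OnePoint (ZMod q)) : (w1 N q hqN).A i = mapGL ℚ (bt hqN i : SL(2,ℤ)) := rfl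
lemma w2_A (i : OnePoint (ZMod q)) :
    (w2 N q hqN).A i = (um q 0 1)⁻¹ * mapGL ℚ (bt2 hqN i : SL(2,ℤ)) := rfl

/-- restriction -/
def i1 : X N →+ X (N * q) := (wRes N q).T
/-- conjugate -/
def i2 : X N →+ X (N * q) := (wCj N q).T
/-- transfer -/
def j1 : X (N * q) →+ X N := (w1 N q hqN).T
/-- transfer -/
def j2 : X (N * q) →+ X N := (w2 N q hqN).T

lemma i1_apply (x : X N) (γ : Gamma0 (N * q)) :
    i1 N q x (Additive.ofMul γ) = x (Additive.ofMul ⟨γ, Gamma0_mul_le N q γ.2⟩) := by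
  rw [i1, WF.T_apply, Fintype.sum_unique]
  rfl

lemma i2_apply (x : X N) (γ : Gamma0 (N * q)) (g : Gamma0 N)
    (h : um q 0 1 * mapGL ℚ (γ : SL(2,ℤ)) = mapGL ℚ (g : SL(2,ℤ)) * um q 0 1) :
    i2 N q x (Additive.ofMul γ) = x (Additive.ofMul g) := by
  rw [i2, WF.T_apply, Fintype.sum_unique]
  congr 2
  have h1 := (wCj N q).spec γ ()
  change um q 0 1 * mapGL ℚ (γ : SL(2,ℤ)) = _ * um q 0 1 at h1
  rw [h] at h1
  exact (Subtype.ext (mapGLQ_inj (mul_right_cancel h1))).symm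

end Fermat.Agent.LR
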