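import Fermat.Agent.LR.Surj

/-!
# Surjectivity of the intersection pairing (up to 2): the computation
-/

set_option autoImplicit false

noncomputable section

namespace Fermat.Agent.LR

open CongruenceSubgroup Matrix.SpecialLinearGroup Fermat.Agent.Ihara
open scoped MatrixGroups

/-- the local contribution -/
def aa (γ g : SL(2,ℤ)) : ℤ := sm (mq γ⁻¹) 1 c0 ci g

lemma mq_mul_smul (g h : SL(2,ℤ)) (c : Cusp) : mq (g * h) • c = mq g • mq h • c := by
  rw [← mul_smul]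
  congr 1
  exact map_mul _ _ _

lemma aa_eq (γ g : SL(2,ℤ)) : aa γ g = e0 (mq (γ⁻¹ * g) • c0) (mq (γ⁻¹ * g) • ci) -
    e0 (mq g • c0) (mq g • ci) := by
  rw [aa, sm, mq_mul_smul, mq_mul_smul, one_smul, one_smul]

lemma aa_fin (γ : SL(2,ℤ)) : (Function.support (aa γ)).Finite :=
  sm_fin (dt_pos_mq _) dt_pos_one _ _

lemma aa_S (γ g : SL(2,ℤ)) : aa γ (g * sS) = - aa γ g := by
  have h1 : ∀ k : SL(2,ℤ), e0 (mq (k * sS) • c0) (mq (k * sS) • ci) = 1 - e0 (mq k • c0) (mq k • ci) := by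
    intro k
    rw [mq_mul_smul, mq_mul_smul, sS_c0, sS_ci, e0_swap]
    exact fun e => c0_ne_ci (smul_left_cancel _ e)
  rw [aa_eq, aa_eq, ← mul_assoc, h1, h1]
  ring

/-- the triangle function -/
def tt (g : SL(2,ℤ)) : ℤ := e0 (mq g • c0) (mq g • ci) + e0 (mq g • ci) (mq g • c1) +
  e0 (mq g • c1) (mq g • c0)

open Classical in
lemma tt_eq (g : SL(2,ℤ)) : tt g = 2 + if g ∈ T6 then 1 else 0 := by
  have r0 : Rp c0 ![0, 1] := ⟨1, one_ne_zero, by ext i; fin_cases i <;> simp [c0, vec_coe]⟩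
  have ri : Rp ci ![1, 0] := ⟨1, one_ne_zero, by ext i; fin_cases i <;> simp [ci, vec_infty]⟩
  have r1 : Rp c1 (-![0, 1] - ![1, 0]) := ⟨-1, by norm_num, by
    ext i; fin_cases i <;> simp [c1, vec_coe]⟩
  have hg : gv (mq g) (-![0, 1] - ![1, 0]) = - gv (mq g) ![0, 1] - gv (mq g) ![1, 0] := by
    ext i
    fin_cases i <;> simp <;> ring
  have hd : dv (gv (mq g) ![0, 1]) (gv (mq g) ![1, 0]) = -1 := by
    rw [dv_gv, dt_mq]; simp [dv]
  have ht := tri (x := gv (mq g) ![0, 1]) (y := gv (mq g) ![1, 0]) (by rw [hd]; norm_num)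
  rw [hd, ← hg, ← e0_eq (rp_gv r0 (mq g)) (rp_gv ri (mq g)),
    ← e0_eq (rp_gv ri (mq g)) (rp_gv r1 (mq g)),
    ← e0_eq (rp_gv r1 (mq g)) (rp_gv r0 (mq g)), if_neg (by norm_num)] at ht
  rw [tt, ht]
  have h2 : Red (gv (mq g) ![0, 1]) (gv (mq g) ![1, 0]) ↔ g ∈ T6 := redG_iff_mem g
  rw [if_congr h2 rfl rfl]
  split_ifs <;> rfl

lemma aa_rho (γ g : SL(2,ℤ)) : aa γ g + aa γ (g * rho) + aa γ (g * rho * rho) =
    tt (γ⁻¹ * g) - tt g := by
  have h1 : ∀ k : SL(2,ℤ), e0 (mq (k * rho) • c0) (mq (k * rho) • ci) = e0 (mq k • ci) (mq k • c1) := by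
    intro k
    rw [mq_mul_smul, mq_mul_smul, rho_c0, rho_ci]
  have h2 : ∀ k : SL(2,ℤ), e0 (mq (k * rho * rho) • c0) (mq (k * rho * rho) • ci) =
      e0 (mq k • c1) (mq k • c0) := by
    intro k
    rw [mq_mul_smul, mq_mul_smul, rho_c0, rho_ci, mq_mul_smul, mq_mul_smul, rho_ci, rho_c1]
  rw [aa_eq, aa_eq, aa_eq, tt, tt, ← mul_assoc, ← mul_assoc, ← mul_assoc, h1, h1, h2, h2]
  ring

lemma finsum_T6 (f : SL(2,ℤ) → ℤ) : (by classical exact ∑ᶠ g, (if g ∈ T6 then f g else 0)) =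
    ∑ g ∈ T6, f g := by
  classical
  rw [finsum_eq_sum_of_support_subset (s := T6)]
  · exact Finset.sum_congr rfl fun g hg => if_pos hg
  · intro g hg
    by_contra h
    exact hg (if_neg h)

open Classical in
lemma sum_B {Γ : Subgroup SL(2,ℤ)} (x : Additive Γ →+ ℤ) {B : SL(2,ℤ) → ℤ}
    (hB : ∀ (γ : Γ) (g : SL(2,ℤ)), B (γ * g) = x (Additive.ofMul γ) + B g)
    (hB2 : ∀ g : SL(2,ℤ), B (g * rho) = B g) (γ : Γ) :
    ∑ᶠ g, B g * aa γ g = 2 * x (Additive.ofMul γ) := by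
  have fin1 : ∀ e : SL(2,ℤ) ≃ SL(2,ℤ), ∀ f : SL(2,ℤ) → ℤ,
      (Function.support fun g => f g * aa γ (e g)).Finite := by
    intro e f
    refine ((aa_fin γ).preimage e.injective.injOn).subset fun g hg => ?_
    intro h0
    exact hg (by
      change f g * aa γ (e g) = 0
      rw [h0, mul_zero])
  have e1 : ∑ᶠ g, B g * aa γ (g * rho) = ∑ᶠ g, B g * aa γ g := by
    rw [← finsum_comp_equiv (Equiv.mulRight rho) (f := fun g => B g * aa γ g)]
    refine finsum_congr fun g => ?_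
    change _ = B (g * rho) * aa γ (g * rho)
    rw [hB2]
  have e2 : ∑ᶠ g, B g * aa γ (g * rho * rho) = ∑ᶠ g, B g * aa γ g := by
    rw [← e1, ← finsum_comp_equiv (Equiv.mulRight rho) (f := fun g => B g * aa γ (g * rho))]
    refine finsum_congr fun g => ?_
    change _ = B (g * rho) * aa γ (g * rho * rho)
    rw [hB2]
  have f1 : (Function.support fun g => B g * aa γ g).Finite := fin1 (Equiv.refl _) B
  have f2 : (Function.support fun g => B g * aa γ (g * rho)).Finite := fin1 (Equiv.mulRight rho) B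
  have f3 := fin1 (Equiv.mulRight (rho * rho)) B
  have f3' : (Function.support fun g => B g * aa γ (g * rho * rho)).Finite := by
    have : (fun g => B g * aa γ (g * rho * rho)) = fun g => B g * aa γ (Equiv.mulRight (rho * rho) g) := by
      funext g
      change _ = B g * aa γ (g * (rho * rho))
      rw [mul_assoc]
    rw [this]; exact f3
  have e3 : 3 * ∑ᶠ g, B g * aa γ g = ∑ᶠ g, B g * (tt ((γ : SL(2,ℤ))⁻¹ * g) - tt g) := by
    have : 3 * ∑ᶠ g, B g * aa γ g = (∑ᶠ g, B g * aa γ g) + (∑ᶠ g, B g * aa γ (g * rho)) +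
        ∑ᶠ g, B g * aa γ (g * rho * rho) := by
      rw [e1, e2]; ring
    rw [this, ← finsum_add_distrib f1 f2, ← finsum_add_distrib
      ((f1.union f2).subset (Function.support_add _ _)) f3']
    refine finsum_congr fun g => ?_
    rw [← aa_rho]
    ring
  have e4 : ∑ᶠ g, B g * (tt ((γ : SL(2,ℤ))⁻¹ * g) - tt g) =
      ∑ᶠ g, ((if (γ : SL(2,ℤ))⁻¹ * g ∈ T6 then B g else 0) - (if g ∈ T6 then B g else 0)) := by
    refine finsum_congr fun g => ?_
    rw [tt_eq, tt_eq]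
    split_ifs <;> ring
  have g2 : (Function.support fun g : SL(2,ℤ) => (if g ∈ T6 then B g else 0)).Finite :=
    T6.finite_toSet.subset fun g hg => by
      by_contra h
      exact hg (if_neg h)
  have g1 : (Function.support fun g : SL(2,ℤ) => (if (γ : SL(2,ℤ))⁻¹ * g ∈ T6 then B g else 0)).Finite := by
    refine (T6.finite_toSet.preimage (f := fun g => (γ : SL(2,ℤ))⁻¹ * g)
      (mul_right_injective _).injOn).subset fun g hg => ?_
    by_contra h
    exact hg (if_neg h)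
  have e5 : ∑ᶠ g : SL(2,ℤ), (if (γ : SL(2,ℤ))⁻¹ * g ∈ T6 then B g else 0) =
      ∑ᶠ g : SL(2,ℤ), (if g ∈ T6 then B (γ * g) else 0) := by
    rw [← finsum_comp_equiv (Equiv.mulLeft (γ : SL(2,ℤ)))
      (f := fun g : SL(2,ℤ) => (if (γ : SL(2,ℤ))⁻¹ * g ∈ T6 then B g else 0))]
    refine finsum_congr fun g => ?_
    change (if (γ : SL(2,ℤ))⁻¹ * (γ * g) ∈ T6 then B (γ * g) else 0) = _
    rw [inv_mul_cancel_left]
  have e6 : ∑ᶠ g : SL(2,ℤ), (if g ∈ T6 then B (γ * g) else 0) = ∑ g ∈ T6, B (γ * g) :=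
    finsum_T6 fun g => B (γ * g)
  have e7 : ∑ᶠ g : SL(2,ℤ), (if g ∈ T6 then B g else 0) = ∑ g ∈ T6, B g := finsum_T6 B
  rw [e4, finsum_sub_distrib g1 g2, e5, e6, e7, ← Finset.sum_sub_distrib] at e3
  have e8 : ∑ g ∈ T6, (B (γ * g) - B g) = 6 * x (Additive.ofMul γ) := by
    rw [Finset.sum_congr rfl fun g _ => by rw [hB, add_sub_cancel_right], Finset.sum_const, T6_card]
    simp
  rw [e8] at e3
  linarith

lemma sum_A {A : SL(2,ℤ) → ℤ} (hA2 : ∀ g : SL(2,ℤ), A (g * sS) = A g) (γ : SL(2,ℤ)) :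
    ∑ᶠ g, A g * aa γ g = 0 := by
  have e1 : ∑ᶠ g, A g * aa γ g = - ∑ᶠ g, A g * aa γ g := by
    conv_lhs => rw [← finsum_comp_equiv (Equiv.mulRight sS) (f := fun g => A g * aa γ g)]
    rw [← finsum_neg_distrib]
    refine finsum_congr fun g => ?_
    change A (g * sS) * aa γ (g * sS) = _
    rw [hA2, aa_S]
    ring
  linarith

/-- right cosets -/
abbrev Rc (Γ : Subgroup SL(2,ℤ)) := Quotient (QuotientGroup.rightRel Γ)

/-- decomposition in right cosets -/
def decE (Γ : Subgroup SL(2,ℤ)) : Rc Γ × Γ ≃ SL(2,ℤ) where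
  toFun p := p.2 * p.1.out
  invFun g := (Quotient.mk _ g, ⟨g * (Quotient.mk (QuotientGroup.rightRel Γ) g).out⁻¹, by
    have h : (QuotientGroup.rightRel Γ) (Quotient.mk (QuotientGroup.rightRel Γ) g).out g :=
      Quotient.mk_out g
    exact QuotientGroup.rightRel_apply.mp h⟩)
  left_inv p := by
    obtain ⟨q, h⟩ := p
    have h1 : (Quotient.mk (QuotientGroup.rightRel Γ) ((h : SL(2,ℤ)) * q.out)) = q := by
      conv_rhs => rw [← Quotient.out_eq q]
      apply Quotient.sound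
      change (QuotientGroup.rightRel Γ) _ _
      rw [QuotientGroup.rightRel_apply]
      have : q.out * ((h : SL(2,ℤ)) * q.out)⁻¹ = (h : SL(2,ℤ))⁻¹ := by group
      rw [this]
      exact inv_mem h.2
    apply Prod.ext
    · exact h1
    · apply Subtype.ext
      change ((h : SL(2,ℤ)) * q.out) * (Quotient.mk (QuotientGroup.rightRel Γ) ((h : SL(2,ℤ)) * q.out)).out⁻¹ = h
      rw [h1]
      group
  right_inv g := by
    change (g * (Quotient.mk (QuotientGroup.rightRel Γ) g).out⁻¹) * (Quotient.mk (QuotientGroup.rightRel Γ) g).out = g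
    group

/-- **surjectivity up to 2** -/
theorem IP_surj {M : ℕ} [NeZero M] (x : X M) : ∃ D : Dv, IP M D = 2 • x := by
  classical
  set Γ := Gamma0 M with hΓ
  have : Finite (SL(2,ℤ) ⧸ Γ) := inferInstance
  have hfin : Finite (Rc Γ) :=
    Finite.of_equiv _ (QuotientGroup.quotientRightRelEquivQuotientLeftRel Γ).symm
  have := Fintype.ofFinite (Rc Γ)
  have hr : IsOfFinOrder rho := isOfFinOrder_iff_pow_eq_one.mpr ⟨6, by norm_num, by decide +kernel⟩
  have hs : IsOfFinOrder sS := isOfFinOrder_iff_pow_eq_one.mpr ⟨4, by norm_num, by decide +kernel⟩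
  have : Finite (Subgroup.zpowers rho) := finite_zpowers.mpr hr
  have : Finite (Subgroup.zpowers sS) := finite_zpowers.mpr hs
  obtain ⟨B, hB⟩ := exists_quasi x (Subgroup.zpowers rho)
  obtain ⟨A, hA⟩ := exists_quasi x (Subgroup.zpowers sS)
  have hB1 : ∀ (γ : Γ) (g : SL(2,ℤ)), B (γ * g) = x (Additive.ofMul γ) + B g := by
    intro γ g
    have := hB γ g 1 (one_mem _)
    rwa [mul_one] at this
  have hA1 : ∀ (γ : Γ) (g : SL(2,ℤ)), A (γ * g) = x (Additive.ofMul γ) + A g := by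
    intro γ g
    have := hA γ g 1 (one_mem _)
    rwa [mul_one] at this
  have hx0 : x (Additive.ofMul (1 : Γ)) = 0 := by rw [ofMul_one, map_zero]
  have hB2 : ∀ g : SL(2,ℤ), B (g * rho) = B g := by
    intro g
    have := hB 1 g rho (Subgroup.mem_zpowers _)
    rwa [Subgroup.coe_one, one_mul, hx0, zero_add] at this
  have hA2 : ∀ g : SL(2,ℤ), A (g * sS) = A g := by
    intro g
    have := hA 1 g sS (Subgroup.mem_zpowers _)
    rwa [Subgroup.coe_one, one_mul, hx0, zero_add] at this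
  refine ⟨∑ q : Rc Γ, Finsupp.single (mq q.out • c0, mq q.out • ci) (B q.out - A q.out), ?_⟩
  ext γ
  set γ0 : Γ := Additive.toMul γ with hγ0
  change ev (iota Γ γ0) _ = 2 • x γ
  rw [map_sum]
  have h1 : ∀ q : Rc Γ, ev (iota Γ γ0) (Finsupp.single (mq q.out • c0, mq q.out • ci)
      (B q.out - A q.out)) = ∑ᶠ h : Γ, (B (h * q.out) - A (h * q.out)) * aa γ0 (h * q.out) := by
    intro q
    rw [ev_single]
    change _ * cc Γ (mq (γ0 : SL(2,ℤ))⁻¹) 1 (mq q.out • c0) (mq q.out • ci) = _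
    rw [cc, mul_finsum]
    refine finsum_congr fun h => ?_
    rw [hB1, hA1]
    have e : sm (mq (γ0 : SL(2,ℤ))⁻¹) 1 (mq q.out • c0) (mq q.out • ci) h = aa γ0 (h * q.out) := by
      rw [aa, sm, sm, mq_mul_smul, mq_mul_smul]
    rw [e]
    ring
  rw [Finset.sum_congr rfl fun q _ => h1 q, ← finsum_eq_sum_of_fintype]
  let F : SL(2,ℤ) → ℤ := fun g => (B g - A g) * aa γ0 g
  have hF : (Function.support F).Finite := (aa_fin γ0).subset fun g hg => by
    intro h0
    apply hg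
    change (B g - A g) * aa γ0 g = 0
    rw [h0, mul_zero]
  have h2 : (∑ᶠ q : Rc Γ, ∑ᶠ h : Γ, (B (h * q.out) - A (h * q.out)) * aa γ0 (h * q.out)) =
      ∑ᶠ p : Rc Γ × Γ, F (decE Γ p) := by
    rw [finsum_curry (fun p : Rc Γ × Γ => F (decE Γ p)) (hF.preimage (decE Γ).injective.injOn)]
    rfl
  rw [h2, finsum_comp_equiv]
  have fB : (Function.support fun g => B g * aa γ0 g).Finite := (aa_fin γ0).subset fun g hg => by
    intro h0
    apply hg
    change B g * aa γ0 g = 0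
    rw [h0, mul_zero]
  have fA : (Function.support fun g => A g * aa γ0 g).Finite := (aa_fin γ0).subset fun g hg => by
    intro h0
    apply hg
    change A g * aa γ0 g = 0
    rw [h0, mul_zero]
  have h3 : ∑ᶠ g, F g = (∑ᶠ g, B g * aa γ0 g) - ∑ᶠ g, A g * aa γ0 g := by
    rw [← finsum_sub_distrib fB fA]
    exact finsum_congr fun g => sub_mul _ _ _
  rw [h3, sum_B x hB1 hB2 γ0, sum_A hA2, sub_zero]
  rw [two_smul, two_mul]
  rfl

end Fermat.Agent.LR
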