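import Fermat.Agent.LR.Adj
import Fermat.Agent.LR.Fam
import Fermat.Agent.LR.Surj2

/-!
# Equivariance of the intersection pairing: `T_ℓ`, `j₁`, `j₂`
-/

set_option autoImplicit false

noncomputable section

namespace Fermat.Agent.LR

open CongruenceSubgroup Matrix.SpecialLinearGroup Fermat.Agent.Ihara Fermat.Agent.AnJac
open scoped MatrixGroups

lemma mq_mul (a b : SL(2,ℤ)) : mq (a * b) = mq a * mq b := map_mul _ _ _
lemma mq_inv (a : SL(2,ℤ)) : mq a⁻¹ = (mq a)⁻¹ := map_inv _ _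

theorem adj2 {Γ Γ' : Subgroup SL(2,ℤ)} {ι ι' : Type*} [Fintype ι] [Fintype ι']
    (F : WF Γ Γ' ι) (A' : ι' → GL (Fin 2) ℚ) (hA : ∀ i, 0 < dt (F.A i))
    (c : GL (Fin 2) ℚ) (hc : ∀ x : Cusp, c • x = x)
    (ex1 : ∀ (i' : ι') (h : Γ'), ∃ (i : ι) (h' : Γ), mq h * A' i' = c * ((F.A i)⁻¹ * mq h'))
    (ex2 : ∀ (i : ι) (h' : Γ), ∃ (i' : ι') (h : Γ'), mq h * A' i' = c * ((F.A i)⁻¹ * mq h'))
    (uq1 : ∀ (i j : ι) (g : Γ), F.A i = mq g * F.A j → i = j)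
    (uq2 : ∀ (i j : ι') (g : Γ'), A' i = mq g * A' j → i = j)
    (γ : Γ') (α β : Cusp) :
    ∑ i', iota Γ' γ (A' i' • α) (A' i' • β) = ∑ i, iota Γ (F.g γ i) α β := by
  have ex1' : ∀ p : ι' × Γ', ∃ p' : ι × Γ, mq p.2 * A' p.1 = c * ((F.A p'.1)⁻¹ * mq p'.2) := by
    intro p
    obtain ⟨i, h', e⟩ := ex1 p.1 p.2
    exact ⟨(i, h'), e⟩
  choose f hf using ex1'
  have hinj : Function.Injective f := by
    intro p p2 e
    have h1 := hf p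
    rw [e, ← hf p2] at h1
    have h2 : A' p.1 = mq ((p.2⁻¹ * p2.2 : Γ') : SL(2,ℤ)) * A' p2.1 := by
      rw [Subgroup.coe_mul, mq_mul, Subgroup.coe_inv, mq_inv, mul_assoc, ← h1, inv_mul_cancel_left]
    have h3 := uq2 _ _ _ h2
    rw [h3] at h1
    have h4 := mul_right_cancel h1
    exact Prod.ext h3 (Subtype.ext (mapGLQ_inj h4))
  have hsurj : Function.Surjective f := by
    intro p'
    obtain ⟨i', h, e⟩ := ex2 p'.1 p'.2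
    refine ⟨(i', h), ?_⟩
    have h1 := hf (i', h)
    change mq h * A' i' = _ at h1
    rw [e] at h1
    have h2 := mul_left_cancel h1
    have h3 : F.A (f (i', h)).1 = mq (((f (i', h)).2 * p'.2⁻¹ : Γ) : SL(2,ℤ)) * F.A p'.1 := by
      rw [Subgroup.coe_mul, mq_mul, Subgroup.coe_inv, mq_inv]
      have h4 : mq ((f (i', h)).2 : SL(2,ℤ)) = F.A (f (i', h)).1 * ((F.A p'.1)⁻¹ * mq p'.2) := by
        rw [h2, mul_inv_cancel_left]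
      change _ = mq ((f (i', h)).2 : SL(2,ℤ)) * _ * _
      rw [h4]
      simp only [mul_assoc, mul_inv_cancel_left, inv_mul_cancel, mul_one]
    have h5 := uq1 _ _ _ h3
    refine Prod.ext h5 ?_
    rw [h5] at h2
    exact (Subtype.ext (mapGLQ_inj (mul_left_cancel h2))).symm
  refine adj F.A A' hA γ (F.g γ) (F.sE γ) (fun i => F.spec γ i) (Equiv.ofBijective f ⟨hinj, hsurj⟩)
    (fun p x => ?_) α β
  change _ = (F.A (f p).1)⁻¹ • mq (f p).2 • x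
  rw [← mul_smul, ← mul_smul, hf, mul_smul c, hc]

lemma sc_smul (q : ℕ) [hq : Fact q.Prime] (x : Cusp) : sc q • x = x := by
  have hq0 := q_ne q
  induction x using OnePoint.rec with
  | infty =>
    rw [OnePoint.smul_infty_eq_ite]
    exact if_pos (sc_10 q)
  | coe x =>
    rw [OnePoint.smul_some_eq_ite, sc_00, sc_01, sc_10, sc_11, if_neg (by simpa using hq0)]
    congr 1
    rw [zero_mul, zero_add, add_zero, mul_div_cancel_left₀ _ hq0]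

variable {N q : ℕ} [hq : Fact q.Prime]

/-- `j₁` -/
theorem iota_w1 (hqN : ¬ q ∣ N) (γ : Gamma0 N) (α β : Cusp) :
    iota (Gamma0 N) γ α β = ∑ i, iota (Gamma0 (N * q)) ((w1 N q hqN).g γ i) α β := by
  rw [← adj2 (w1 N q hqN) (fun _ : Unit => (1 : GL (Fin 2) ℚ)) (fun i => ?_) 1 (one_smul _)
    (fun i' h => ?_) (fun i h' => ?_) (uniq1 hqN) (fun _ _ _ _ => rfl) γ α β]
  · simp
  · rw [w1_A]; exact dt_pos_mq _
  · obtain ⟨g, i, e⟩ := cos1 hqN h⁻¹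
    refine ⟨i, g⁻¹, ?_⟩
    rw [mul_one, one_mul, w1_A]
    have e' : mq ((h⁻¹ : Gamma0 N) : SL(2,ℤ)) = mq (g : SL(2,ℤ)) * mq (bt hqN i : SL(2,ℤ)) := e
    have e2 : mq (h : SL(2,ℤ)) = (mq ((h⁻¹ : Gamma0 N) : SL(2,ℤ)))⁻¹ := by
      rw [Subgroup.coe_inv, mq_inv, inv_inv]
    rw [e2, e', mul_inv_rev]
    congr 1
    rw [Subgroup.coe_inv, mq_inv]
  · refine ⟨(), (bt hqN i)⁻¹ * ⟨h', Gamma0_mul_le N q h'.2⟩, ?_⟩
    rw [mul_one, one_mul, w1_A, Subgroup.coe_mul, mq_mul, Subgroup.coe_inv, mq_inv]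

/-- `j₂` -/
theorem iota_w2 (hqN : ¬ q ∣ N) (γ : Gamma0 N) (α β : Cusp) :
    iota (Gamma0 N) γ (um q 0 1 • α) (um q 0 1 • β) =
      ∑ i, iota (Gamma0 (N * q)) ((w2 N q hqN).g γ i) α β := by
  have hdl : 0 < dt (um q 0 1) := by
    rw [Ihara.dt, dl_00, dl_01, dl_10, dl_11]
    have := hq.out.pos
    simp [this]
  rw [← adj2 (w2 N q hqN) (fun _ : Unit => um q 0 1) (fun i => ?_) 1 (one_smul _)
    (fun i' h => ?_) (fun i h' => ?_) (uniq2 hqN) (fun _ _ _ _ => rfl) γ α β]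
  · simp
  · rw [w2_A]; exact dt_pos_mul (dt_pos_inv hdl) (dt_pos_mq _)
  · obtain ⟨g, i, e⟩ := cos2 hqN h⁻¹
    refine ⟨i, g⁻¹, ?_⟩
    rw [one_mul, w2_A]
    have e' : (um q 0 1)⁻¹ * mq ((h⁻¹ : Gamma0 N) : SL(2,ℤ)) =
      mq (g : SL(2,ℤ)) * ((um q 0 1)⁻¹ * mq (bt2 hqN i : SL(2,ℤ))) := e
    have e2 : mq (h : SL(2,ℤ)) * um q 0 1 = ((um q 0 1)⁻¹ * mq ((h⁻¹ : Gamma0 N) : SL(2,ℤ)))⁻¹ := by
      rw [Subgroup.coe_inv, mq_inv, mul_inv_rev, inv_inv, inv_inv]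
    rw [e2, e', mul_inv_rev]
    congr 1
    rw [Subgroup.coe_inv, mq_inv]
  · obtain ⟨g', hg'⟩ := exists_conj h'
    refine ⟨(), (bt2 hqN i)⁻¹ * g', ?_⟩
    have hg2 : um q 0 1 * mq (h' : SL(2,ℤ)) = mq (g' : SL(2,ℤ)) * um q 0 1 := hg'
    rw [one_mul, w2_A, Subgroup.coe_mul, mq_mul, Subgroup.coe_inv, mq_inv, mul_inv_rev, inv_inv,
      mul_assoc, mul_assoc, hg2]

/-- adjugate -/
lemma rq_adj (ℓ : ℕ) [hℓ : Fact ℓ.Prime] (N : ℕ) (i : OnePoint (ZMod ℓ)) :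
    ∃ a : GL (Fin 2) ℚ, IM N ℓ a ∧ rq ℓ i * a = sc ℓ ∧ a * rq ℓ i = sc ℓ := by
  have hℓ0 : ℓ ≠ 0 := hℓ.out.ne_zero
  have hne : (ed ℓ i : ℚ) * (ea ℓ i : ℚ) ≠ 0 := by
    have : (ea ℓ i : ℚ) * ed ℓ i = ℓ := by exact_mod_cast ea_ed ℓ i
    rw [mul_comm, this]; exact_mod_cast hℓ0
  have h := ea_ed ℓ i
  have h' : (ea ℓ i : ℚ) * ed ℓ i = ℓ := by exact_mod_cast h
  refine ⟨um (ed ℓ i) (-(eb ℓ i)) (ea ℓ i), ⟨ed ℓ i, -(eb ℓ i), 0, ea ℓ i, ?_, ?_, ?_, ?_, ?_⟩, ?_, ?_⟩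
  · rw [um_00 hne]
  · rw [um_01 hne]; push_cast; rfl
  · rw [um_10 hne]; simp
  · rw [um_11 hne]
  · rw [← h]; ring
  · apply gl_ext
    · rw [mul_00, rq_00 hℓ0, rq_01 hℓ0, um_00 hne, um_10 hne, sc_00, ← h']; ring
    · rw [mul_01, rq_00 hℓ0, rq_01 hℓ0, um_01 hne, um_11 hne, sc_01]; ring
    · rw [mul_10, rq_10 hℓ0, rq_11 hℓ0, um_00 hne, um_10 hne, sc_10]; ring
    · rw [mul_11, rq_10 hℓ0, rq_11 hℓ0, um_01 hne, um_11 hne, sc_11, ← h']; ring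
  · apply gl_ext
    · rw [mul_00, rq_00 hℓ0, rq_10 hℓ0, um_00 hne, um_01 hne, sc_00, ← h']; ring
    · rw [mul_01, rq_01 hℓ0, rq_11 hℓ0, um_00 hne, um_01 hne, sc_01]; ring
    · rw [mul_10, rq_00 hℓ0, rq_10 hℓ0, um_10 hne, um_11 hne, sc_10]; ring
    · rw [mul_11, rq_01 hℓ0, rq_11 hℓ0, um_10 hne, um_11 hne, sc_11, ← h']; ring

/-- `T_ℓ` -/
theorem iota_T {M ℓ : ℕ} [hℓ : Fact ℓ.Prime] (hℓM : ¬ ℓ ∣ M) (γ : Gamma0 M) (α β : Cusp) :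
    ∑ i, iota (Gamma0 M) γ (rq ℓ i • α) (rq ℓ i • β) =
      ∑ i, iota (Gamma0 M) ((wT M ℓ hℓM).g γ i) α β := by
  have hℓ0 : ℓ ≠ 0 := hℓ.out.ne_zero
  have key : ∀ (i : OnePoint (ZMod ℓ)) (h : Gamma0 M), ∃ (j : OnePoint (ZMod ℓ)) (k : Gamma0 M),
      mq h * rq ℓ i = sc ℓ * ((rq ℓ j)⁻¹ * mq k) := by
    intro i h
    obtain ⟨a, ha, ha1, ha2⟩ := rq_adj ℓ M i
    have h1 : IM M ℓ (a * mapGL ℚ ((h⁻¹ : Gamma0 M) : SL(2,ℤ))) := by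
      have := ha.mul (IM_mapGL (h⁻¹).2)
      rwa [mul_one] at this
    obtain ⟨y, j, hy⟩ := h1.exists_rq1 hℓM
    refine ⟨j, y⁻¹, ?_⟩
    -- `a h⁻¹ = y A_j`, so `h = A_j⁻¹ y⁻¹ a`
    have e1 : mq (h : SL(2,ℤ)) = (mapGL ℚ ((h⁻¹ : Gamma0 M) : SL(2,ℤ)))⁻¹ := by
      rw [Subgroup.coe_inv, map_inv, inv_inv]
    have e2 : (mapGL ℚ ((h⁻¹ : Gamma0 M) : SL(2,ℤ)))⁻¹ = (rq ℓ j)⁻¹ * (mapGL ℚ (y : SL(2,ℤ)))⁻¹ * a := by
      rw [← mul_inv_rev, ← hy, mul_inv_rev, inv_mul_cancel_right]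
    have e3 : mq ((y⁻¹ : Gamma0 M) : SL(2,ℤ)) = (mapGL ℚ (y : SL(2,ℤ)))⁻¹ := by
      rw [Subgroup.coe_inv]; exact map_inv _ _
    rw [e1, e2, e3, mul_assoc _ a, ha2, sc_comm]
  have key2 : ∀ (i : OnePoint (ZMod ℓ)) (h' : Gamma0 M), ∃ (i' : OnePoint (ZMod ℓ)) (h : Gamma0 M),
      mq h * rq ℓ i' = sc ℓ * ((rq ℓ i)⁻¹ * mq h') := by
    intro i h'
    obtain ⟨j, k, e⟩ := key i h'⁻¹
    refine ⟨j, k⁻¹, ?_⟩
    have e1 : mq ((h'⁻¹ : Gamma0 M) : SL(2,ℤ)) = (mq (h' : SL(2,ℤ)))⁻¹ := by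
      rw [Subgroup.coe_inv]; exact map_inv _ _
    have e2 : mq ((k⁻¹ : Gamma0 M) : SL(2,ℤ)) = (mq (k : SL(2,ℤ)))⁻¹ := by
      rw [Subgroup.coe_inv]; exact map_inv _ _
    rw [e1] at e
    rw [e2]
    -- `h'⁻¹ A_i = s A_j⁻¹ k`
    have e3 : mq (k : SL(2,ℤ)) = rq ℓ j * ((sc ℓ)⁻¹ * ((mq (h' : SL(2,ℤ)))⁻¹ * rq ℓ i)) := by
      rw [e, inv_mul_cancel_left, mul_inv_cancel_left]
    have e4 : (mq (k : SL(2,ℤ)))⁻¹ = (rq ℓ i)⁻¹ * mq (h' : SL(2,ℤ)) * sc ℓ * (rq ℓ j)⁻¹ := by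
      rw [e3]; simp only [mul_inv_rev, inv_inv, mul_assoc]
    rw [e4, inv_mul_cancel_right, ← sc_comm]
  have hdet : ∀ i : OnePoint (ZMod ℓ), 0 < dt ((wT M ℓ hℓM).A i) := by
    intro i
    change 0 < dt (rq ℓ i)
    rw [Ihara.dt, rq_00 hℓ0, rq_01 hℓ0, rq_10 hℓ0, rq_11 hℓ0, mul_zero, sub_zero]
    have h : (ea ℓ i : ℚ) * ed ℓ i = ℓ := by exact_mod_cast ea_ed ℓ i
    rw [h]
    exact_mod_cast hℓ.out.pos
  exact adj2 (wT M ℓ hℓM) (rq ℓ) hdet (sc ℓ) (sc_smul ℓ) key key2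
    (fun i j g e => rq_uniq e) (fun i j g e => rq_uniq e) γ α β

/-! ### in terms of `IP` -/

lemma ev_sum {κ : Type*} (s : Finset κ) (f : κ → Cusp → Cusp → ℤ) (D : Dv) :
    ev (∑ i ∈ s, f i) D = ∑ i ∈ s, ev (f i) D := by
  induction D using Finsupp.induction_linear with
  | zero => simp
  | add a b ha hb =>
    simp only [map_add]
    rw [ha, hb, Finset.sum_add_distrib]
  | single c n =>
    simp only [ev_single]
    rw [Finset.sum_apply, Finset.sum_apply, Finset.mul_sum]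

lemma ev_add' (f f' : Cusp → Cusp → ℤ) (D : Dv) : ev (f + f') D = ev f D + ev f' D := by
  induction D using Finsupp.induction_linear with
  | zero => simp
  | add a b ha hb =>
    simp only [map_add]
    rw [ha, hb]; ring
  | single c n =>
    simp only [ev_single]
    simp [mul_add]

/-- `j₁ (IP D) = IP D` -/
theorem j1_IP (hqN : ¬ q ∣ N) (D : Dv) : j1 N q hqN (IP (N * q) D) = IP N D := by
  refine AddMonoidHom.ext fun x => ?_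
  obtain ⟨γ, rfl⟩ := Additive.ofMul.surjective x
  rw [j1, WF.T_apply, IP_apply]
  simp only [IP_apply]
  rw [← ev_sum]
  congr 1
  congr 1
  funext α β
  rw [iota_w1 hqN, Finset.sum_apply, Finset.sum_apply]

/-- `j₂ (IP D) = IP (δ D)` -/
theorem j2_IP (hqN : ¬ q ∣ N) (D : Dv) : j2 N q hqN (IP (N * q) D) = IP N (mv (um q 0 1) D) := by
  refine AddMonoidHom.ext fun x => ?_
  obtain ⟨γ, rfl⟩ := Additive.ofMul.surjective x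
  rw [j2, WF.T_apply, IP_apply, ev_mv]
  simp only [IP_apply]
  rw [← ev_sum]
  congr 1
  congr 1
  funext α β
  rw [tr_apply, iota_w2 hqN, Finset.sum_apply, Finset.sum_apply]

/-- `T_ℓ (IP D)` is the evaluation of `T_ℓ ι` -/
theorem T_IP {M ℓ : ℕ} [hℓ : Fact ℓ.Prime] (hℓM : ¬ ℓ ∣ M) (D : Dv) (γ : Gamma0 M) :
    (hfT M ℓ hℓM).T (IP M D) (Additive.ofMul γ) = ev (TS ℓ (iota (Gamma0 M) γ)) D := by
  have h : (∑ i, iota (Gamma0 M) ((wT M ℓ hℓM).g γ i) : Cusp → Cusp → ℤ) =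
      ∑ i, tr (rq ℓ i) (iota (Gamma0 M) γ) := by
    funext α β
    rw [Finset.sum_apply, Finset.sum_apply, Finset.sum_apply, Finset.sum_apply]
    have := (iota_T hℓM γ α β).symm
    simp only [tr_apply]
    exact this
  rw [← wT_T, WF.T_apply, TS_eq_rq]
  simp only [IP_apply]
  rw [← ev_sum, h]

end Fermat.Agent.LR
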