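import Fermat.Agent.LR.Adj2
import Fermat.Agent.IharaL.Basic
import Mathlib.Algebra.FreeAlgebra
import Mathlib.Algebra.Star.Free

/-!
# Level raising: the algebra
-/

set_option autoImplicit false

noncomputable section

namespace Fermat.Agent.LR

open CongruenceSubgroup Matrix.SpecialLinearGroup Fermat.Agent.Ihara Fermat.Agent.AnJac
open scoped MatrixGroups

/-- the abstract Hecke algebra -/
abbrev TT (P : Set ℕ) := FreeAlgebra ℤ P

section equi

variable {P : Set ℕ} {A B : Type*} [AddCommGroup A] [AddCommGroup B]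

lemma equi (f : A →+ B) (oA : P → Module.End ℤ A) (oB : P → Module.End ℤ B)
    (h : ∀ ℓ a, f (oA ℓ a) = oB ℓ (f a)) (t : TT P) (a : A) :
    f (FreeAlgebra.lift ℤ oA t a) = FreeAlgebra.lift ℤ oB t (f a) := by
  induction t using FreeAlgebra.induction generalizing a with
  | grade0 r =>
    rw [AlgHom.commutes, AlgHom.commutes, Module.algebraMap_end_apply, Module.algebraMap_end_apply,
      map_zsmul]
  | grade1 ℓ => rw [FreeAlgebra.lift_ι_apply, FreeAlgebra.lift_ι_apply, h]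
  | mul s t hs ht => rw [map_mul, map_mul, Module.End.mul_apply, Module.End.mul_apply, hs, ht]
  | add s t hs ht =>
    rw [map_add, map_add, LinearMap.add_apply, LinearMap.add_apply, map_add, hs, ht]

lemma star_equi (b : A → B → ℤ) (hb0 : ∀ a a' c, b (a + a') c = b a c + b a' c)
    (hb1 : ∀ a c c', b a (c + c') = b a c + b a c') (oA : P → Module.End ℤ A)
    (oB : P → Module.End ℤ B) (h : ∀ ℓ a c, b (oA ℓ a) c = b a (oB ℓ c)) (t : TT P) (a : A) (c : B) :
    b (FreeAlgebra.lift ℤ oA t a) c = b a (FreeAlgebra.lift ℤ oB (star t) c) := by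
  have z0 : ∀ (n : ℤ) a c, b (n • a) c = n * b a c := by
    intro n a c
    let F : A →+ ℤ := AddMonoidHom.mk' (fun a => b a c) (fun a a' => hb0 a a' c)
    have := map_zsmul F n a
    simpa [F] using this
  have z1 : ∀ (n : ℤ) a c, b a (n • c) = n * b a c := by
    intro n a c
    let F : B →+ ℤ := AddMonoidHom.mk' (fun c => b a c) (fun c c' => hb1 a c c')
    have := map_zsmul F n c
    simpa [F] using this
  induction t using FreeAlgebra.induction generalizing a c with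
  | grade0 r =>
    rw [FreeAlgebra.star_algebraMap, AlgHom.commutes, AlgHom.commutes,
      Module.algebraMap_end_apply, Module.algebraMap_end_apply, z0, z1]
  | grade1 ℓ => rw [FreeAlgebra.star_ι, FreeAlgebra.lift_ι_apply, FreeAlgebra.lift_ι_apply, h]
  | mul s t hs ht =>
    rw [map_mul, star_mul, map_mul, Module.End.mul_apply, Module.End.mul_apply, hs, ht]
  | add s t hs ht =>
    rw [map_add, star_add, map_add, LinearMap.add_apply, LinearMap.add_apply, hb0, hb1, hs, ht]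

lemma star_hom {κ : Type*} [CommRing κ] (θ : TT P →+* κ) (t : TT P) : θ (star t) = θ t := by
  induction t using FreeAlgebra.induction with
  | grade0 r => rw [FreeAlgebra.star_algebraMap]
  | grade1 ℓ => rw [FreeAlgebra.star_ι]
  | mul s t hs ht => rw [star_mul, map_mul, map_mul, hs, ht, mul_comm]
  | add s t hs ht => rw [star_add, map_add, map_add, hs, ht]

end equi

/-- condition on the set of primes -/
def PM (P : Set ℕ) (M : ℕ) : Prop := ∀ ℓ ∈ P, ℓ.Prime ∧ ¬ ℓ ∣ M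

lemma PM.of_dvd {P : Set ℕ} {M M' : ℕ} (h : PM P M) (hM : M' ∣ M) : PM P M' :=
  fun ℓ hℓ => ⟨(h ℓ hℓ).1, fun h' => (h ℓ hℓ).2 (h'.trans hM)⟩

variable {P : Set ℕ} {M : ℕ} (hM : PM P M)

/-- `T_ℓ` on `X M` -/
def oX (ℓ : P) : Module.End ℤ (X M) :=
  haveI : Fact (ℓ : ℕ).Prime := ⟨(hM ℓ ℓ.2).1⟩
  ((hfT M ℓ (hM ℓ ℓ.2).2).T : X M →+ X M).toIntLinearMap

lemma oX_apply (ℓ : P) [hℓ : Fact (ℓ : ℕ).Prime] (h : ¬ (ℓ : ℕ) ∣ M) (x : X M) :
    oX hM ℓ x = (hfT M ℓ h).T x := rfl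

/-- `T_ℓ` on `S M` -/
def oS (ℓ : P) : Module.End ℤ (S M) :=
  haveI : Fact (ℓ : ℕ).Prime := ⟨(hM ℓ ℓ.2).1⟩
  (AddMonoidHom.mk' (fun φ : S M => (⟨TS ℓ φ.1, InSym.TS (hM ℓ ℓ.2).2 φ.2⟩ : S M)) (by
    intro φ ψ
    apply Subtype.ext
    change TS ℓ (φ.1 + ψ.1) = TS ℓ φ.1 + TS ℓ ψ.1
    rw [TS_eq_rq, TS_eq_rq, TS_eq_rq, ← Finset.sum_add_distrib]
    rfl)).toIntLinearMap

lemma coe_oS (ℓ : P) (φ : S M) : ((oS hM ℓ φ : S M) : Cusp → Cusp → ℤ) = TS ℓ φ.1 := rfl

/-- the action on `X M` -/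
def rX : TT P →ₐ[ℤ] Module.End ℤ (X M) := FreeAlgebra.lift ℤ (oX hM)

/-- the action on `S M` -/
def rS : TT P →ₐ[ℤ] Module.End ℤ (S M) := FreeAlgebra.lift ℤ (oS hM)

/-! ### formal combinations of elements of the group -/

/-- `T_ℓ` on formal combinations -/
def oZ (ℓ : P) : Module.End ℤ ((Gamma0 M) →₀ ℤ) :=
  haveI : Fact (ℓ : ℕ).Prime := ⟨(hM ℓ ℓ.2).1⟩
  Finsupp.lsum ℤ fun γ => LinearMap.toSpanSingleton ℤ _
    (∑ i, Finsupp.single ((wT M ℓ (hM ℓ ℓ.2).2).g γ i) 1)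

/-- the pairing -/
def pz (x : X M) (z : (Gamma0 M) →₀ ℤ) : ℤ := z.sum fun γ n => n * x (Additive.ofMul γ)

lemma pz_add_right (x : X M) (z z' : (Gamma0 M) →₀ ℤ) : pz x (z + z') = pz x z + pz x z' := by
  rw [pz, pz, pz, Finsupp.sum_add_index']
  · intro a; rw [zero_mul]
  · intro a b c; rw [add_mul]

lemma pz_single (x : X M) (γ : Gamma0 M) (n : ℤ) :
    pz x (Finsupp.single γ n) = n * x (Additive.ofMul γ) := by
  rw [pz, Finsupp.sum_single_index]
  rw [zero_mul]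

lemma pz_add_left (x x' : X M) (z : (Gamma0 M) →₀ ℤ) : pz (x + x') z = pz x z + pz x' z := by
  induction z using Finsupp.induction_linear with
  | zero => simp [pz]
  | add a b ha hb => rw [pz_add_right, pz_add_right, pz_add_right, ha, hb]; ring
  | single γ n => rw [pz_single, pz_single, pz_single, AddMonoidHom.add_apply]; ring

lemma pz_sum_right {κ : Type*} (s : Finset κ) (x : X M) (z : κ → (Gamma0 M) →₀ ℤ) :
    pz x (∑ i ∈ s, z i) = ∑ i ∈ s, pz x (z i) := by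
  classical
  induction s using Finset.induction_on with
  | empty => simp [pz]
  | insert a s ha ih => rw [Finset.sum_insert ha, Finset.sum_insert ha, pz_add_right, ih]

lemma pz_smul_right (n : ℤ) (x : X M) (z : (Gamma0 M) →₀ ℤ) : pz x (n • z) = n * pz x z := by
  let F : ((Gamma0 M) →₀ ℤ) →+ ℤ := AddMonoidHom.mk' (fun z => pz x z) (pz_add_right x)
  have := map_zsmul F n z
  simpa [F] using this

lemma oZ_single (ℓ : P) [hℓ : Fact (ℓ : ℕ).Prime] (h : ¬ (ℓ : ℕ) ∣ M) (γ : Gamma0 M) (n : ℤ) :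
    oZ hM ℓ (Finsupp.single γ n) = n • ∑ i, Finsupp.single ((wT M ℓ h).g γ i) 1 := by
  rw [oZ, Finsupp.lsum_single]
  rfl

lemma pz_oX (ℓ : P) (x : X M) (z : (Gamma0 M) →₀ ℤ) : pz (oX hM ℓ x) z = pz x (oZ hM ℓ z) := by
  haveI : Fact (ℓ : ℕ).Prime := ⟨(hM ℓ ℓ.2).1⟩
  induction z using Finsupp.induction_linear with
  | zero => simp [pz]
  | add a b ha hb => rw [map_add, pz_add_right, pz_add_right, ha, hb]
  | single γ n =>
    rw [oZ_single hM ℓ (hM ℓ ℓ.2).2, pz_single, pz_smul_right, pz_sum_right,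
      oX_apply hM ℓ (hM ℓ ℓ.2).2, ← wT_T, WF.T_apply]
    congr 1
    refine Finset.sum_congr rfl fun i _ => ?_
    rw [pz_single, one_mul]

/-- `iota` as an additive map -/
def iz (M : ℕ) : ((Gamma0 M) →₀ ℤ) →+ S M :=
  Finsupp.liftAddHom fun γ => (smulAddHom ℤ (S M)).flip ⟨iota (Gamma0 M) γ, iota_mem γ.2⟩

lemma iz_single (γ : Gamma0 M) (n : ℤ) :
    iz M (Finsupp.single γ n) = n • (⟨iota (Gamma0 M) γ, iota_mem γ.2⟩ : S M) := by
  rw [iz, Finsupp.liftAddHom_apply_single]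
  rfl

lemma iz_oZ (ℓ : P) (z : (Gamma0 M) →₀ ℤ) : iz M (oZ hM ℓ z) = oS hM ℓ (iz M z) := by
  haveI : Fact (ℓ : ℕ).Prime := ⟨(hM ℓ ℓ.2).1⟩
  induction z using Finsupp.induction_linear with
  | zero => rw [map_zero, map_zero, map_zero]
  | add a b ha hb => rw [map_add, map_add, map_add, map_add, ha, hb]
  | single γ n =>
    rw [oZ_single hM ℓ (hM ℓ ℓ.2).2, iz_single, map_zsmul, map_zsmul, map_sum]
    congr 1
    apply Subtype.ext
    rw [coe_oS, TS_eq_rq, AddSubmonoidClass.coe_finset_sum]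
    funext α β
    rw [Finset.sum_apply, Finset.sum_apply, Finset.sum_apply, Finset.sum_apply]
    simp only [iz_single, one_smul, tr_apply]
    exact (iota_T (hM ℓ ℓ.2).2 γ α β).symm

lemma ev_iz (z : (Gamma0 M) →₀ ℤ) (D : Dv) : ev (iz M z : S M).1 D = pz (IP M D) z := by
  induction z using Finsupp.induction_linear with
  | zero =>
    rw [map_zero]
    have : ev ((0 : S M) : Cusp → Cusp → ℤ) D = 0 := by
      have := ev_add' (0 : Cusp → Cusp → ℤ) 0 D
      rw [add_zero] at this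
      change ev 0 D = 0
      linarith
    rw [this]; simp [pz]
  | add a b ha hb =>
    rw [map_add, pz_add_right, ← ha, ← hb]
    exact ev_add' _ _ D
  | single γ n =>
    rw [pz_single, iz_single, IP_apply]
    let F : S M →+ ℤ := AddMonoidHom.mk' (fun φ => ev φ.1 D) (fun φ ψ => ev_add' φ.1 ψ.1 D)
    have := map_zsmul F n ⟨iota (Gamma0 M) γ, iota_mem γ.2⟩
    simpa [F] using this

/-- **(b')** -/
theorem IP_of_ev {t : TT P} {D D' : Dv}
    (h : ∀ a : S M, ev a.1 D' = ev (rS hM t a).1 D) : IP M D' = rX hM (star t) (IP M D) := by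
  refine AddMonoidHom.ext fun x => ?_
  obtain ⟨γ, rfl⟩ := Additive.ofMul.surjective x
  have h1 := h (iz M (Finsupp.single γ 1))
  have h2 : (rS hM t (iz M (Finsupp.single γ 1))) =
      iz M (FreeAlgebra.lift ℤ (oZ hM) t (Finsupp.single γ 1)) := by
    rw [equi (iz M) (oZ hM) (oS hM) (iz_oZ hM)]
    rfl
  rw [h2, ev_iz, ev_iz, pz_single, one_mul] at h1
  rw [h1]
  have h3 := star_equi (P := P) (fun (x : X M) (z : (Gamma0 M) →₀ ℤ) => pz x z) pz_add_left
    pz_add_right (oX hM) (oZ hM) (pz_oX hM) (star t) (IP M D) (Finsupp.single γ 1)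
  rw [star_star] at h3
  rw [← h3, pz_single, one_mul]
  rfl

end Fermat.Agent.LR
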