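import Fermat.Agent.LR.Fam

/-!
# Relations between the correspondences
-/

set_option autoImplicit false

noncomputable section

namespace Fermat.Agent.LR

open CongruenceSubgroup Matrix.SpecialLinearGroup Fermat.Agent.Ihara Fermat.Agent.AnJac
open scoped MatrixGroups

lemma card_P (q : ℕ) [hq : Fact q.Prime] : Fintype.card (OnePoint (ZMod q)) = q + 1 := by
  have h : Fintype.card (OnePoint (ZMod q)) = Fintype.card (Option (ZMod q)) := rfl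
  rw [h, Fintype.card_option, ZMod.card]

section ji

variable (N q : ℕ) [hq : Fact q.Prime] (hqN : ¬ q ∣ N)

theorem j1_i1 (x : X N) : j1 N q hqN (i1 N q x) = (q + 1) • x := by
  refine AddMonoidHom.ext fun y => ?_
  obtain ⟨γ, rfl⟩ := Additive.ofMul.surjective y
  have h := (w1 N q hqN).T_card (Δ := Gamma0 N) (bt hqN) (fun g => ⟨g, Gamma0_mul_le N q g.2⟩) id
    (fun γ i => by
      apply Subtype.ext
      apply mapGLQ_inj
      rw [Subgroup.coe_mul, map_mul, Subgroup.coe_mul, map_mul]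
      exact (w1 N q hqN).spec γ i) (i1 N q x) x (fun γ => i1_apply N q x γ) γ
  rw [card_P] at h
  exact h

theorem j2_i2 (x : X N) : j2 N q hqN (i2 N q x) = (q + 1) • x := by
  refine AddMonoidHom.ext fun y => ?_
  obtain ⟨γ, rfl⟩ := Additive.ofMul.surjective y
  have h := (w2 N q hqN).T_card (Δ := Gamma0 N) (bt2 hqN) (fun g => (exists_conj g).choose) id
    (fun γ i => by
      apply Subtype.ext
      apply mapGLQ_inj
      have h1 := (w2 N q hqN).spec γ i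
      have h2 := (exists_conj ((w2 N q hqN).g γ i)).choose_spec
      rw [w2_A, w2_A, mul_assoc, inv_mul_eq_iff_eq_mul, ← mul_assoc, ← mul_assoc, h2,
        mul_inv_cancel_right] at h1
      rw [Subgroup.coe_mul, map_mul, Subgroup.coe_mul, map_mul]
      exact h1) (i2 N q x) x
      (fun γ => i2_apply N q x γ _ (exists_conj γ).choose_spec) γ
  rw [card_P] at h
  exact h

theorem j1_i2 (x : X N) : j1 N q hqN (i2 N q x) = (hfT N q hqN).T x := by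
  rw [← wT_T, i2, j1, ← WF.T_comp]
  symm
  refine WF.T_congr ((wCj N q).comp (w1 N q hqN)) (wT N q hqN)
    (Equiv.punitProd (OnePoint (ZMod q))) 1 (fun x => by rw [one_mul, mul_one]) ?_ ?_ x
  · rintro ⟨u, i⟩
    refine ⟨(gm hqN i)⁻¹, ?_⟩
    change rq q i = 1 * (mapGL ℚ (((gm hqN i)⁻¹ : Gamma0 N) : SL(2,ℤ)) *
      (um q 0 1 * mapGL ℚ (bt hqN i : SL(2,ℤ))))
    rw [one_mul, bt_spec, Subgroup.coe_inv, map_inv, inv_mul_cancel_left]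
  · intro i j g h
    exact rq_uniq h

theorem j2_i1 (x : X N) : j2 N q hqN (i1 N q x) = (hfT N q hqN).T x := by
  rw [← wT_T, i1, j2, ← WF.T_comp]
  symm
  refine WF.T_congr ((wRes N q).comp (w2 N q hqN)) (wT N q hqN)
    (Equiv.punitProd (OnePoint (ZMod q))) (sc q) (sc_comm q) ?_ ?_ x
  · rintro ⟨u, i⟩
    refine ⟨(gm2 hqN i)⁻¹, ?_⟩
    change rq q i = sc q * (mapGL ℚ (((gm2 hqN i)⁻¹ : Gamma0 N) : SL(2,ℤ)) *
      (1 * ((um q 0 1)⁻¹ * mapGL ℚ (bt2 hqN i : SL(2,ℤ)))))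
    rw [one_mul, Subgroup.coe_inv, map_inv, ← mul_assoc, sc_comm, mul_assoc,
      ← mul_assoc (sc q), ← ds_dl, mul_inv_cancel_right, bt2_spec, inv_mul_cancel_left]
  · intro i j g h
    exact rq_uniq h

end ji

/-! ### commutation with `T_ℓ` -/

section comm

variable (N q : ℕ) [hq : Fact q.Prime] {ℓ : ℕ} [hℓ : Fact ℓ.Prime] (hℓN : ¬ ℓ ∣ N)
  (hℓNq : ¬ ℓ ∣ N * q)

theorem i1_T (x : X N) :
    i1 N q ((hfT N ℓ hℓN).T x) = (hfT (N * q) ℓ hℓNq).T (i1 N q x) := by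
  rw [← wT_T, ← wT_T, i1, ← WF.T_comp, ← WF.T_comp]
  refine WF.T_congr ((wRes N q).comp (wT (N * q) ℓ hℓNq)) ((wT N ℓ hℓN).comp (wRes N q))
    (Equiv.prodComm _ _) 1 (fun x => by rw [one_mul, mul_one]) ?_ ?_ x
  · rintro ⟨u, i⟩
    refine ⟨1, ?_⟩
    change rq ℓ i * 1 = 1 * (mapGL ℚ ((1 : Gamma0 N) : SL(2,ℤ)) * (1 * rq ℓ i))
    rw [OneMemClass.coe_one, map_one, one_mul, one_mul, one_mul, mul_one]
  · rintro ⟨i, u⟩ ⟨j, v⟩ g h
    change rq ℓ i * 1 = mapGL ℚ (g : SL(2,ℤ)) * (rq ℓ j * 1) at h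
    rw [mul_one, mul_one] at h
    rw [rq_uniq h]

/-- `δ A δ⁻¹` -/
def cq (ℓ q : ℕ) (i : OnePoint (ZMod ℓ)) : GL (Fin 2) ℚ := um (ea ℓ i) (q * eb ℓ i) (ed ℓ i)

lemma cq_ne {ℓ : ℕ} [hℓ : Fact ℓ.Prime] (i : OnePoint (ZMod ℓ)) :
    ((ea ℓ i : ℤ) : ℚ) * (ed ℓ i : ℤ) ≠ 0 := by
  have : ((ea ℓ i : ℚ)) * ed ℓ i = ℓ := by exact_mod_cast ea_ed ℓ i
  rw [this]
  exact_mod_cast hℓ.out.ne_zero

lemma cq_00 (i : OnePoint (ZMod ℓ)) : (cq ℓ q i) 0 0 = ea ℓ i := um_00 (cq_ne i)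
lemma cq_01 (i : OnePoint (ZMod ℓ)) : (cq ℓ q i) 0 1 = q * eb ℓ i := um_01 (cq_ne i)
lemma cq_10 (i : OnePoint (ZMod ℓ)) : (cq ℓ q i) 1 0 = 0 := um_10 (cq_ne i)
lemma cq_11 (i : OnePoint (ZMod ℓ)) : (cq ℓ q i) 1 1 = ed ℓ i := um_11 (cq_ne i)

lemma IM_cq (M : ℕ) (i : OnePoint (ZMod ℓ)) : IM M ℓ (cq ℓ q i) :=
  ⟨ea ℓ i, q * eb ℓ i, 0, ed ℓ i, cq_00 q i, by rw [cq_01]; push_cast; ring,
    by rw [cq_10]; simp, cq_11 q i, by rw [mul_zero, mul_zero, sub_zero, ea_ed]⟩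

lemma dl_rq (i : OnePoint (ZMod ℓ)) : um q 0 1 * rq ℓ i = cq ℓ q i * um q 0 1 := by
  have hℓ0 := hℓ.out.ne_zero
  apply gl_ext
  · rw [mul_00, mul_00, dl_00, dl_01, dl_10, rq_00 hℓ0, cq_00]; ring
  · rw [mul_01, mul_01, dl_00, dl_01, dl_11, rq_01 hℓ0, cq_00, cq_01]; ring
  · rw [mul_10, mul_10, dl_10, dl_11, dl_00, rq_00 hℓ0, rq_10 hℓ0, cq_10]; ring
  · rw [mul_11, mul_11, dl_10, dl_11, dl_01, rq_01 hℓ0, rq_11 hℓ0, cq_11]; ring

lemma ndvd_q (hℓNq : ¬ ℓ ∣ N * q) : ¬ (ℓ : ℤ) ∣ q := fun h =>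
  hℓNq ((Int.natCast_dvd_natCast.mp h).mul_left N)

include hℓNq in
theorem i2_T (x : X N) :
    i2 N q ((hfT N ℓ hℓN).T x) = (hfT (N * q) ℓ hℓNq).T (i2 N q x) := by
  -- `δ A_i = Y A_i' δ`
  have hex : ∀ i : OnePoint (ZMod ℓ), ∃ (y : Gamma0 N) (j : OnePoint (ZMod ℓ)),
      um q 0 1 * rq ℓ i = mapGL ℚ (y : SL(2,ℤ)) * (rq ℓ j * um q 0 1) := by
    intro i
    obtain ⟨y, j, h⟩ := (IM_cq q N i).exists_rq1 hℓN
    refine ⟨y, j, ?_⟩
    rw [dl_rq, h, mul_assoc]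
  choose y f hf using hex
  have hinj : Function.Injective f := by
    intro i j hij
    have h1 := hf i
    have h2 := hf j
    rw [hij] at h1
    have h3 : rq ℓ i = ((um q 0 1)⁻¹ * mapGL ℚ ((y i * (y j)⁻¹ : Gamma0 N) : SL(2,ℤ)) *
        um q 0 1) * rq ℓ j := by
      rw [mul_assoc, h2, Subgroup.coe_mul, map_mul, Subgroup.coe_inv, map_inv, mul_assoc,
        mul_assoc, inv_mul_cancel_left, ← h1, inv_mul_cancel_left]
    set g := (y i * (y j)⁻¹ : Gamma0 N) with hg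
    set z := (um q 0 1)⁻¹ * mapGL ℚ (g : SL(2,ℤ)) * um q 0 1 with hz
    have hz2 : um q 0 1 * z = mapGL ℚ (g : SL(2,ℤ)) * um q 0 1 := by
      rw [hz, mul_assoc, mul_inv_cancel_left]
    have e00 := congrArg (fun z : GL (Fin 2) ℚ => z 0 0) hz2
    have e01 := congrArg (fun z : GL (Fin 2) ℚ => z 0 1) hz2
    have e11 := congrArg (fun z : GL (Fin 2) ℚ => z 1 1) hz2
    simp only [mul_00, mul_01, mul_11, dl_00, dl_01, dl_10, dl_11, mapGL_00, mapGL_01, mapGL_11]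
      at e00 e01 e11
    have hqq := q_ne q
    refine rq_uniq' (q := q) (a := (g : SL(2,ℤ)) 0 0) (b := (g : SL(2,ℤ)) 0 1)
      (d := (g : SL(2,ℤ)) 1 1) (by exact_mod_cast hq.out.ne_zero) (ndvd_q N q hℓNq) ?_ ?_ ?_ ?_ h3
    · apply mul_left_cancel₀ hqq
      linear_combination e00
    · push_cast
      linear_combination e01
    · linear_combination e11
    · have h4 : dt (um q 0 1 * z) = dt (mapGL ℚ (g : SL(2,ℤ)) * um q 0 1) := by rw [hz2]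
      rw [dt_mul (um q 0 1), dt_mul (mapGL ℚ (g : SL(2,ℤ))), dt_mapGL, one_mul] at h4
      exact mul_left_cancel₀ (dt_ne (um q 0 1)) (h4.trans (mul_one _).symm)
  have hbij : Function.Bijective f := Finite.injective_iff_bijective.mp hinj
  rw [← wT_T, ← wT_T, i2, ← WF.T_comp, ← WF.T_comp]
  refine WF.T_congr ((wCj N q).comp (wT (N * q) ℓ hℓNq)) ((wT N ℓ hℓN).comp (wCj N q))
    ((Equiv.prodComm _ _).trans (Equiv.prodCongr (Equiv.ofBijective f hbij) (Equiv.refl _))) 1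
    (fun x => by rw [one_mul, mul_one]) ?_ ?_ x
  · rintro ⟨u, i⟩
    refine ⟨(y i)⁻¹, ?_⟩
    change rq ℓ (f i) * um q 0 1 = 1 * (mapGL ℚ (((y i)⁻¹ : Gamma0 N) : SL(2,ℤ)) *
      (um q 0 1 * rq ℓ i))
    rw [hf, Subgroup.coe_inv, map_inv, inv_mul_cancel_left, one_mul]
  · rintro ⟨i, u⟩ ⟨j, v⟩ g h
    change rq ℓ i * um q 0 1 = mapGL ℚ (g : SL(2,ℤ)) * (rq ℓ j * um q 0 1) at h
    rw [← mul_assoc] at h
    rw [rq_uniq (mul_right_cancel h)]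

variable (hqN : ¬ q ∣ N)

include hℓNq in
theorem j1_T (x : X (N * q)) :
    j1 N q hqN ((hfT (N * q) ℓ hℓNq).T x) = (hfT N ℓ hℓN).T (j1 N q hqN x) := by
  have hℓ0 := hℓ.out.ne_zero
  have hex : ∀ p : OnePoint (ZMod ℓ) × OnePoint (ZMod q),
      ∃ (g : Gamma0 (N * q)) (r : OnePoint (ZMod q) × OnePoint (ZMod ℓ)),
        rq ℓ p.1 * mapGL ℚ (bt hqN p.2 : SL(2,ℤ)) =
          mapGL ℚ (g : SL(2,ℤ)) * (mapGL ℚ (bt hqN r.1 : SL(2,ℤ)) * rq ℓ r.2) := by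
    rintro ⟨i, k⟩
    have h1 := (IM_rq hℓ0 N i).mul (IM_mapGL (bt hqN k).2)
    rw [mul_one] at h1
    obtain ⟨y, j, h⟩ := h1.exists_rq1 hℓN
    obtain ⟨g, k', hg⟩ := cos1 hqN y
    exact ⟨g, (k', j), by rw [h, hg, mul_assoc]⟩
  choose g f hf using hex
  have hinj : Function.Injective f := by
    rintro ⟨i, k⟩ ⟨i', k'⟩ he
    have h1 := hf (i, k)
    have h2 := hf (i', k')
    rw [he] at h1
    simp only at h1 h2
    set t := (g (i, k) * (g (i', k'))⁻¹ : Gamma0 (N * q)) with ht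
    -- `A_i β_k = t A_i' β_k'`
    have h3 : rq ℓ i * mapGL ℚ (bt hqN k : SL(2,ℤ)) = mapGL ℚ (t : SL(2,ℤ)) *
        (rq ℓ i' * mapGL ℚ (bt hqN k' : SL(2,ℤ))) := by
      rw [h1, h2, ht, Subgroup.coe_mul, map_mul, Subgroup.coe_inv, map_inv]
      rw [mul_assoc (mapGL ℚ (g (i, k) : SL(2,ℤ))), inv_mul_cancel_left]
    set b := (bt hqN k * (bt hqN k')⁻¹ : Gamma0 N) with hb
    have h4 : rq ℓ i * mapGL ℚ (b : SL(2,ℤ)) = mapGL ℚ (t : SL(2,ℤ)) * rq ℓ i' := by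
      rw [hb, Subgroup.coe_mul, map_mul, ← mul_assoc, h3, Subgroup.coe_inv, map_inv, mul_assoc,
        mul_assoc, mul_inv_cancel, mul_one]
    have h5 : (b : SL(2,ℤ)) ∈ Gamma0 (N * q) := by
      have e := congrArg (fun z : GL (Fin 2) ℚ => z 1 0) h4
      simp only [mul_10, rq_10 hℓ0, rq_11 hℓ0, rq_00 hℓ0, mapGL_00, mapGL_10, mul_zero,
        add_zero, zero_mul, zero_add] at e
      have e' : ed ℓ i * (b : SL(2,ℤ)) 1 0 = (t : SL(2,ℤ)) 1 0 * ea ℓ i' := by exact_mod_cast e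
      have ht2 := (ZMod.intCast_zmod_eq_zero_iff_dvd _ _).mp (Gamma0_mem.mp t.2)
      rw [Gamma0_mem, ZMod.intCast_zmod_eq_zero_iff_dvd]
      have h6 : ((N * q : ℕ) : ℤ) ∣ ℓ * (b : SL(2,ℤ)) 1 0 := by
        rw [← ea_ed ℓ i, mul_assoc, e']
        exact (ht2.mul_right _).mul_left _
      refine IsCoprime.dvd_of_dvd_mul_left ?_ h6
      exact (Nat.isCoprime_iff_coprime.mpr ((Nat.Prime.coprime_iff_not_dvd hℓ.out).mpr hℓNq)).symm
    have h6 : k = k' := by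
      refine uniq1 hqN k k' ⟨b, h5⟩ ?_
      change _ = mapGL ℚ (b : SL(2,ℤ)) * _
      rw [← map_mul, hb, Subgroup.coe_mul, Subgroup.coe_inv, inv_mul_cancel_right]
    subst h6
    have h7 : rq ℓ i = mapGL ℚ (t : SL(2,ℤ)) * rq ℓ i' := by
      rw [← mul_assoc] at h3
      exact mul_right_cancel h3
    rw [rq_uniq h7]
  have hbij : Function.Bijective f := by
    refine (Fintype.bijective_iff_injective_and_card f).mpr ⟨hinj, ?_⟩
    rw [Fintype.card_prod, Fintype.card_prod, mul_comm]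
  rw [← wT_T, ← wT_T, j1, ← WF.T_comp, ← WF.T_comp]
  symm
  refine WF.T_congr ((wT (N * q) ℓ hℓNq).comp (w1 N q hqN)) ((w1 N q hqN).comp (wT N ℓ hℓN))
    (Equiv.ofBijective f hbij) 1 (fun x => by rw [one_mul, mul_one]) ?_ ?_ x
  · intro p
    refine ⟨(g p)⁻¹, ?_⟩
    change mapGL ℚ (bt hqN (f p).1 : SL(2,ℤ)) * rq ℓ (f p).2 =
      1 * (mapGL ℚ (((g p)⁻¹ : Gamma0 (N * q)) : SL(2,ℤ)) *
        (rq ℓ p.1 * mapGL ℚ (bt hqN p.2 : SL(2,ℤ))))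
    rw [hf, Subgroup.coe_inv, map_inv, inv_mul_cancel_left, one_mul]
  · rintro ⟨k, i⟩ ⟨k', i'⟩ t h
    change mapGL ℚ (bt hqN k : SL(2,ℤ)) * rq ℓ i = mapGL ℚ (t : SL(2,ℤ)) *
      (mapGL ℚ (bt hqN k' : SL(2,ℤ)) * rq ℓ i') at h
    have h1 : rq ℓ i = mapGL ℚ ((bt hqN k : SL(2,ℤ))⁻¹ * ((t : SL(2,ℤ)) * (bt hqN k' : SL(2,ℤ)))) *
        rq ℓ i' := by
      rw [map_mul, map_mul, map_inv, mul_assoc, mul_assoc, ← h, inv_mul_cancel_left]
    have h2 := rq_uniq h1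
    subst h2
    rw [← mul_assoc] at h
    rw [uniq1 hqN k k' t (mul_right_cancel h)]

include hℓNq in
theorem j2_T (x : X (N * q)) :
    j2 N q hqN ((hfT (N * q) ℓ hℓNq).T x) = (hfT N ℓ hℓN).T (j2 N q hqN x) := by
  have hℓ0 := hℓ.out.ne_zero
  have hex : ∀ p : OnePoint (ZMod ℓ) × OnePoint (ZMod q),
      ∃ (g : Gamma0 (N * q)) (r : OnePoint (ZMod q) × OnePoint (ZMod ℓ)),
        rq ℓ p.1 * ((um q 0 1)⁻¹ * mapGL ℚ (bt2 hqN p.2 : SL(2,ℤ))) =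
          mapGL ℚ (g : SL(2,ℤ)) * ((um q 0 1)⁻¹ * mapGL ℚ (bt2 hqN r.1 : SL(2,ℤ)) * rq ℓ r.2) := by
    rintro ⟨i, k⟩
    have h1 := (IM_cq q N i).mul (IM_mapGL (bt2 hqN k).2)
    rw [mul_one] at h1
    obtain ⟨y, j, h⟩ := h1.exists_rq1 hℓN
    obtain ⟨g, k', hg⟩ := cos2 hqN y
    refine ⟨g, (k', j), ?_⟩
    rw [← mul_assoc (mapGL ℚ (g : SL(2,ℤ))), ← hg, mul_assoc ((um q 0 1)⁻¹), ← h, ← mul_assoc,
      ← mul_assoc]
    congr 1
    rw [mul_inv_eq_iff_eq_mul, mul_assoc, ← dl_rq, inv_mul_cancel_left]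
  choose g f hf using hex
  have hinj : Function.Injective f := by
    rintro ⟨i, k⟩ ⟨i', k'⟩ he
    have h1 := hf (i, k)
    have h2 := hf (i', k')
    rw [he] at h1
    simp only at h1 h2
    set t := (g (i, k) * (g (i', k'))⁻¹ : Gamma0 (N * q)) with ht
    have h3 : rq ℓ i * ((um q 0 1)⁻¹ * mapGL ℚ (bt2 hqN k : SL(2,ℤ))) = mapGL ℚ (t : SL(2,ℤ)) *
        (rq ℓ i' * ((um q 0 1)⁻¹ * mapGL ℚ (bt2 hqN k' : SL(2,ℤ)))) := by
      rw [h1, h2, ht, Subgroup.coe_mul, map_mul, Subgroup.coe_inv, map_inv]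
      rw [mul_assoc (mapGL ℚ (g (i, k) : SL(2,ℤ))), inv_mul_cancel_left]
    obtain ⟨t', ht'⟩ := exists_conj t
    set b := (bt2 hqN k * (bt2 hqN k')⁻¹ : Gamma0 N) with hb
    -- `X_i b = t' X_i'`
    have h4 : cq ℓ q i * mapGL ℚ (b : SL(2,ℤ)) = mapGL ℚ (t' : SL(2,ℤ)) * cq ℓ q i' := by
      have h5 : cq ℓ q i * mapGL ℚ (bt2 hqN k : SL(2,ℤ)) = mapGL ℚ (t' : SL(2,ℤ)) *
          (cq ℓ q i' * mapGL ℚ (bt2 hqN k' : SL(2,ℤ))) := by
        have e1 : ∀ i, cq ℓ q i = um q 0 1 * rq ℓ i * (um q 0 1)⁻¹ := by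
          intro i
          rw [dl_rq, mul_inv_cancel_right]
        have e2 : mapGL ℚ (t' : SL(2,ℤ)) * um q 0 1 * (rq ℓ i' *
            ((um q 0 1)⁻¹ * mapGL ℚ (bt2 hqN k' : SL(2,ℤ)))) = um q 0 1 * (rq ℓ i *
            ((um q 0 1)⁻¹ * mapGL ℚ (bt2 hqN k : SL(2,ℤ)))) := by
          rw [← ht', mul_assoc, ← h3]
        rw [e1, e1]
        simp only [mul_assoc] at e2 ⊢
        exact e2.symm
      rw [hb, Subgroup.coe_mul, map_mul, ← mul_assoc, h5, Subgroup.coe_inv, map_inv, mul_assoc,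
        mul_assoc, mul_inv_cancel, mul_one]
    -- `q ∣ b 0 1`
    have hqℓ : IsCoprime (q : ℤ) (ℓ : ℤ) := by
      refine Nat.isCoprime_iff_coprime.mpr ?_
      refine ((Nat.Prime.coprime_iff_not_dvd hℓ.out).mpr ?_).symm
      exact fun h => hℓNq (h.mul_left N)
    have h5 : (q : ℤ) ∣ (b : SL(2,ℤ)) 0 1 := by
      have e := congrArg (fun z : GL (Fin 2) ℚ => z 0 1) h4
      have e11 := congrArg (fun z : GL (Fin 2) ℚ => z 1 1) h4
      have e3 := congrArg (fun z : GL (Fin 2) ℚ => z 0 1) ht'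
      simp only [mul_01, mul_11, cq_00, cq_01, cq_10, cq_11, mapGL_01, mapGL_11, mapGL_00,
        mapGL_10, dl_00, dl_01, dl_11] at e e11 e3
      have e3' : (t' : SL(2,ℤ)) 0 1 = q * (t : SL(2,ℤ)) 0 1 := by
        have : ((t' : SL(2,ℤ)) 0 1 : ℚ) = q * (t : SL(2,ℤ)) 0 1 := by linear_combination -e3
        exact_mod_cast this
      have e' : ea ℓ i * (b : SL(2,ℤ)) 0 1 + q * eb ℓ i * (b : SL(2,ℤ)) 1 1 =
          (t' : SL(2,ℤ)) 0 0 * (q * eb ℓ i') + (t' : SL(2,ℤ)) 0 1 * ed ℓ i' := by exact_mod_cast e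
      have h6 : (q : ℤ) ∣ ℓ * (b : SL(2,ℤ)) 0 1 := by
        rw [← ea_ed ℓ i]
        refine ⟨ed ℓ i * ((t' : SL(2,ℤ)) 0 0 * eb ℓ i' + (t : SL(2,ℤ)) 0 1 * ed ℓ i' -
          eb ℓ i * (b : SL(2,ℤ)) 1 1), ?_⟩
        rw [e3'] at e'
        linear_combination ed ℓ i * e'
      exact hqℓ.dvd_of_dvd_mul_left h6
    -- hence `b = δ r δ⁻¹`, `r ∈ Γ₀(N q)`
    obtain ⟨c, hc⟩ := h5
    obtain ⟨v, hv⟩ := (ZMod.intCast_zmod_eq_zero_iff_dvd _ _).mp (Gamma0_mem.mp b.2)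
    have hd := Matrix.SpecialLinearGroup.det_coe (b : SL(2,ℤ))
    rw [Matrix.det_fin_two] at hd
    obtain ⟨r, r00, r01, r10, r11⟩ := exists_SL4 (a := (b : SL(2,ℤ)) 0 0)
      (b := c) (c := q * (b : SL(2,ℤ)) 1 0) (d := (b : SL(2,ℤ)) 1 1) (by
        linear_combination hd + (b : SL(2,ℤ)) 1 0 * hc)
    have hr : um q 0 1 * mapGL ℚ r = mapGL ℚ (b : SL(2,ℤ)) * um q 0 1 := by
      apply gl_ext
      · rw [mul_00, mul_00, dl_00, dl_01, dl_10, mapGL_00, mapGL_00, r00]; ring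
      · rw [mul_01, mul_01, dl_00, dl_01, dl_11, mapGL_01, mapGL_01, r01, hc]; push_cast; ring
      · rw [mul_10, mul_10, dl_10, dl_11, dl_00, mapGL_10, mapGL_10, r10]; push_cast; ring
      · rw [mul_11, mul_11, dl_10, dl_11, dl_01, mapGL_11, mapGL_11, r11]; ring
    have h6 : k = k' := by
      refine uniq2 hqN k k' ⟨r, mem_of_conj hr⟩ ?_
      change _ = mapGL ℚ r * _
      rw [inv_mul_eq_iff_eq_mul, ← mul_assoc, ← mul_assoc, hr, mul_inv_cancel_right,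
        ← map_mul, hb, Subgroup.coe_mul, Subgroup.coe_inv, inv_mul_cancel_right]
    subst h6
    have h7 : rq ℓ i = mapGL ℚ (t : SL(2,ℤ)) * rq ℓ i' := by
      rw [← mul_assoc (mapGL ℚ (t : SL(2,ℤ)))] at h3
      exact mul_right_cancel h3
    rw [rq_uniq h7]
  have hbij : Function.Bijective f := by
    refine (Fintype.bijective_iff_injective_and_card f).mpr ⟨hinj, ?_⟩
    rw [Fintype.card_prod, Fintype.card_prod, mul_comm]
  rw [← wT_T, ← wT_T, j2, ← WF.T_comp, ← WF.T_comp]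
  symm
  refine WF.T_congr ((wT (N * q) ℓ hℓNq).comp (w2 N q hqN)) ((w2 N q hqN).comp (wT N ℓ hℓN))
    (Equiv.ofBijective f hbij) 1 (fun x => by rw [one_mul, mul_one]) ?_ ?_ x
  · intro p
    refine ⟨(g p)⁻¹, ?_⟩
    change (um q 0 1)⁻¹ * mapGL ℚ (bt2 hqN (f p).1 : SL(2,ℤ)) * rq ℓ (f p).2 =
      1 * (mapGL ℚ (((g p)⁻¹ : Gamma0 (N * q)) : SL(2,ℤ)) *
        (rq ℓ p.1 * ((um q 0 1)⁻¹ * mapGL ℚ (bt2 hqN p.2 : SL(2,ℤ)))))
    rw [hf, Subgroup.coe_inv, map_inv, inv_mul_cancel_left, one_mul]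
  · rintro ⟨k, i⟩ ⟨k', i'⟩ t h
    change (um q 0 1)⁻¹ * mapGL ℚ (bt2 hqN k : SL(2,ℤ)) * rq ℓ i = mapGL ℚ (t : SL(2,ℤ)) *
      ((um q 0 1)⁻¹ * mapGL ℚ (bt2 hqN k' : SL(2,ℤ)) * rq ℓ i') at h
    obtain ⟨t', ht'⟩ := exists_conj t
    have h1 : rq ℓ i = mapGL ℚ ((bt2 hqN k : SL(2,ℤ))⁻¹ * ((t' : SL(2,ℤ)) * (bt2 hqN k' : SL(2,ℤ)))) *
        rq ℓ i' := by
      rw [map_mul, map_mul, map_inv]
      simp only [mul_assoc] at h ⊢
      rw [inv_mul_eq_iff_eq_mul, ← mul_assoc (um q 0 1), ht'] at h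
      simp only [mul_assoc, mul_inv_cancel_left] at h
      rw [← h, inv_mul_cancel_left]
    have h2 := rq_uniq h1
    subst h2
    rw [← mul_assoc (mapGL ℚ (t : SL(2,ℤ)))] at h
    rw [uniq2 hqN k k' t (mul_right_cancel h)]

end comm

/-- **the Hecke operators commute** -/
theorem T_T {M ℓ ℓ' : ℕ} [hℓ : Fact ℓ.Prime] [hℓ' : Fact ℓ'.Prime] (hM : ¬ ℓ ∣ M) (hM' : ¬ ℓ' ∣ M)
    (hne : ℓ ≠ ℓ') (x : X M) :
    (hfT M ℓ hM).T ((hfT M ℓ' hM').T x) = (hfT M ℓ' hM').T ((hfT M ℓ hM).T x) := by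
  have hℓ0 := hℓ.out.ne_zero
  have hℓ0' := hℓ'.out.ne_zero
  have hcop : IsCoprime (ℓ : ℤ) (ℓ' : ℤ) :=
    Nat.isCoprime_iff_coprime.mpr ((Nat.coprime_primes hℓ.out hℓ'.out).mpr hne)
  have hex : ∀ p : OnePoint (ZMod ℓ') × OnePoint (ZMod ℓ),
      ∃ (g : Gamma0 M) (r : OnePoint (ZMod ℓ) × OnePoint (ZMod ℓ')),
        rq ℓ' p.1 * rq ℓ p.2 = mapGL ℚ (g : SL(2,ℤ)) * (rq ℓ r.1 * rq ℓ' r.2) := by
    rintro ⟨i, k⟩
    have h1 := (IM_rq hℓ0' M i).mul (IM_rq hℓ0 M k)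
    rw [mul_comm] at h1
    obtain ⟨y, j, hy, h⟩ := h1.exists_rq hM'
    obtain ⟨g, k', hg⟩ := hy.exists_rq1 hM
    exact ⟨g, (k', j), by rw [h, hg, mul_assoc]⟩
  choose g f hf using hex
  have hinj' : ∀ (p p' : OnePoint (ZMod ℓ') × OnePoint (ZMod ℓ)) (t : Gamma0 M),
      rq ℓ' p.1 * rq ℓ p.2 = mapGL ℚ (t : SL(2,ℤ)) * (rq ℓ' p'.1 * rq ℓ p'.2) → p = p' := by
    rintro ⟨i, k⟩ ⟨i', k'⟩ t h3
    simp only at h3
    -- `x = A_k A_k'⁻¹ = A_i⁻¹ t A_i'`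
    set x := rq ℓ k * (rq ℓ k')⁻¹ with hx
    have h4 : x * rq ℓ k' = rq ℓ k := by rw [hx, inv_mul_cancel_right]
    have h5 : rq ℓ' i * x = mapGL ℚ (t : SL(2,ℤ)) * rq ℓ' i' := by
      rw [hx, ← mul_assoc, h3, mul_assoc, mul_assoc, mul_inv_cancel, mul_one]
    have hkk : k = k' := by
      have a00 := congrArg (fun z : GL (Fin 2) ℚ => z 0 0) h4
      have a01 := congrArg (fun z : GL (Fin 2) ℚ => z 0 1) h4
      have a10 := congrArg (fun z : GL (Fin 2) ℚ => z 1 0) h4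
      have a11 := congrArg (fun z : GL (Fin 2) ℚ => z 1 1) h4
      have b00 := congrArg (fun z : GL (Fin 2) ℚ => z 0 0) h5
      have b01 := congrArg (fun z : GL (Fin 2) ℚ => z 0 1) h5
      have b10 := congrArg (fun z : GL (Fin 2) ℚ => z 1 0) h5
      have b11 := congrArg (fun z : GL (Fin 2) ℚ => z 1 1) h5
      simp only [mul_00, mul_01, mul_10, mul_11, rq_00 hℓ0, rq_01 hℓ0, rq_10 hℓ0, rq_11 hℓ0,
        rq_00 hℓ0', rq_01 hℓ0', rq_10 hℓ0', rq_11 hℓ0', mapGL_00, mapGL_01, mapGL_10, mapGL_11,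
        mul_zero, add_zero, zero_mul, zero_add] at a00 a01 a10 a11 b00 b01 b10 b11
      have hea : (ea ℓ k' : ℚ) ≠ 0 := left_ne_zero_of_mul (cq_ne k')
      have hx10 : x 1 0 = 0 := by
        rcases mul_eq_zero.mp a10 with h | h
        · exact h
        · exact absurd h hea
      rw [hx10] at a11 b00 b10
      rw [zero_mul, zero_add] at a11
      rw [mul_zero, add_zero] at b00
      -- entries times ℓ and ℓ' are integral
      have hed : ∀ (j : OnePoint (ZMod ℓ)), (ea ℓ j : ℚ) * ed ℓ j = ℓ := fun j => by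
        exact_mod_cast ea_ed ℓ j
      have hed' : ∀ (j : OnePoint (ZMod ℓ')), (ea ℓ' j : ℚ) * ed ℓ' j = ℓ' := fun j => by
        exact_mod_cast ea_ed ℓ' j
      obtain ⟨u, v, huv⟩ := hcop
      have huv' : (u : ℚ) * ℓ + v * ℓ' = 1 := by exact_mod_cast huv
      have c00 : (ℓ : ℚ) * x 0 0 = ea ℓ k * ed ℓ k' := by rw [← a00, ← hed k']; ring
      have c11 : (ℓ : ℚ) * x 1 1 = ed ℓ k * ea ℓ k' := by rw [← a11, ← hed k']; ring
      have d11 : (ℓ' : ℚ) * x 1 1 = ea ℓ' i * ((t : SL(2,ℤ)) 1 0 * eb ℓ' i' +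
          (t : SL(2,ℤ)) 1 1 * ed ℓ' i') := by rw [← b11, ← hed' i]; ring
      have d00 : (ℓ' : ℚ) * x 0 0 = ed ℓ' i * ((t : SL(2,ℤ)) 0 0 * ea ℓ' i') := by
        rw [← b00, ← hed' i]; ring
      have e00 : x 0 0 = ((u * (ea ℓ k * ed ℓ k') +
          v * (ed ℓ' i * ((t : SL(2,ℤ)) 0 0 * ea ℓ' i')) : ℤ) : ℚ) := by
        push_cast
        rw [← c00, ← d00]
        linear_combination (-x 0 0) * huv'
      have e11 : x 1 1 = ((u * (ed ℓ k * ea ℓ k') +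
          v * (ea ℓ' i * ((t : SL(2,ℤ)) 1 0 * eb ℓ' i' + (t : SL(2,ℤ)) 1 1 * ed ℓ' i')) : ℤ) : ℚ) := by
        push_cast
        rw [← c11, ← d11]
        linear_combination (-x 1 1) * huv'
      set d : ℤ := u * (ed ℓ k * ea ℓ k') +
          v * (ea ℓ' i * ((t : SL(2,ℤ)) 1 0 * eb ℓ' i' + (t : SL(2,ℤ)) 1 1 * ed ℓ' i')) with hd
      have hdt : ∀ j, dt (rq ℓ j) = ℓ := by
        intro j
        rw [dt, rq_00 hℓ0, rq_11 hℓ0, rq_10 hℓ0, mul_zero, sub_zero, hed]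
      refine rq_uniq' (q := ℓ') (x := x) (b := ed ℓ' i * ((t : SL(2,ℤ)) 0 0 * eb ℓ' i' +
        (t : SL(2,ℤ)) 0 1 * ed ℓ' i') - ed ℓ' i * eb ℓ' i * d) (by exact_mod_cast hℓ0') ?_ e00 ?_
        e11 ?_ h4.symm
      · intro h
        exact hne ((Nat.prime_dvd_prime_iff_eq hℓ.out hℓ'.out).mp (Int.natCast_dvd_natCast.mp h))
      · push_cast
        rw [← e11, ← b01, ← hed' i]
        ring
      · have h6 : dt (x * rq ℓ k') = dt (rq ℓ k) := by rw [h4]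
        rw [dt_mul, hdt, hdt] at h6
        have hℓQ : (ℓ : ℚ) ≠ 0 := by exact_mod_cast hℓ0
        exact mul_right_cancel₀ hℓQ (h6.trans (one_mul _).symm)
    subst hkk
    have h7 : rq ℓ' i = mapGL ℚ (t : SL(2,ℤ)) * rq ℓ' i' := by
      rw [← mul_assoc] at h3
      exact mul_right_cancel h3
    rw [rq_uniq h7]
  have hinj : Function.Injective f := by
    intro p p' he
    have h1 := hf p
    have h2 := hf p'
    rw [he] at h1
    refine hinj' p p' (g p * (g p')⁻¹ : Gamma0 M) ?_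
    rw [h1, h2, Subgroup.coe_mul, map_mul, Subgroup.coe_inv, map_inv]
    rw [mul_assoc (mapGL ℚ (g p : SL(2,ℤ))), inv_mul_cancel_left]
  have hbij : Function.Bijective f := by
    refine (Fintype.bijective_iff_injective_and_card f).mpr ⟨hinj, ?_⟩
    rw [Fintype.card_prod, Fintype.card_prod, mul_comm]
  rw [← wT_T, ← wT_T, ← wT_T, ← wT_T, ← WF.T_comp, ← WF.T_comp]
  refine WF.T_congr ((wT M ℓ hM).comp (wT M ℓ' hM')) ((wT M ℓ' hM').comp (wT M ℓ hM))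
    (Equiv.ofBijective f hbij).symm 1 (fun x => by rw [one_mul, mul_one]) ?_ ?_ x
  · intro r
    obtain ⟨p, rfl⟩ := hbij.surjective r
    refine ⟨g p, ?_⟩
    rw [show (Equiv.ofBijective f hbij).symm (f p) = p from
      (Equiv.ofBijective f hbij).symm_apply_apply p]
    change rq ℓ' p.1 * rq ℓ p.2 = 1 * (mapGL ℚ (g p : SL(2,ℤ)) * (rq ℓ (f p).1 * rq ℓ' (f p).2))
    rw [one_mul, hf]
  · intro p p' t h
    refine hinj' p p' t h

end Fermat.Agent.LR
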