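import Fermat.Agent.LR.Alg
import Fermat.Agent.LR.Comm
import Mathlib.LinearAlgebra.Matrix.Charpoly.LinearMap

/-!
# Level raising: the algebra, II
-/

set_option autoImplicit false

noncomputable section

namespace Fermat.Agent.LR

open CongruenceSubgroup Matrix.SpecialLinearGroup Fermat.Agent.Ihara Fermat.Agent.AnJac
open scoped MatrixGroups

section dual

variable {P : Set ℕ} {N q : ℕ} [hq : Fact q.Prime] (hqN : ¬ q ∣ N)
  (hP : PM P (N * q)) (hPN : PM P N)

lemma ev_zero' (D : Dv) : ev (0 : Cusp → Cusp → ℤ) D = 0 := by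
  have := ev_add' (0 : Cusp → Cusp → ℤ) 0 D
  rw [add_zero] at this
  linarith

lemma ev_neg' (f : Cusp → Cusp → ℤ) (D : Dv) : ev (-f) D = - ev f D := by
  have := ev_add' f (-f) D
  rw [add_neg_cancel, ev_zero'] at this
  linarith

include hqN in
/-- **the duality step** -/
theorem dual_step [NeZero N] (e1 e2 : S N →+ S (N * q)) (he1 : ∀ a, (e1 a).1 = a.1)
    (he2 : ∀ a, (e2 a).1 = tr (um q 0 1) a.1)
    (he1T : ∀ (t : TT P) a, rS hP t (e1 a) = e1 (rS hPN t a))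
    (he2T : ∀ (t : TT P) a, rS hP t (e2 a) = e2 (rS hPN t a))
    {t u : TT P} (h1 : ∀ φ : S (N * q), ∃ a1 a2 : S N, rS hP t φ = e1 a1 + e2 a2)
    (h2 : ∀ a1 a2 : S N, e1 a1 + e2 a2 = 0 → rS hPN u a1 = 0 ∧ rS hPN u a2 = 0)
    (F4 : ∀ lam : S (N * q) →+ ℤ, ∃ D : Dv, ∀ φ : S (N * q), lam φ = ev φ.1 D)
    (y1 y2 : X N) : ∃ x' : X (N * q),
      rX hPN (star (u * t)) (2 • y1) = j1 N q hqN x' ∧
      rX hPN (star (u * t)) (2 • y2) = j2 N q hqN x' := by
  obtain ⟨D1, hD1⟩ := IP_surj y1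
  obtain ⟨D2, hD2⟩ := IP_surj y2
  choose a1 a2 ha using h1
  -- the functional
  have hadd : ∀ φ ψ : S (N * q),
      rS hPN u (a1 (φ + ψ)) = rS hPN u (a1 φ) + rS hPN u (a1 ψ) ∧
      rS hPN u (a2 (φ + ψ)) = rS hPN u (a2 φ) + rS hPN u (a2 ψ) := by
    intro φ ψ
    have h3 : e1 (a1 (φ + ψ) - a1 φ - a1 ψ) + e2 (a2 (φ + ψ) - a2 φ - a2 ψ) = 0 := by
      simp only [map_sub]
      have := ha (φ + ψ)
      rw [map_add, ha φ, ha ψ] at this
      rw [← sub_eq_zero] at this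
      rw [← neg_eq_zero, ← this]
      abel
    obtain ⟨h4, h5⟩ := h2 _ _ h3
    rw [map_sub, map_sub, sub_sub, sub_eq_zero] at h4 h5
    exact ⟨h4, h5⟩
  let lam : S (N * q) →+ ℤ := AddMonoidHom.mk'
    (fun φ => ev (rS hPN u (a1 φ)).1 D1 + ev (rS hPN u (a2 φ)).1 D2) (by
      intro φ ψ
      rw [(hadd φ ψ).1, (hadd φ ψ).2]
      have k1 := ev_add' (rS hPN u (a1 φ)).1 (rS hPN u (a1 ψ)).1 D1
      have k2 := ev_add' (rS hPN u (a2 φ)).1 (rS hPN u (a2 ψ)).1 D2
      change ev ((rS hPN u (a1 φ)).1 + (rS hPN u (a1 ψ)).1) D1 +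
        ev ((rS hPN u (a2 φ)).1 + (rS hPN u (a2 ψ)).1) D2 = _
      rw [k1, k2]; ring)
  obtain ⟨D', hD'⟩ := F4 lam
  have hlam : ∀ φ, lam φ = ev (rS hPN u (a1 φ)).1 D1 + ev (rS hPN u (a2 φ)).1 D2 := fun _ => rfl
  -- first component
  have c1 : ∀ a : S N, ev a.1 D' = ev (rS hPN (u * t) a).1 D1 := by
    intro a
    have h3 := hD' (e1 a)
    rw [hlam, he1] at h3
    rw [← h3]
    have h4 : e1 (a1 (e1 a) - rS hPN t a) + e2 (a2 (e1 a)) = 0 := by
      have := ha (e1 a)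
      rw [he1T] at this
      rw [map_sub, this]; abel
    obtain ⟨h5, h6⟩ := h2 _ _ h4
    rw [map_sub, sub_eq_zero] at h5
    rw [h5, h6, map_mul, Module.End.mul_apply]
    change _ + ev 0 D2 = _
    rw [ev_zero', add_zero]
  have c2 : ∀ a : S N, ev a.1 (mv (um q 0 1) D') = ev (rS hPN (u * t) a).1 D2 := by
    intro a
    have h3 := hD' (e2 a)
    rw [hlam, he2] at h3
    rw [ev_mv, ← h3]
    have h4 : e1 (a1 (e2 a)) + e2 (a2 (e2 a) - rS hPN t a) = 0 := by
      have := ha (e2 a)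
      rw [he2T] at this
      rw [map_sub, this]; abel
    obtain ⟨h5, h6⟩ := h2 _ _ h4
    rw [map_sub, sub_eq_zero] at h6
    rw [h5, h6, map_mul, Module.End.mul_apply]
    change ev 0 D1 + _ = _
    rw [ev_zero', zero_add]
  refine ⟨IP (N * q) D', ?_, ?_⟩
  · rw [j1_IP hqN, IP_of_ev hPN c1, hD1]
  · rw [j2_IP hqN, IP_of_ev hPN c2, hD2]

/-- `j` commutes with the Hecke action -/
lemma j1_rX (t : TT P) (x : X (N * q)) : j1 N q hqN (rX hP t x) = rX hPN t (j1 N q hqN x) := by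
  refine equi (j1 N q hqN) (oX hP) (oX hPN) (fun ℓ x => ?_) t x
  have : Fact (ℓ : ℕ).Prime := ⟨(hP ℓ ℓ.2).1⟩
  exact j1_T N q (hPN ℓ ℓ.2).2 (hP ℓ ℓ.2).2 hqN x

lemma j2_rX (t : TT P) (x : X (N * q)) : j2 N q hqN (rX hP t x) = rX hPN t (j2 N q hqN x) := by
  refine equi (j2 N q hqN) (oX hP) (oX hPN) (fun ℓ x => ?_) t x
  have : Fact (ℓ : ℕ).Prime := ⟨(hP ℓ ℓ.2).1⟩
  exact j2_T N q (hPN ℓ ℓ.2).2 (hP ℓ ℓ.2).2 hqN x

/-- **the matrix step** -/
theorem matrix_step [NeZero N] (e1 e2 : S N →+ S (N * q)) (he1 : ∀ a, (e1 a).1 = a.1)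
    (he2 : ∀ a, (e2 a).1 = tr (um q 0 1) a.1)
    (he1T : ∀ (t : TT P) a, rS hP t (e1 a) = e1 (rS hPN t a))
    (he2T : ∀ (t : TT P) a, rS hP t (e2 a) = e2 (rS hPN t a))
    {t u E : TT P} (h1 : ∀ φ : S (N * q), ∃ a1 a2 : S N, rS hP t φ = e1 a1 + e2 a2)
    (h2 : ∀ a1 a2 : S N, e1 a1 + e2 a2 = 0 → rS hPN u a1 = 0 ∧ rS hPN u a2 = 0)
    (F4 : ∀ lam : S (N * q) →+ ℤ, ∃ D : Dv, ∀ φ : S (N * q), lam φ = ev φ.1 D)
    (hN : S N →+ X N) (hM : S (N * q) →+ X (N * q))
    (hMT : ∀ (t : TT P) φ, hM (rS hP t φ) = rX hP t (hM φ))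
    (hM1 : ∀ a, hM (e1 a) = i1 N q (hN a)) (hM2 : ∀ a, hM (e2 a) = i2 N q (hN a))
    (h3 : ∀ x : X (N * q), ∃ φ : S (N * q), rX hP E x = hM φ)
    (y1 y2 : X N) : ∃ z1 z2 : X N,
      rX hPN (t * E * star (u * t) * 2) y1 = (q + 1) • z1 + (hfT N q hqN).T z2 ∧
      rX hPN (t * E * star (u * t) * 2) y2 = (hfT N q hqN).T z1 + (q + 1) • z2 := by
  obtain ⟨x', k1, k2⟩ := dual_step hqN hP hPN e1 e2 he1 he2 he1T he2T h1 h2 F4 y1 y2
  obtain ⟨φ, hφ⟩ := h3 x'
  obtain ⟨a1, a2, ha⟩ := h1 φ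
  have h4 : rX hP (t * E) x' = i1 N q (hN a1) + i2 N q (hN a2) := by
    rw [map_mul, Module.End.mul_apply, hφ, ← hMT, ha, map_add, hM1, hM2]
  have two : ∀ y : X N, rX hPN (2 : TT P) y = 2 • y := by
    intro y
    have : (2 : TT P) = 1 + 1 := by norm_num
    rw [this, map_add, map_one, two_smul]
    rfl
  refine ⟨hN a1, hN a2, ?_, ?_⟩
  · rw [map_mul, Module.End.mul_apply, two, map_mul, Module.End.mul_apply, k1, ← j1_rX hqN hP hPN,
      h4, map_add, j1_i1, j1_i2]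
  · rw [map_mul, Module.End.mul_apply, two, map_mul, Module.End.mul_apply, k2, ← j2_rX hqN hP hPN,
      h4, map_add, j2_i1, j2_i2]

end dual

/-! ### Nakayama -/

/-- abstract contradiction: `A` a commutative ring of endomorphisms of a finitely generated group,
`θ : A → κ`, `s, y ∈ A` with `s V ⊂ y V`, `θ y = 0`, then `θ s = 0`. -/
theorem naka {V : Type*} [AddCommGroup V] [Module.Finite ℤ V] {𝒜 : Type*} [Ring 𝒜]
    (r : 𝒜 →+* Module.End ℤ V) (hcomm : ∀ a b, r a * r b = r b * r a) {κ : Type*} [Field κ]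
    (θ : 𝒜 →+* κ) (hθ : ∀ a, r a = 0 → θ a = 0) {s y : 𝒜}
    (hs : ∀ v : V, ∃ w : V, r s v = r y w) (hy : θ y = 0) : θ s = 0 := by
  -- the commutative ring
  set R := r.range with hR
  have hRc : ∀ x y : R, x * y = y * x := by
    rintro ⟨_, a, rfl⟩ ⟨_, b, rfl⟩
    exact Subtype.ext (hcomm a b)
  let _ : CommRing R := { (inferInstance : Ring R) with mul_comm := hRc }
  let _ : Module R V := Module.compHom V (R.subtype)
  have hsm : ∀ (a : R) (v : V), a • v = (a : Module.End ℤ V) v := fun _ _ => rfl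
  have : IsScalarTower ℤ R V := ⟨fun n a v => by
    rw [hsm, hsm]
    rfl⟩
  have : Module.Finite R V := Module.Finite.of_restrictScalars_finite ℤ R V
  -- `θ` factors
  let θR : R →+* κ := (RingHom.rangeRestrict r).liftOfRightInverse _ (Function.rightInverse_surjInv
    (RingHom.rangeRestrict_surjective r)) ⟨θ, fun a ha => by
      rw [RingHom.mem_ker] at ha ⊢
      exact hθ a (congrArg Subtype.val ha)⟩
  have hθR : ∀ a, θR (r.rangeRestrict a) = θ a := fun a =>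
    RingHom.liftOfRightInverse_comp_apply _ _ _ _ _
  set s' : R := r.rangeRestrict s with hs'
  set y' : R := r.rangeRestrict y with hy'
  let f : V →ₗ[R] V := LinearMap.lsmul R V s'
  have hf : LinearMap.range f ≤ (Ideal.span {y'}) • (⊤ : Submodule R V) := by
    rintro _ ⟨v, rfl⟩
    obtain ⟨w, hw⟩ := hs v
    have : f v = y' • w := hw
    rw [this]
    exact Submodule.smul_mem_smul (Ideal.mem_span_singleton_self _) trivial
  obtain ⟨p, hp, _, hpc, hp0⟩ :=
    LinearMap.exists_monic_and_natDegree_eq_and_coeff_mem_pow_and_aeval_eq_zero R f _ hf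
  -- evaluate
  have hfaith : ∀ a : R, (∀ v : V, a • v = 0) → a = 0 := by
    intro a ha
    apply Subtype.ext
    exact LinearMap.ext ha
  have h1 : Polynomial.aeval s' p = 0 := by
    apply hfaith
    intro v
    have h2 : ∀ (g : Polynomial R), Polynomial.aeval f g v = (Polynomial.aeval s' g) • v := by
      intro g
      induction g using Polynomial.induction_on' with
      | add a b ha hb => rw [map_add, map_add, LinearMap.add_apply, ha, hb, add_smul]
      | monomial n c =>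
        rw [Polynomial.aeval_monomial, Polynomial.aeval_monomial, Module.End.mul_apply,
          Module.algebraMap_end_apply, mul_smul]
        congr 1
        induction n generalizing v with
        | zero => simp
        | succ n ih =>
          rw [pow_succ, pow_succ, Module.End.mul_apply, ih, mul_smul]
          rfl
    rw [← h2, hp0]
    rfl
  have h3 : ∀ k, k ≠ p.natDegree → θR (p.coeff k) = 0 := by
    intro k hk
    rcases lt_or_gt_of_ne hk with hlt | hgt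
    · have h4 := hpc k
      have h5 : p.coeff k ∈ Ideal.span {y'} := Ideal.pow_le_self (by omega) h4
      obtain ⟨c, hc⟩ := Ideal.mem_span_singleton'.mp h5
      rw [← hc, map_mul, hθR, hy, mul_zero]
    · rw [Polynomial.coeff_eq_zero_of_natDegree_lt hgt, map_zero]
  have h4 : θR (Polynomial.aeval s' p) = θR s' ^ p.natDegree := by
    rw [Polynomial.aeval_eq_sum_range, map_sum, Finset.sum_eq_single p.natDegree]
    · rw [Polynomial.coeff_natDegree, hp, one_smul, map_pow]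
    · intro k _ hk
      rw [smul_eq_mul, map_mul, h3 k hk, zero_mul]
    · intro h
      exact absurd (Finset.mem_range.mpr (Nat.lt_succ_self _)) h
  rw [h1, map_zero] at h4
  have h6 : θR s' = 0 := by
    by_contra hne
    exact (pow_ne_zero _ hne) h4.symm
  rw [hθR] at h6
  exact h6

end Fermat.Agent.LR
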