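import Fermat.Agent.LR.Alg2

/-!
# Level raising: the contradiction
-/

set_option autoImplicit false

noncomputable section

namespace Fermat.Agent.LR

open CongruenceSubgroup Matrix.SpecialLinearGroup Fermat.Agent.Ihara Fermat.Agent.AnJac
open scoped MatrixGroups

lemma lift_comm {P : Set ℕ} {V : Type*} [AddCommGroup V] (o : P → Module.End ℤ V)
    (h : ∀ ℓ ℓ', o ℓ * o ℓ' = o ℓ' * o ℓ) (a b : TT P) :
    FreeAlgebra.lift ℤ o a * FreeAlgebra.lift ℤ o b =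
      FreeAlgebra.lift ℤ o b * FreeAlgebra.lift ℤ o a := by
  induction a using FreeAlgebra.induction with
  | grade0 r => rw [AlgHom.commutes]; exact Algebra.commutes _ _
  | grade1 ℓ =>
    induction b using FreeAlgebra.induction with
    | grade0 r => rw [AlgHom.commutes]; exact (Algebra.commutes _ _).symm
    | grade1 ℓ' => rw [FreeAlgebra.lift_ι_apply, FreeAlgebra.lift_ι_apply, h]
    | mul s t hs ht => rw [map_mul, ← mul_assoc, hs, mul_assoc, ht, mul_assoc]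
    | add s t hs ht => rw [map_add, mul_add, add_mul, hs, ht]
  | mul s t hs ht => rw [map_mul, mul_assoc, ht, ← mul_assoc, hs, mul_assoc]
  | add s t hs ht => rw [map_add, mul_add, add_mul, hs, ht]

lemma rX_comm {P : Set ℕ} {M : ℕ} (hM : PM P M) (a b : TT P) :
    rX hM a * rX hM b = rX hM b * rX hM a := by
  refine lift_comm (oX hM) (fun ℓ ℓ' => ?_) a b
  by_cases h : ℓ = ℓ'
  · rw [h]
  have h1 : Fact (ℓ : ℕ).Prime := ⟨(hM ℓ ℓ.2).1⟩
  have h2 : Fact (ℓ' : ℕ).Prime := ⟨(hM ℓ' ℓ'.2).1⟩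
  apply LinearMap.ext
  intro x
  rw [Module.End.mul_apply, Module.End.mul_apply]
  exact T_T (hM ℓ ℓ.2).2 (hM ℓ' ℓ'.2).2 (fun e => h (Subtype.ext e)) x

/-- inclusion of abstract Hecke algebras -/
def inc {P P' : Set ℕ} (h : P ⊆ P') : TT P →ₐ[ℤ] TT P' :=
  FreeAlgebra.lift ℤ fun ℓ => FreeAlgebra.ι ℤ ⟨ℓ, h ℓ.2⟩

lemma inc_ι {P P' : Set ℕ} (h : P ⊆ P') (ℓ : P) :
    inc h (FreeAlgebra.ι ℤ ℓ) = FreeAlgebra.ι ℤ ⟨ℓ, h ℓ.2⟩ := by
  rw [inc, FreeAlgebra.lift_ι_apply]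

lemma rX_inc {P P' : Set ℕ} (h : P ⊆ P') {M : ℕ} (hM : PM P M) (hM' : PM P' M) (t : TT P) :
    rX hM' (inc h t) = rX hM t := by
  have : (rX hM').comp (inc h) = rX hM := by
    apply FreeAlgebra.hom_ext
    funext ℓ
    change rX hM' (inc h (FreeAlgebra.ι ℤ ℓ)) = rX hM (FreeAlgebra.ι ℤ ℓ)
    rw [inc_ι, rX, rX, FreeAlgebra.lift_ι_apply, FreeAlgebra.lift_ι_apply]
    rfl
  exact DFunLike.congr_fun this t

lemma hom_inc {P P' : Set ℕ} (h : P ⊆ P') {κ : Type*} [CommRing κ] (θ : TT P →+* κ)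
    (θ' : TT P' →+* κ) (hθ : ∀ ℓ : P, θ' (FreeAlgebra.ι ℤ ⟨ℓ, h ℓ.2⟩) = θ (FreeAlgebra.ι ℤ ℓ))
    (t : TT P) : θ' (inc h t) = θ t := by
  induction t using FreeAlgebra.induction with
  | grade0 r =>
    rw [AlgHom.commutes]
    simp
  | grade1 ℓ => rw [inc_ι, hθ]
  | mul s t hs ht => rw [map_mul, map_mul, map_mul, hs, ht]
  | add s t hs ht => rw [map_add, map_add, map_add, hs, ht]

/-- **the contradiction** -/
theorem no_raise {P : Set ℕ} {N q : ℕ} [hq : Fact q.Prime] [NeZero N] (hqN : ¬ q ∣ N)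
    (hPN : PM P N) (hPq : PM (insert q P) N) {κ : Type*} [Field κ] (θ : TT P →+* κ)
    (θ' : TT (insert q P) →+* κ)
    (hθ : ∀ ℓ : P, θ' (FreeAlgebra.ι ℤ ⟨ℓ, Set.mem_insert_of_mem _ ℓ.2⟩) = θ (FreeAlgebra.ι ℤ ℓ))
    (ε : ℤ) (hε : ε * ε = 1)
    (hθq : θ' (FreeAlgebra.ι ℤ ⟨q, Set.mem_insert _ _⟩) = ε * (q + 1))
    (hf : ∀ a : TT (insert q P), rX hPq a = 0 → θ' a = 0) {s : TT P}
    (hs : ∀ y1 y2 : X N, ∃ z1 z2 : X N, rX hPN s y1 = (q + 1) • z1 + (hfT N q hqN).T z2 ∧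
      rX hPN s y2 = (hfT N q hqN).T z1 + (q + 1) • z2) : θ s = 0 := by
  rw [← hom_inc (Set.subset_insert q P) θ θ' hθ]
  let tq : TT (insert q P) := FreeAlgebra.ι ℤ ⟨q, Set.mem_insert _ _⟩
  let r : TT (insert q P) →+* Module.End ℤ (X N) := (rX hPq : TT (insert q P) →+* _)
  have hr : ∀ a, r a = rX hPq a := fun _ => rfl
  refine naka r (fun a b => rX_comm hPq a b) θ' (fun a ha => hf a ha)
    (y := tq - algebraMap ℤ _ (ε * (q + 1))) (fun v => ?_) ?_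
  · obtain ⟨z1, z2, h1, h2⟩ := hs v 0
    rw [map_zero] at h2
    refine ⟨z2 - ε • z1, ?_⟩
    have hT : ∀ w : X N, rX hPq tq w = (hfT N q hqN).T w := by
      intro w
      rw [rX, FreeAlgebra.lift_ι_apply]
      rfl
    change rX hPq (inc _ s) v = rX hPq (tq - algebraMap ℤ _ (ε * (q + 1))) (z2 - ε • z1)
    rw [rX_inc (Set.subset_insert q P) hPN hPq, h1, map_sub (rX hPq), LinearMap.sub_apply,
      AlgHom.commutes, Module.algebraMap_end_apply, hT]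
    have h3 : (hfT N q hqN).T z1 = - ((q + 1) • z2) := eq_neg_of_add_eq_zero_left h2.symm
    have h4 : (hfT N q hqN).T (z2 - ε • z1) = (hfT N q hqN).T z2 - ε • (hfT N q hqN).T z1 := by
      rw [map_sub, map_zsmul]
    rw [h4, h3]
    have h5 : ((q : ℕ) + 1) • z1 = ((q : ℤ) + 1) • z1 := by
      rw [← natCast_zsmul]; push_cast; rfl
    have h6 : ((q : ℕ) + 1) • z2 = ((q : ℤ) + 1) • z2 := by
      rw [← natCast_zsmul]; push_cast; rfl
    rw [h5, h6, smul_sub, smul_smul, smul_neg, smul_smul]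
    have h7 : ε * (↑q + 1) * ε = (q : ℤ) + 1 := by linear_combination ((q : ℤ) + 1) * hε
    rw [h7]
    abel
  · rw [map_sub, sub_eq_zero]
    refine hθq.trans ?_
    simp

end Fermat.Agent.LR
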