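import Fermat.Agent.S43Glue.Model
import Fermat.Agent.S43Glue.Curve

/-!
# Changes of variables and irreducibility
-/

set_option autoImplicit false
set_option maxHeartbeats 400000

noncomputable section

namespace Fermat.Agent.LR

open WeierstrassCurve WeierstrassCurve.Affine

section VC

variable {F : Type*} [Field F] (C : VariableChange F) {W W' : WeierstrassCurve F} (hW : C • W = W')

/-- coordinates -/
def vx (x : F) : F := (C.u⁻¹ : Fˣ) ^ 2 * (x - C.r)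
def vy (x y : F) : F := (C.u⁻¹ : Fˣ) ^ 3 * (y - C.s * (x - C.r) - C.t)

lemma vx_inj {x x' : F} : vx C x = vx C x' ↔ x = x' := by
  have hu : ((C.u⁻¹ : Fˣ) : F) ≠ 0 := Units.ne_zero _
  constructor
  · intro h
    have := mul_left_cancel₀ (pow_ne_zero 2 hu) h
    linear_combination this
  · rintro rfl; rfl

lemma vy_inj {x y y' : F} : vy C x y = vy C x y' ↔ y = y' := by
  have hu : ((C.u⁻¹ : Fˣ) : F) ≠ 0 := Units.ne_zero _
  constructor
  · intro h
    have := mul_left_cancel₀ (pow_ne_zero 3 hu) h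
    linear_combination this
  · rintro rfl; rfl

lemma some_congr {V : WeierstrassCurve F} {x x' y y' : F} (hx : x = x') (hy : y = y')
    {h : V.toAffine.Nonsingular x y} {h' : V.toAffine.Nonsingular x' y'} :
    (Point.some x y h : V.toAffine.Point) = Point.some x' y' h' := by
  subst hx; subst hy; rfl

include hW

lemma e_a1 : W'.toAffine.a₁ = C.u⁻¹ * (W.toAffine.a₁ + 2 * C.s) := by
  rw [← hW]; rfl
lemma e_a2 : W'.toAffine.a₂ = C.u⁻¹ ^ 2 * (W.toAffine.a₂ - C.s * W.toAffine.a₁ + 3 * C.r - C.s ^ 2) := by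
  rw [← hW]; rfl
lemma e_a3 : W'.toAffine.a₃ = C.u⁻¹ ^ 3 * (W.toAffine.a₃ + C.r * W.toAffine.a₁ + 2 * C.t) := by
  rw [← hW]; rfl
lemma e_a4 : W'.toAffine.a₄ = C.u⁻¹ ^ 4 * (W.toAffine.a₄ - C.s * W.toAffine.a₃ +
    2 * C.r * W.toAffine.a₂ - (C.t + C.r * C.s) * W.toAffine.a₁ + 3 * C.r ^ 2
      - 2 * C.s * C.t) := by
  rw [← hW]; rfl

lemma negY_vc (x y : F) : W'.toAffine.negY (vx C x) (vy C x y) =
    vy C x (W.toAffine.negY x y) := by
  rw [negY, negY, e_a1 C hW, e_a3 C hW, vx, vy, vy]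
  ring

lemma slope_vc [DecidableEq F] {x₁ x₂ y₁ y₂ : F} (h : ¬(x₁ = x₂ ∧ y₁ = W.toAffine.negY x₂ y₂))
    (hxy : x₁ = x₂ → y₁ = y₂) :
    W'.toAffine.slope (vx C x₁) (vx C x₂) (vy C x₁ y₁) (vy C x₂ y₂) =
      (C.u⁻¹ : Fˣ) * (W.toAffine.slope x₁ x₂ y₁ y₂ - C.s) := by
  have hu : ((C.u⁻¹ : Fˣ) : F) ≠ 0 := Units.ne_zero _
  by_cases hx : x₁ = x₂
  · subst hx
    obtain rfl := hxy rfl
    have hy : y₁ ≠ W.toAffine.negY x₁ y₁ := fun h' => h ⟨rfl, h'⟩
    have hy' : vy C x₁ y₁ ≠ W'.toAffine.negY (vx C x₁) (vy C x₁ y₁) := by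
      rw [negY_vc C hW, Ne, vy_inj]
      exact hy
    rw [slope_of_Y_ne rfl hy, slope_of_Y_ne rfl hy', negY_vc C hW]
    have hd : y₁ - W.toAffine.negY x₁ y₁ ≠ 0 := sub_ne_zero.mpr hy
    have hd' : vy C x₁ y₁ - vy C x₁ (W.toAffine.negY x₁ y₁) =
        (C.u⁻¹ : Fˣ) ^ 3 * (y₁ - W.toAffine.negY x₁ y₁) := by rw [vy, vy]; ring
    rw [hd', e_a1 C hW, e_a2 C hW, e_a4 C hW, div_eq_iff (mul_ne_zero (pow_ne_zero 3 hu) hd)]
    have e : (C.u⁻¹ : Fˣ) * ((3 * x₁ ^ 2 + 2 * W.toAffine.a₂ * x₁ + W.toAffine.a₄ -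
        W.toAffine.a₁ * y₁) / (y₁ - W.toAffine.negY x₁ y₁) - C.s) *
        ((C.u⁻¹ : Fˣ) ^ 3 * (y₁ - W.toAffine.negY x₁ y₁)) =
        ((C.u⁻¹ : Fˣ) : F) ^ 4 * ((3 * x₁ ^ 2 + 2 * W.toAffine.a₂ * x₁ + W.toAffine.a₄ -
        W.toAffine.a₁ * y₁) - C.s * (y₁ - W.toAffine.negY x₁ y₁)) := by
      field_simp
    rw [e, negY, vx, vy]
    ring
  · have hx' : vx C x₁ ≠ vx C x₂ := by rw [Ne, vx_inj]; exact hx
    rw [slope_of_X_ne hx, slope_of_X_ne hx']
    have hd : x₁ - x₂ ≠ 0 := sub_ne_zero.mpr hx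
    have hd' : vx C x₁ - vx C x₂ = (C.u⁻¹ : Fˣ) ^ 2 * (x₁ - x₂) := by rw [vx, vx]; ring
    rw [hd', div_eq_iff (mul_ne_zero (pow_ne_zero 2 hu) hd)]
    have e : (C.u⁻¹ : Fˣ) * ((y₁ - y₂) / (x₁ - x₂) - C.s) * ((C.u⁻¹ : Fˣ) ^ 2 * (x₁ - x₂)) =
        ((C.u⁻¹ : Fˣ) : F) ^ 3 * ((y₁ - y₂) - C.s * (x₁ - x₂)) := by
      field_simp
    rw [e, vy, vy]
    ring

/-- the map on points -/
def vcP (hΔ : W.Δ ≠ 0) : W.toAffine.Point → W'.toAffine.Point
  | .zero => .zero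
  | .some x y h => .some (vx C x) (vy C x y)
      ((W'.toAffine.equation_iff_nonsingular_of_Δ_ne_zero (by
        rw [← hW, variableChange_Δ]
        exact mul_ne_zero (pow_ne_zero _ (Units.ne_zero _)) hΔ)).mp (by
          rw [← hW]; exact (S43Glue.equation_vc C W x y).mpr h.1))

lemma vcP_zero (hΔ : W.Δ ≠ 0) : vcP C hW hΔ 0 = 0 := rfl

lemma vcP_bijective (hΔ : W.Δ ≠ 0) : Function.Bijective (vcP C hW hΔ) := by
  subst hW
  exact S43Glue.vcPoint_bijective C W hΔ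

theorem vcP_add [DecidableEq F] (hΔ : W.Δ ≠ 0) (P Q : W.toAffine.Point) :
    vcP C hW hΔ (P + Q) = vcP C hW hΔ P + vcP C hW hΔ Q := by
  rcases P with _ | ⟨x₁, y₁, h₁⟩
  · change vcP C hW hΔ (0 + Q) = 0 + vcP C hW hΔ Q
    rw [zero_add, zero_add]
  rcases Q with _ | ⟨x₂, y₂, h₂⟩
  · change vcP C hW hΔ (_ + 0) = _ + 0
    rw [add_zero, add_zero]
  by_cases hxy : x₁ = x₂ ∧ y₁ = W.toAffine.negY x₂ y₂
  · obtain ⟨rfl, hy⟩ := hxy
    rw [Point.add_of_Y_eq rfl hy]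
    symm
    refine Point.add_of_Y_eq rfl ?_
    rw [negY_vc C hW, hy]
  · have hxy' : ¬(vx C x₁ = vx C x₂ ∧ vy C x₁ y₁ = W'.toAffine.negY (vx C x₂) (vy C x₂ y₂)) := by
      rintro ⟨h, h'⟩
      rw [vx_inj] at h
      subst h
      rw [negY_vc C hW, vy_inj] at h'
      exact hxy ⟨rfl, h'⟩
    have hcond : x₁ = x₂ → y₁ = y₂ := by
      intro h
      subst h
      exact Y_eq_of_Y_ne h₁.1 h₂.1 rfl (fun h' => hxy ⟨rfl, h'⟩)
    rw [Point.add_some hxy]
    refine Eq.trans ?_ (Point.add_some hxy').symm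
    have hs := slope_vc C hW hxy hcond
    have hX : W'.toAffine.addX (vx C x₁) (vx C x₂)
        (W'.toAffine.slope (vx C x₁) (vx C x₂) (vy C x₁ y₁) (vy C x₂ y₂)) =
        vx C (W.toAffine.addX x₁ x₂ (W.toAffine.slope x₁ x₂ y₁ y₂)) := by
      rw [hs, addX, addX, e_a1 C hW, e_a2 C hW, vx, vx, vx]
      ring
    have hN : W'.toAffine.negAddY (vx C x₁) (vx C x₂) (vy C x₁ y₁)
        (W'.toAffine.slope (vx C x₁) (vx C x₂) (vy C x₁ y₁) (vy C x₂ y₂)) =
        vy C (W.toAffine.addX x₁ x₂ (W.toAffine.slope x₁ x₂ y₁ y₂))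
          (W.toAffine.negAddY x₁ x₂ y₁ (W.toAffine.slope x₁ x₂ y₁ y₂)) := by
      rw [negAddY, negAddY, hX, hs, vx, vx, vy, vy]
      ring
    refine some_congr hX.symm ?_
    rw [addY, addY, hN, hX, negY_vc C hW]

end VC

section transfer

open WeierstrassCurve.Affine.Point

open scoped WeierstrassCurve.Affine

local notation "Qbar" => AlgebraicClosure ℚ
local notation "GQ" => Qbar ≃ₐ[ℚ] Qbar

variable {E E' : WeierstrassCurve ℚ} {C : VariableChange ℚ} (hC : C • E = E')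

include hC in
lemma hCK : (C.map (algebraMap ℚ Qbar)) • (E.map (algebraMap ℚ Qbar)) =
    E'.map (algebraMap ℚ Qbar) := by
  rw [map_variableChange, hC]

/-- the isomorphism on points -/
def phK (hΔ : (E.map (algebraMap ℚ Qbar)).Δ ≠ 0) :
    ((E : Affine ℚ)⁄Qbar).Point →+ ((E' : Affine ℚ)⁄Qbar).Point where
  toFun := vcP (C.map (algebraMap ℚ Qbar)) (hCK hC) hΔ
  map_zero' := rfl
  map_add' := vcP_add (C.map (algebraMap ℚ Qbar)) (hCK hC) hΔ

lemma phK_bijective (hΔ : (E.map (algebraMap ℚ Qbar)).Δ ≠ 0) : Function.Bijective (phK hC hΔ) :=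
  vcP_bijective (C.map (algebraMap ℚ Qbar)) (hCK hC) hΔ

lemma phK_smul (hΔ : (E.map (algebraMap ℚ Qbar)).Δ ≠ 0) (σ : GQ)
    (P : ((E : Affine ℚ)⁄Qbar).Point) : phK hC hΔ (σ • P) = σ • phK hC hΔ P := by
  rcases P with _ | ⟨x, y, h⟩
  · rfl
  · have hu : (((C.map (algebraMap ℚ Qbar)).u⁻¹ : Qbarˣ) : Qbar) =
        algebraMap ℚ Qbar ((C.u⁻¹ : ℚˣ) : ℚ) := by
      simp [VariableChange.map]
    refine some_congr ?_ ?_
    · change vx _ (σ x) = σ (vx _ x)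
      rw [vx, vx, hu]
      change _ * (σ x - algebraMap ℚ Qbar C.r) = σ (_ * (x - algebraMap ℚ Qbar C.r))
      rw [map_mul, map_pow, map_sub, AlgEquiv.commutes, AlgEquiv.commutes]
    · change vy _ (σ x) (σ y) = σ (vy _ x y)
      rw [vy, vy, hu]
      change _ * (σ y - algebraMap ℚ Qbar C.s * (σ x - algebraMap ℚ Qbar C.r) -
        algebraMap ℚ Qbar C.t) = σ (_ * (y - algebraMap ℚ Qbar C.s * (x - algebraMap ℚ Qbar C.r) -
        algebraMap ℚ Qbar C.t))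
      rw [map_mul, map_pow, map_sub, map_sub, map_mul, map_sub, AlgEquiv.commutes,
        AlgEquiv.commutes, AlgEquiv.commutes, AlgEquiv.commutes]

include hC in
theorem irreducible_transfer (hΔ : (E.map (algebraMap ℚ Qbar)).Δ ≠ 0) {p : ℕ}
    (hirr : GaloisRepIsIrreducible (K := Qbar) ℚ E p) :
    GaloisRepIsIrreducible (K := Qbar) ℚ E' p := by
  have hbij := phK_bijective hC hΔ
  have hmem : ∀ x : Submodule.torsionBy ℤ ((E : Affine ℚ)⁄Qbar).Point p,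
      phK hC hΔ x ∈ Submodule.torsionBy ℤ ((E' : Affine ℚ)⁄Qbar).Point p := by
    intro x
    have h := (Submodule.mem_torsionBy_iff _ _).mp x.2
    rw [Submodule.mem_torsionBy_iff, ← map_zsmul, h, _root_.map_zero]
  let f : Submodule.torsionBy ℤ ((E : Affine ℚ)⁄Qbar).Point p →+
      Submodule.torsionBy ℤ ((E' : Affine ℚ)⁄Qbar).Point p :=
    { toFun := fun x => ⟨phK hC hΔ x, hmem x⟩
      map_zero' := Subtype.ext (_root_.map_zero _)
      map_add' := fun x y => Subtype.ext (map_add _ _ _) }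
  have hf : ∀ x, ((f x : Submodule.torsionBy ℤ ((E' : Affine ℚ)⁄Qbar).Point p) :
      ((E' : Affine ℚ)⁄Qbar).Point) = phK hC hΔ x := fun _ => rfl
  have hfi : Function.Injective f := by
    intro x y hxy
    have := congrArg Subtype.val hxy
    exact Subtype.ext (hbij.1 this)
  have hfs : Function.Surjective f := by
    intro y
    obtain ⟨x, hx⟩ := hbij.2 y
    have hx' : x ∈ Submodule.torsionBy ℤ ((E : Affine ℚ)⁄Qbar).Point p := by
      rw [Submodule.mem_torsionBy_iff]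
      apply hbij.1
      rw [map_zsmul, hx, _root_.map_zero]
      exact (Submodule.mem_torsionBy_iff _ _).mp y.2
    exact ⟨⟨x, hx'⟩, Subtype.ext hx⟩
  have hfσ : ∀ (σ : GQ) x, f (σ • x) = σ • f x := by
    intro σ x
    exact Subtype.ext (phK_smul hC hΔ σ x)
  refine ⟨?_, fun N hN => ?_⟩
  · haveI := hirr.1
    exact hfi.nontrivial
  · have h := hirr.2 (N.comap (f.toZModLinearMap p)) (fun σ x hx => by
      change f (σ • x) ∈ N
      rw [hfσ]
      exact hN σ _ hx)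
    rcases h with h | h
    · left
      rw [eq_bot_iff]
      intro y hy
      obtain ⟨x, rfl⟩ := hfs y
      have : x ∈ N.comap (f.toZModLinearMap p) := hy
      rw [h, Submodule.mem_bot] at this
      rw [this, _root_.map_zero]
      exact Submodule.zero_mem _
    · right
      rw [eq_top_iff]
      intro y _
      obtain ⟨x, rfl⟩ := hfs y
      have : x ∈ N.comap (f.toZModLinearMap p) := by rw [h]; trivial
      exact this

end transfer

end Fermat.Agent.LR
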