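import Fermat.Agent.LR.Chb
import Fermat.Agent.LR.VC

/-!
# Auxiliary primes for level raising
-/

set_option autoImplicit false
set_option maxHeartbeats 400000

noncomputable section

namespace Fermat.Agent.LR

open Matrix Fermat.Agent.S43Glue Fermat.Agent.GalRep
open WeierstrassCurve WeierstrassCurve.Affine WeierstrassCurve.Affine.Point
open scoped WeierstrassCurve.Affine

local notation "Qbar" => AlgebraicClosure ℚ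
local notation "GQ" => Qbar ≃ₐ[ℚ] Qbar

variable {p : ℕ} [hp : Fact p.Prime]

lemma noLine_of_irred {ρ : GQ →* Matrix (Fin 2) (Fin 2) (ZMod p)}
    (h : ∀ V : Submodule (ZMod p) (Fin 2 → ZMod p),
      (∀ σ, ∀ x ∈ V, ρ σ *ᵥ x ∈ V) → V = ⊥ ∨ V = ⊤) : NoLine ρ := by
  intro v hv
  by_contra hcon
  push Not at hcon
  have h1 := h (Submodule.span (ZMod p) {v}) (fun σ x hx => by
    obtain ⟨c, rfl⟩ := Submodule.mem_span_singleton.mp hx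
    obtain ⟨d, hd⟩ := hcon σ
    rw [Matrix.mulVec_smul, hd, smul_smul]
    exact Submodule.smul_mem _ _ (Submodule.mem_span_singleton_self v))
  rcases h1 with h1 | h1
  · exact hv (Submodule.span_singleton_eq_bot.mp h1)
  · have h2 := finrank_span_singleton (K := ZMod p) hv
    rw [h1, finrank_top, Module.finrank_fin_fun] at h2
    omega

lemma exists_nonscalar {ρ : GQ →* Matrix (Fin 2) (Fin 2) (ZMod p)} (h : NoLine ρ) :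
    ∃ c, ∀ s : ZMod p, ρ c ≠ s • (1 : Matrix (Fin 2) (Fin 2) (ZMod p)) := by
  obtain ⟨g, hg⟩ := h ![1, 0] (fun h => one_ne_zero (congrFun h 0))
  refine ⟨g, fun s hs => hg s ?_⟩
  rw [hs, Matrix.smul_mulVec, Matrix.one_mulVec]

/-- data for the auxiliary primes -/
theorem exists_curve_rep (E : WeierstrassCurve ℚ) [E.IsElliptic] {W : WeierstrassCurve ℤ}
    (hW : W.IsIntegralModelOf E) (hirr : GaloisRepIsIrreducible (K := AlgebraicClosure ℚ) ℚ E p)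
    {D : ℕ} (hD : D ≠ 0) :
    ∃ ρ : GQ →* Matrix (Fin 2) (Fin 2) (ZMod p), FinLevel ρ ∧ NoLine ρ ∧
      (∀ g, (ρ g).det = chiK p (ZMod p) g) ∧ ∃ S : Set ℕ, S.Finite ∧
      (∀ ℓ : ℕ, ℓ.Prime → ℓ ∉ S → W.IsGoodPrimeFor ℓ ∧ ¬ ℓ ∣ D ∧ ℓ ≠ p) ∧
      (∀ ℓ : ℕ, ℓ.Prime → ℓ ∉ S → ∀ A : ValuationSubring Qbar, A.LiesOverPrime ℓ →
        ∀ τ : GQ, A.IsFrobeniusAt τ ℓ → (ρ τ).trace = ((W.apOfModel ℓ : ℤ) : ZMod p) ∧
          (ρ τ).det = (ℓ : ZMod p)) := by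
  obtain ⟨C, hC⟩ := hW
  have hΔE : (E.map (algebraMap ℚ Qbar)).Δ ≠ 0 := by
    rw [WeierstrassCurve.map_Δ]
    exact (map_ne_zero _).mpr E.isUnit_Δ.ne_zero
  have hirr' := irreducible_transfer hC hΔE hirr
  set E' := W.map (Int.castRingHom ℚ) with hE'
  have hΔ' : E'.Δ ≠ 0 := by
    rw [← hC, variableChange_Δ]
    exact mul_ne_zero (pow_ne_zero _ (Units.ne_zero _)) E.isUnit_Δ.ne_zero
  have hΔQ : ((E' : Affine ℚ)⁄Qbar).Δ ≠ 0 := by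
    change (E'.map (algebraMap ℚ Qbar)).Δ ≠ 0
    rw [WeierstrassCurve.map_Δ]
    exact (map_ne_zero _).mpr hΔ'
  have hWΔ : W.Δ ≠ 0 := by
    intro h
    apply hΔ'
    rw [hE', WeierstrassCurve.map_Δ, h, _root_.map_zero]
  obtain ⟨b⟩ := exists_basis (E := E') (p := p) hΔQ
  set ρ := curveRep b with hρ
  have hlev : FinLevel ρ := curveRep_finLevel b hΔQ
  have hnl : NoLine ρ := noLine_of_irred (irred_of_irreducible b hirr')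
  set S : Set ℕ := {ℓ | ℓ ∣ W.Δ.natAbs * D * p} with hS
  have hn : W.Δ.natAbs * D * p ≠ 0 :=
    mul_ne_zero (mul_ne_zero (Int.natAbs_ne_zero.mpr hWΔ) hD) hp.out.ne_zero
  have hSf : S.Finite := Set.Finite.subset (Set.finite_Iic (W.Δ.natAbs * D * p))
    fun ℓ hℓ => Nat.le_of_dvd (Nat.pos_of_ne_zero hn) hℓ
  have hgood : ∀ ℓ : ℕ, ℓ.Prime → ℓ ∉ S → W.IsGoodPrimeFor ℓ ∧ ¬ ℓ ∣ D ∧ ℓ ≠ p := by
    intro ℓ _ hℓ
    refine ⟨fun h => hℓ ?_, fun h => hℓ ?_, fun h => hℓ ?_⟩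
    · exact ((Int.natCast_dvd.mp h).mul_right D).mul_right p
    · exact (h.mul_left _).mul_right p
    · rw [h]; exact dvd_mul_left _ _
  have hfr : ∀ ℓ : ℕ, ℓ.Prime → ℓ ∉ S → ∀ A : ValuationSubring Qbar, A.LiesOverPrime ℓ →
      ∀ τ : GQ, A.IsFrobeniusAt τ ℓ → ρ τ * ρ τ - ((W.apOfModel ℓ : ℤ) : ZMod p) • ρ τ +
        (ℓ : ZMod p) • 1 = 0 := by
    intro ℓ hℓ hℓS A hA τ hτ
    obtain ⟨h1, -, h3⟩ := hgood ℓ hℓ hℓS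
    exact curveRep_frob b hE' hℓ h1 h3 hA hτ
  have hpS : p ∈ S := dvd_mul_left _ _
  obtain ⟨h1, h2⟩ := trace_det_of_frob ρ hlev S hSf hpS
    (fun ℓ => ((W.apOfModel ℓ : ℤ) : ZMod p)) hfr (exists_nonscalar hnl)
  exact ⟨ρ, hlev, hnl, h1, S, hSf, hgood, h2⟩

/-- **(F11)(i)** -/
theorem exists_aux_one (hp2 : p ≠ 2) (E : WeierstrassCurve ℚ) [E.IsElliptic]
    {W : WeierstrassCurve ℤ} (hW : W.IsIntegralModelOf E)
    (hirr : GaloisRepIsIrreducible (K := AlgebraicClosure ℚ) ℚ E p) {D : ℕ} (hD : D ≠ 0)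
    {M : ℕ} (hM : M ≠ 0) :
    ∃ ℓ : ℕ, ℓ.Prime ∧ W.IsGoodPrimeFor ℓ ∧ ¬ ℓ ∣ D ∧ ℓ ≠ p ∧ ℓ ≡ 1 [MOD M] ∧
      ((W.apOfModel ℓ : ℤ) : ZMod p) ≠ ℓ + 1 := by
  obtain ⟨ρ, hlev, hnl, hdet, S, hSf, hgood, hfr⟩ := exists_curve_rep E hW hirr hD
  obtain ⟨ℓ, hℓ, hℓS, h1, h2⟩ := exists_prime_one hlev hnl hp2 hdet
    (fun ℓ => ((W.apOfModel ℓ : ℤ) : ZMod p)) hSf hfr hM
  obtain ⟨g1, g2, g3⟩ := hgood ℓ hℓ hℓS
  exact ⟨ℓ, hℓ, g1, g2, g3, h1, h2⟩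

/-- **(F11)(ii)** -/
theorem exists_aux_two (hp2 : p ≠ 2) (E : WeierstrassCurve ℚ) [E.IsElliptic]
    {W : WeierstrassCurve ℤ} (hW : W.IsIntegralModelOf E)
    (hirr : GaloisRepIsIrreducible (K := AlgebraicClosure ℚ) ℚ E p) {D : ℕ} (hD : D ≠ 0) :
    ∃ ℓ : ℕ, ℓ.Prime ∧ W.IsGoodPrimeFor ℓ ∧ ¬ ℓ ∣ D ∧ ℓ ≠ p ∧
      ((W.apOfModel ℓ : ℤ) : ZMod p) ^ 2 ≠ ((ℓ : ZMod p) + 1) ^ 2 := by
  obtain ⟨ρ, hlev, hnl, hdet, S, hSf, hgood, hfr⟩ := exists_curve_rep E hW hirr hD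
  obtain ⟨ℓ, hℓ, hℓS, h2⟩ := exists_prime_two hlev hnl hp2 hdet
    (fun ℓ => ((W.apOfModel ℓ : ℤ) : ZMod p)) hSf hfr
  obtain ⟨g1, g2, g3⟩ := hgood ℓ hℓ hℓS
  exact ⟨ℓ, hℓ, g1, g2, g3, h2⟩

end Fermat.Agent.LR
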