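import Fermat.Agent.Newform.Basis
import Fermat.Agent.Newform.BadPrime
import Fermat.Agent.Newform.Conj
import Mathlib.Algebra.FreeAlgebra

/-!
# Level raising: newforms and oldforms
-/

set_option autoImplicit false

noncomputable section

namespace Fermat.Agent.LR

open Fermat.Agent.Newform
open ModularFormClass (qCoeff)
open DSLift (heckeOp)

variable {N q D : ℕ} [NeZero N] [hq : Fact q.Prime]

instance neZero_mul_q : NeZero (N * q) := ⟨mul_ne_zero (NeZero.ne N) hq.out.ne_zero⟩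

variable (N q) in
/-- oldforms from level `N` -/
def Old : Submodule ℂ (S2 (N * q)) :=
  LinearMap.range (bL N (N * q) 1 one_ne_zero (by rw [mul_one]; exact dvd_mul_right _ _)) ⊔
    LinearMap.range (bL N (N * q) q hq.out.ne_zero dvd_rfl)

omit [NeZero N] in
/-- **Claim 1** -/
theorem claim1 [NeZero N] (hqN : ¬ q ∣ N) (hD : D ≠ 0) (hND : N * q ∣ D) (χ : GP D → ℂ)
    (h0 : Eig (N * q) D χ ≠ ⊥) :
    (∃ g : S2 (N * q), g.IsNormalizedEigenform ∧ (∀ ℓ : GP D, qCoeff g ℓ.1 = χ ℓ) ∧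
      qCoeff g q ^ 2 = 1) ∨ Eig (N * q) D χ ≤ Old N q := by
  obtain ⟨M, hM, h, hh, hhχ⟩ := exists_newform_of_Eig hND h0
  have hM0 : NeZero M := ⟨fun h => NeZero.ne (N * q) (Nat.eq_zero_of_zero_dvd (h ▸ hM))⟩
  have hχ : χ = chi h D := funext fun ℓ => (hhχ ℓ).symm
  by_cases hqM : q ∣ M
  · left
    have hq2 : ¬ q ^ 2 ∣ M := by
      intro h2
      apply hqN
      have h3 : q * q ∣ N * q := by
        rw [← sq]; exact h2.trans hM
      exact Nat.dvd_of_mul_dvd_mul_right hq.out.pos h3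
    have haq : qCoeff h q ^ 2 = 1 := (newformBadPrimeCoeff M h hh q hq.out hqM).1 hq2
    set V : Submodule ℂ (S2 (N * q)) := Eig (N * q) D χ ⊓
      (heckeOp (N * q) 2 hq.out).eigenspace (qCoeff h q) with hV
    have hF : bL M (N * q) 1 one_ne_zero (by rwa [mul_one]) h ∈ V := by
      refine ⟨?_, ?_⟩
      · rw [hχ]; exact bL_mem_Eig one_ne_zero _ hND (mem_Eig_chi hh.1 D)
      · rw [SetLike.mem_coe, Module.End.mem_eigenspace_iff, ← bL_heckeOp one_ne_zero _ hq.out
          (fun h => hq.out.one_lt.ne' (Nat.dvd_one.1 h)) (fun _ => hqM),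
          DSLift.heckeOp_apply_of_isNormalizedEigenform M hh.1, map_smul]
    have hV0 : V ≠ ⊥ := by
      intro h1
      rw [h1, Submodule.mem_bot] at hF
      have h2 := bL_injective one_ne_zero (by rwa [mul_one] : M * 1 ∣ N * q) (hF.trans (map_zero _).symm)
      exact hh.1.ne_zero h2
    have hVs : ∀ (p : ℕ) (hp : p.Prime), ∀ v ∈ V, heckeOp (N * q) 2 hp v ∈ V := by
      intro p hp v hv
      refine ⟨heckeOp_mem_Eig hp hv.1, ?_⟩
      have h1 := hv.2
      rw [SetLike.mem_coe, Module.End.mem_eigenspace_iff] at h1 ⊢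
      have h2 := LinearMap.congr_fun (heckeOp_commute (M := N * q) hq.out hp).eq v
      rw [Module.End.mul_apply, Module.End.mul_apply, h1, map_smul] at h2
      exact h2
    obtain ⟨g, hgV, hg⟩ := exists_common_eigenvector V hV0 hVs
    refine ⟨g, hg, qCoeff_of_mem_Eig hg.qCoeff_one hgV.1, ?_⟩
    have h3 := hgV.2
    rw [SetLike.mem_coe, Module.End.mem_eigenspace_iff] at h3
    rw [DSLift.qCoeff_prime_of_eigen (N * q) 2 hg.qCoeff_one hq.out h3, haq]
  · right
    have hMN : M ∣ N := (((Nat.Prime.coprime_iff_not_dvd hq.out).mpr hqM).symm).dvd_of_dvd_mul_right hM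
    rw [hχ, Eig_eq_span hh hD hND, Submodule.span_le]
    rintro _ ⟨d, hd, hdM, rfl⟩
    by_cases hqd : q ∣ d
    · obtain ⟨e, rfl⟩ := hqd
      have he : e ≠ 0 := fun h => hd (by rw [h, mul_zero])
      have hMe : M * e ∣ N := by
        have : M * e * q ∣ N * q := by
          have e1 : M * e * q = M * (q * e) := by ring
          rw [e1]; exact hdM
        exact Nat.dvd_of_mul_dvd_mul_right hq.out.pos this
      refine Submodule.mem_sup_right ⟨bL M N e he hMe h, ?_⟩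
      rw [bL_bL]
      simp only [mul_comm e q]
    · have hcop : Nat.Coprime d q := ((Nat.Prime.coprime_iff_not_dvd hq.out).mpr hqd).symm
      have hMd : M * d ∣ N := by
        have h1 : Nat.Coprime (M * d) q := Nat.Coprime.mul_left
          (((Nat.Prime.coprime_iff_not_dvd hq.out).mpr hqM).symm) hcop
        exact h1.dvd_of_dvd_mul_right hdM
      refine Submodule.mem_sup_left ⟨bL M N d hd hMd h, ?_⟩
      rw [bL_bL]
      simp only [mul_one]

/-! ### the abstract Hecke algebra on cusp forms -/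

/-- the good primes as a set -/
def PD (D : ℕ) : Set ℕ := {ℓ : ℕ | ℓ.Prime ∧ ¬ ℓ ∣ D}

/-- the action on cusp forms -/
def rF (M D : ℕ) [NeZero M] : FreeAlgebra ℤ (PD D) →ₐ[ℤ] Module.End ℂ (S2 M) :=
  FreeAlgebra.lift ℤ fun ℓ => heckeOp M 2 ℓ.2.1

/-- the character attached to a system of eigenvalues -/
def chh {κ : Type*} [CommRing κ] (χ : PD D → κ) : FreeAlgebra ℤ (PD D) →ₐ[ℤ] κ :=
  FreeAlgebra.lift ℤ χ

omit [NeZero N] hq in
lemma rF_apply_Eig {M : ℕ} [NeZero M] {χ : GP D → ℂ} {f : S2 M} (hf : f ∈ Eig M D χ)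
    (t : FreeAlgebra ℤ (PD D)) : rF M D t f = chh (D := D) χ t • f := by
  rw [mem_Eig] at hf
  induction t using FreeAlgebra.induction with
  | grade0 r =>
    rw [AlgHom.commutes, AlgHom.commutes]
    simp only [algebraMap_int_eq, eq_intCast]
    rw [Int.cast_smul_eq_zsmul]
    simp
  | grade1 ℓ =>
    have h1 : rF M D (FreeAlgebra.ι ℤ ℓ) = heckeOp M 2 ℓ.2.1 := FreeAlgebra.lift_ι_apply _ _
    have h2 : chh (D := D) χ (FreeAlgebra.ι ℤ ℓ) = χ ℓ := FreeAlgebra.lift_ι_apply _ _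
    rw [h1, h2]
    exact hf ℓ
  | mul s t hs ht =>
    rw [map_mul, Module.End.mul_apply, ht, map_smul, hs, map_mul, smul_smul, mul_comm]
  | add s t hs ht => rw [map_add, LinearMap.add_apply, hs, ht, map_add, add_smul]

omit [NeZero N] in
/-- **Claim 2** -/
theorem claim2 [NeZero N] (hqN : ¬ q ∣ N) (hD : D ≠ 0) (hND : N * q ∣ D) {κ : Type*} [Field κ]
    (θ : FreeAlgebra ℤ (PD D) →+* κ)
    (hno : ∀ g : S2 (N * q), g.IsNormalizedEigenform → qCoeff g q ^ 2 = 1 →
      ∃ t : FreeAlgebra ℤ (PD D), chh (D := D) (fun ℓ : PD D => qCoeff g ℓ) t = 0 ∧ θ t ≠ 0) :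
    ∃ t : FreeAlgebra ℤ (PD D), θ t ≠ 0 ∧ ∀ f : S2 (N * q), rF (N * q) D t f ∈ Old N q := by
  classical
  have hsel : ∀ χ : GP D → ℂ, ∃ t : FreeAlgebra ℤ (PD D), θ t ≠ 0 ∧
      ∀ f ∈ Eig (N * q) D χ, chh (D := D) χ t • f ∈ Old N q := by
    intro χ
    by_cases h0 : Eig (N * q) D χ = ⊥
    · refine ⟨1, by rw [map_one]; exact one_ne_zero, fun f hf => ?_⟩
      rw [h0, Submodule.mem_bot] at hf
      rw [hf, smul_zero]
      exact zero_mem _
    · rcases claim1 hqN hD hND χ h0 with ⟨g, hg, hgχ, hgq⟩ | hold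
      · obtain ⟨t, ht, hθ⟩ := hno g hg hgq
        refine ⟨t, hθ, fun f _ => ?_⟩
        have : (fun ℓ : PD D => qCoeff g ℓ) = χ := funext fun ℓ => hgχ ℓ
        rw [this] at ht
        rw [ht, zero_smul]
        exact zero_mem _
      · exact ⟨1, by rw [map_one]; exact one_ne_zero, fun f hf => Submodule.smul_mem _ _ (hold hf)⟩
  choose sel hsel1 hsel2 using hsel
  have hfin : Set.Finite {χ : GP D → ℂ | Eig (N * q) D χ ≠ ⊥} :=
    WellFoundedGT.finite_ne_bot_of_iSupIndep (iSupIndep_Eig hND)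
  set t := (hfin.toFinset.toList.map sel).prod with ht
  refine ⟨t, ?_, fun f => ?_⟩
  · rw [ht, map_list_prod, List.map_map]
    apply List.prod_ne_zero
    rw [List.mem_map]
    rintro ⟨χ, _, h⟩
    exact hsel1 χ h
  · have hf : f ∈ ⨆ χ, Eig (N * q) D χ := by rw [iSup_Eig hND]; trivial
    induction hf using Submodule.iSup_induction' with
    | mem χ f hf =>
      rw [rF_apply_Eig hf]
      by_cases h0 : f = 0
      · rw [h0, smul_zero]; exact zero_mem _
      have hχ : χ ∈ hfin.toFinset := by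
        rw [Set.Finite.mem_toFinset]
        intro h1
        rw [h1, Submodule.mem_bot] at hf
        exact h0 hf
      have h2 : chh (D := D) χ t = ∏ χ' ∈ hfin.toFinset, chh (D := D) χ (sel χ') := by
        rw [ht, map_list_prod, List.map_map, ← Finset.prod_map_toList]
        rfl
      rw [h2]
      have h3 := Finset.mul_prod_erase hfin.toFinset (fun χ' => chh (D := D) χ (sel χ')) hχ
      rw [← h3, mul_comm (chh (D := D) χ (sel χ)), mul_smul]
      exact Submodule.smul_mem _ _ (hsel2 χ f hf)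
    | zero => rw [map_zero]; exact zero_mem _
    | add x y _ _ hx hy => rw [map_add]; exact add_mem hx hy

omit [NeZero N] hq in
/-- the congruence -/
theorem exists_ideal {M : ℕ} [NeZero M] {g : S2 M} (hg : g.IsNormalizedEigenform) {p : ℕ}
    [hp : Fact p.Prime] (a : PD D → ℤ)
    (h : ∀ t : FreeAlgebra ℤ (PD D), chh (D := D) (fun ℓ : PD D => qCoeff g ℓ) t = 0 →
      chh (D := D) (fun ℓ : PD D => ((a ℓ : ℤ) : ZMod p)) t = 0) :
    ∃ 𝔪' : Ideal (integralClosure ℤ ℂ), 𝔪'.IsMaximal ∧ (p : integralClosure ℤ ℂ) ∈ 𝔪' ∧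
      ∀ ℓ : PD D, ∃ x : integralClosure ℤ ℂ, (x : ℂ) = qCoeff g ℓ ∧
        x - ((a ℓ : ℤ) : integralClosure ℤ ℂ) ∈ 𝔪' := by
  let b : PD D → integralClosure ℤ ℂ := fun ℓ => ⟨qCoeff g ℓ, isIntegral_qCoeff hg ℓ⟩
  let ψ : FreeAlgebra ℤ (PD D) →+* integralClosure ℤ ℂ := (chh (D := D) b : _ →ₐ[ℤ] _)
  let θ : FreeAlgebra ℤ (PD D) →+* ZMod p :=
    (chh (D := D) (fun ℓ : PD D => ((a ℓ : ℤ) : ZMod p)) : _ →ₐ[ℤ] _)
  have hψ : ∀ t, ((ψ t : integralClosure ℤ ℂ) : ℂ) =
      chh (D := D) (fun ℓ : PD D => qCoeff g ℓ) t := by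
    intro t
    have : ((integralClosure ℤ ℂ).val.comp (chh (D := D) b)) =
        chh (D := D) (fun ℓ : PD D => qCoeff g ℓ) := by
      apply FreeAlgebra.hom_ext
      funext ℓ
      change (integralClosure ℤ ℂ).val (chh (D := D) b (FreeAlgebra.ι ℤ ℓ)) =
        chh (D := D) (fun ℓ : PD D => qCoeff g ℓ) (FreeAlgebra.ι ℤ ℓ)
      rw [chh, chh, FreeAlgebra.lift_ι_apply, FreeAlgebra.lift_ι_apply]
      rfl
    exact DFunLike.congr_fun this t
  have hker : ∀ t, ψ t = 0 → θ t = 0 := by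
    intro t ht
    apply h
    rw [← hψ, ht]
    rfl
  let R := ψ.range
  let θR : R →+* ZMod p := (RingHom.rangeRestrict ψ).liftOfRightInverse _ (Function.rightInverse_surjInv
    (RingHom.rangeRestrict_surjective ψ)) ⟨θ, fun t ht => by
      rw [RingHom.mem_ker] at ht ⊢
      exact hker t (congrArg Subtype.val ht)⟩
  have hθR : ∀ t, θR (ψ.rangeRestrict t) = θ t := fun t =>
    RingHom.liftOfRightInverse_comp_apply _ _ _ _ _
  have hsurj : Function.Surjective θR := by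
    intro z
    obtain ⟨n, rfl⟩ := ZMod.intCast_surjective z
    exact ⟨n, map_intCast _ _⟩
  have hmax : (RingHom.ker θR).IsMaximal := RingHom.ker_isMaximal_of_surjective θR hsurj
  have : Algebra.IsIntegral R (integralClosure ℤ ℂ) :=
    ⟨fun x => (Algebra.IsIntegral.isIntegral (R := ℤ) x).tower_top⟩
  have hinj : RingHom.ker (algebraMap R (integralClosure ℤ ℂ)) ≤ RingHom.ker θR := by
    intro x hx
    rw [RingHom.mem_ker] at hx
    have : x = 0 := Subtype.ext hx
    rw [this]; exact zero_mem _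
  obtain ⟨𝔪', h𝔪', hcom⟩ := Ideal.exists_ideal_over_maximal_of_isIntegral
    (S := integralClosure ℤ ℂ) (RingHom.ker θR) hinj
  have hmem : ∀ x : R, θR x = 0 → (x : integralClosure ℤ ℂ) ∈ 𝔪' := by
    intro x hx
    have h1 : x ∈ 𝔪'.comap (algebraMap R (integralClosure ℤ ℂ)) := by
      rw [hcom]; exact hx
    exact h1
  refine ⟨𝔪', h𝔪', ?_, fun ℓ => ⟨b ℓ, rfl, ?_⟩⟩
  · have h1 := hmem (p : R) (by rw [map_natCast]; exact ZMod.natCast_self p)
    simpa using h1
  · have h1 := hmem (ψ.rangeRestrict (FreeAlgebra.ι ℤ ℓ - algebraMap ℤ _ (a ℓ))) (by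
      rw [hθR, map_sub]
      change chh (D := D) _ (FreeAlgebra.ι ℤ ℓ) - chh (D := D) _ (algebraMap ℤ _ (a ℓ)) = 0
      rw [chh, FreeAlgebra.lift_ι_apply, AlgHom.commutes]
      simp)
    have h2 : ((ψ.rangeRestrict (FreeAlgebra.ι ℤ ℓ - algebraMap ℤ _ (a ℓ)) : R) :
        integralClosure ℤ ℂ) = b ℓ - ((a ℓ : ℤ) : integralClosure ℤ ℂ) := by
      change ψ _ = _
      rw [map_sub]
      change chh (D := D) b (FreeAlgebra.ι ℤ ℓ) - chh (D := D) b (algebraMap ℤ _ (a ℓ)) = _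
      rw [chh, FreeAlgebra.lift_ι_apply, AlgHom.commutes]
      rfl
    rw [h2] at h1
    exact h1

end Fermat.Agent.LR
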