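import Fermat.Agent.LR.Sat
import Fermat.Agent.IharaL.Main

/-!
# Ihara's lemma for the lattices of symbols
-/

set_option autoImplicit false
set_option linter.unusedSectionVars false
set_option linter.style.haveILetI false

noncomputable section

namespace Fermat.Agent.LR

open CongruenceSubgroup Matrix.SpecialLinearGroup Fermat.Agent.Ihara Fermat.Agent.AnJac
open Fermat.Agent.IharaL (KC exists_sym kc_homOf kc_E es_eq_zero)
open scoped MatrixGroups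

variable {P : Set ℕ} {N q : ℕ} [hq : Fact q.Prime]

/-! ### the two embeddings -/

/-- first degeneracy map -/
def e1 (N q : ℕ) [Fact q.Prime] : S N →+ S (N * q) := (iS N q).comp (AddMonoidHom.inl _ _)
/-- second degeneracy map -/
def e2 (N q : ℕ) [Fact q.Prime] : S N →+ S (N * q) := (iS N q).comp (AddMonoidHom.inr _ _)

lemma e1_coe (a : S N) : (e1 N q a).1 = a.1 := by
  change a.1 + tr (um q 0 1) 0 = a.1
  have : tr (um q 0 1) (0 : Cusp → Cusp → ℤ) = 0 := rfl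
  rw [this, add_zero]

lemma e2_coe (a : S N) : (e2 N q a).1 = tr (um q 0 1) a.1 := by
  change (0 : Cusp → Cusp → ℤ) + tr (um q 0 1) a.1 = _
  rw [zero_add]

lemma e12 (a b : S N) : e1 N q a + e2 N q b = iS N q (a, b) := by
  change iS N q (a, 0) + iS N q (0, b) = _
  rw [← map_add]
  simp

lemma e1_rS (hPN : PM P N) (hP : PM P (N * q)) (t : TT P) (a : S N) :
    rS hP t (e1 N q a) = e1 N q (rS hPN t a) := by
  have := iS_rS hPN hP t (a, 0)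
  rw [map_zero] at this
  exact this.symm

lemma e2_rS (hPN : PM P N) (hP : PM P (N * q)) (t : TT P) (a : S N) :
    rS hP t (e2 N q a) = e2 N q (rS hPN t a) := by
  have := iS_rS hPN hP t (0, a)
  rw [map_zero] at this
  exact this.symm

/-! ### Eisenstein operators -/

/-- `T_ℓ - ℓ - 1` -/
def eT (ℓ : P) : TT P := FreeAlgebra.ι ℤ ℓ - ((ℓ : ℕ) + 1 : ℕ)
/-- `T_ℓ² - (ℓ + 1)²` -/
def fT (ℓ : P) : TT P := FreeAlgebra.ι ℤ ℓ * FreeAlgebra.ι ℤ ℓ - (((ℓ : ℕ) + 1) ^ 2 : ℕ)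

lemma rS_eT {M : ℕ} (hM : PM P M) (ℓ : P) (φ : S M) : (rS hM (eT ℓ) φ).1 = ES ℓ φ.1 := by
  rw [eT, map_sub, map_natCast, LinearMap.sub_apply, rS, FreeAlgebra.lift_ι_apply, ES]
  change (oS hM ℓ φ).1 - (((ℓ : ℕ) + 1 : ℕ) • φ : S M).1 = _
  rw [coe_oS]
  rfl

lemma rX_eT {M : ℕ} (hM : PM P M) (ℓ : P) [Fact (ℓ : ℕ).Prime] (h : ¬ (ℓ : ℕ) ∣ M) (x : X M) :
    rX hM (eT ℓ) x = (hfT M ℓ h).T x - ((ℓ : ℕ) + 1) • x := by
  rw [eT, map_sub, map_natCast, LinearMap.sub_apply, rX, FreeAlgebra.lift_ι_apply,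
    oX_apply hM ℓ h]
  rfl

lemma rS_fT {M : ℕ} (hM : PM P M) (ℓ : P) (φ : S M) : (rS hM (fT ℓ) φ).1 = FS ℓ φ.1 := by
  rw [fT, map_sub, map_mul, map_natCast, LinearMap.sub_apply, rS, FreeAlgebra.lift_ι_apply, FS,
    Module.End.mul_apply]
  change (oS hM ℓ (oS hM ℓ φ)).1 - ((((ℓ : ℕ) + 1) ^ 2 : ℕ) • φ : S M).1 = _
  rw [coe_oS, coe_oS]
  rfl

/-! ### change of coefficients -/

section chg

variable {k k' : Type*} [AddCommGroup k] [AddCommGroup k'] (π : k →+ k')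

/-- composition -/
def cmp (φ : Cusp → Cusp → k) : Cusp → Cusp → k' := fun α β => π (φ α β)

lemma cmp_TS (ℓ : ℕ) (φ : Cusp → Cusp → k) : TS ℓ (cmp π φ) = cmp π (TS ℓ φ) := by
  funext α β
  simp only [TS, cmp, Pi.add_apply, Finset.sum_apply, tr, map_add, map_sum]

lemma cmp_nsmul (n : ℕ) (φ : Cusp → Cusp → k) : cmp π (n • φ) = n • cmp π φ := by
  funext α β
  exact map_nsmul π n _

lemma cmp_sub (φ ψ : Cusp → Cusp → k) : cmp π (φ - ψ) = cmp π φ - cmp π ψ := by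
  funext α β
  exact map_sub π _ _

lemma cmp_ES (ℓ : ℕ) (φ : Cusp → Cusp → k) : ES ℓ (cmp π φ) = cmp π (ES ℓ φ) := by
  rw [ES, ES, cmp_TS, cmp_sub, cmp_nsmul]

lemma cmp_FS (ℓ : ℕ) (φ : Cusp → Cusp → k) : FS ℓ (cmp π φ) = cmp π (FS ℓ φ) := by
  rw [FS, FS, cmp_TS, cmp_TS, cmp_sub, cmp_nsmul]

lemma inSym_cmp {M : ℕ} {φ : Cusp → Cusp → k} (h : InSym M φ) : InSym M (cmp π φ) := by
  refine ⟨fun α β γ => ?_, fun γ hγ => ?_⟩
  · simp only [cmp]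
    rw [← map_add, h.ms]
  · funext α β
    exact congrArg π (congrFun (congrFun (h.inv γ hγ) α) β)

end chg

/-! ### Ihara -/

section Ih

variable {κ : Type*} [Field κ] (θ : TT P →+* κ)

/-- non-Eisenstein conditions -/
structure NE (P : Set ℕ) (θ : TT P →+* κ) : Prop where
  one : ∀ M' : ℕ, M' ≠ 0 → ∃ ℓ : P, (ℓ : ℕ) ≡ 1 [MOD M'] ∧ θ (eT ℓ) ≠ 0
  two : ∃ ℓ : P, θ (fT ℓ) ≠ 0

variable {θ} (hN : N ≠ 0) (hqN : ¬ q ∣ N) (hPN : PM P N) (hP : PM P (N * q)) (hNE : NE P θ)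

include hN hqN hPN hP hNE in
/-- Ihara's lemma modulo `n` -/
theorem ihara_mod (n : ℤ) (p : S N × S N) (χ : S (N * q)) (h : iS N q p = n • χ) :
    ∃ u : TT P, θ u ≠ 0 ∧ (∀ α β, n ∣ (rS hPN u p.1).1 α β) ∧
      (∀ α β, n ∣ (rS hPN u p.2).1 α β) := by
  obtain ⟨ℓ₂, h₂⟩ := hNE.two
  -- reduction modulo `n`
  let π : ℤ →+ ℤ ⧸ AddSubgroup.zmultiples n := QuotientAddGroup.mk' _
  have hπ : ∀ x : ℤ, π x = 0 ↔ n ∣ x := fun x => by
    rw [QuotientAddGroup.mk'_apply, QuotientAddGroup.eq_zero_iff, Int.mem_zmultiples_iff]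
  have h1 : cmp π p.1.1 = -tr (um q 0 1) (cmp π p.2.1) := by
    funext α β
    have h2 := congrFun (congrFun (congrArg Subtype.val h) α) β
    rw [coe_iS] at h2
    change p.1.1 α β + p.2.1 _ _ = n * χ.1 α β at h2
    have h3 : π (p.1.1 α β + p.2.1 (um q 0 1 • α) (um q 0 1 • β)) = 0 := by
      rw [hπ]; exact ⟨_, h2⟩
    rw [map_add] at h3
    exact eq_neg_of_add_eq_zero_left h3
  obtain ⟨M', hM', hI⟩ := IharaL.iharaStatement N q hN hq.out hqN _ (cmp π p.1.1) (cmp π p.2.1)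
    (inSym_cmp π p.1.2) (inSym_cmp π p.2.2) h1 ℓ₂ (hPN ℓ₂ ℓ₂.2).1 (hPN ℓ₂ ℓ₂.2).2
  obtain ⟨ℓ₁, hℓ₁, h₁⟩ := hNE.one M' hM'
  have hI1 := hI ℓ₁ (hPN ℓ₁ ℓ₁.2).1 hℓ₁
  set u : TT P := eT ℓ₁ * (eT ℓ₁ * fT ℓ₂) with hu
  have hval : ∀ φ : S N, (rS hPN u φ).1 = ES ℓ₁ (ES ℓ₁ (FS ℓ₂ φ.1)) := by
    intro φ
    rw [hu, map_mul, map_mul, Module.End.mul_apply, Module.End.mul_apply, rS_eT, rS_eT, rS_fT]
  have hd1 : ∀ α β, n ∣ (rS hPN u p.1).1 α β := by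
    intro α β
    rw [hval, ← hπ]
    have h4 : cmp π (ES ℓ₁ (ES ℓ₁ (FS ℓ₂ p.1.1))) = 0 := by
      rw [← cmp_ES, ← cmp_ES, ← cmp_FS]; exact hI1
    exact congrFun (congrFun h4 α) β
  refine ⟨u, ?_, hd1, ?_⟩
  · rw [hu, map_mul, map_mul]
    exact mul_ne_zero h₁ (mul_ne_zero h₁ h₂)
  · intro α β
    have h5 := iS_rS hPN hP u p
    rw [h, map_smul] at h5
    have h6 := congrFun (congrFun (congrArg Subtype.val h5) ((um q 0 1)⁻¹ • α)) ((um q 0 1)⁻¹ • β)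
    rw [coe_iS] at h6
    change (rS hPN u p.1).1 _ _ + (rS hPN u p.2).1 (um q 0 1 • (um q 0 1)⁻¹ • α)
      (um q 0 1 • (um q 0 1)⁻¹ • β) = n * (rS hP u χ).1 _ _ at h6
    rw [smul_inv_smul, smul_inv_smul] at h6
    rw [← eq_sub_iff_add_eq'] at h6
    rw [h6]
    exact dvd_sub (dvd_mul_right _ _) (hd1 _ _)

/-- uniformity -/
theorem unif {V : Type*} [AddCommGroup V] (r : TT P →ₐ[ℤ] Module.End ℤ V)
    (K I : Submodule ℤ V) (hK : K.FG) (hKs : ∀ t, ∀ v ∈ K, r t v ∈ K) (hI : ∀ t, ∀ v ∈ I, r t v ∈ I)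
    (h : ∀ v ∈ K, ∃ t : TT P, θ t ≠ 0 ∧ r t v ∈ I) : ∃ t : TT P, θ t ≠ 0 ∧ ∀ v ∈ K, r t v ∈ I := by
  classical
  obtain ⟨s, hs⟩ := hK
  have key : ∀ s' : Finset V, (∀ v ∈ s', v ∈ K) → ∃ t : TT P, θ t ≠ 0 ∧ ∀ v ∈ s', r t v ∈ I := by
    intro s'
    induction s' using Finset.induction_on with
    | empty => exact fun _ => ⟨1, by rw [map_one]; exact one_ne_zero, fun v hv => by simp at hv⟩
    | insert a s' _ ih =>
      intro hs'
      obtain ⟨t, ht, ht'⟩ := ih fun v hv => hs' v (Finset.mem_insert_of_mem hv)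
      obtain ⟨t', ht1, ht2⟩ := h (r t a) (hKs t a (hs' a (Finset.mem_insert_self _ _)))
      refine ⟨t' * t, by rw [map_mul]; exact mul_ne_zero ht1 ht, fun v hv => ?_⟩
      rw [map_mul, Module.End.mul_apply]
      rcases Finset.mem_insert.mp hv with rfl | hv
      · exact ht2
      · exact hI t' _ (ht' v hv)
  obtain ⟨t, ht, ht'⟩ := key s fun v hv => hs ▸ Submodule.subset_span hv
  refine ⟨t, ht, fun v hv => ?_⟩
  have : K ≤ I.comap (r t) := by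
    rw [← hs, Submodule.span_le]
    exact fun v hv => ht' v hv
  exact this hv

include hNE in
lemma exists_eis {M : ℕ} (hM0 : M ≠ 0) (hM : PM P M) : ∃ ℓ : P, θ (eT ℓ) ≠ 0 ∧
    (∀ φ : S M, hO M φ = 0 → rS hM (eT ℓ) φ = 0) ∧
    (∀ x : X M, KC (rX hM (eT ℓ) x)) := by
  obtain ⟨ℓ, h1, h2⟩ := hNE.one M hM0
  haveI : Fact (ℓ : ℕ).Prime := ⟨(hM ℓ ℓ.2).1⟩
  refine ⟨ℓ, h2, fun φ hφ => ?_, fun x => ?_⟩
  · apply Subtype.ext
    rw [rS_eT]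
    exact es_eq_zero φ.2 hφ (hM ℓ ℓ.2).1 h1
  · rw [rX_eT hM ℓ (hM ℓ ℓ.2).2]
    exact kc_E (hM ℓ ℓ.2).2 hM0 h1 x

lemma rS_I (hPN : PM P N) (hP : PM P (N * q)) (t : TT P) (v : S (N * q))
    (hv : v ∈ (iS N q).range) : rS hP t v ∈ (iS N q).range := by
  obtain ⟨p, rfl⟩ := hv
  exact ⟨_, iS_rS hPN hP t p⟩

include hN hqN hPN hP hNE in
/-- **(2), pointwise** -/
theorem two_pt {t : TT P} (ht : θ t ≠ 0)
    (h1 : ∀ x : X (N * q), KC x → ∃ n : ℤ, n ≠ 0 ∧ ∃ a b : X N, KC a ∧ KC b ∧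
      n • rX hP t x = i1 N q a + i2 N q b) (φ : S (N * q)) :
    ∃ u : TT P, θ u ≠ 0 ∧ rS hP u φ ∈ (iS N q).range := by
  obtain ⟨n, hn, a, b, ha, hb, hab⟩ := h1 (hO (N * q) φ) (kc_homOf φ.2)
  obtain ⟨fa, hfa, rfl⟩ := exists_sym ha
  obtain ⟨fb, hfb, rfl⟩ := exists_sym hb
  set p : S N × S N := (⟨fa, hfa⟩, ⟨fb, hfb⟩) with hp
  have h2 : hO (N * q) (n • rS hP t φ - iS N q p) = 0 := by
    rw [map_sub, map_zsmul, hO_rS, hO_iS, sub_eq_zero]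
    exact hab
  obtain ⟨ℓ, hℓ, hk, -⟩ := exists_eis (θ := θ) hNE (mul_ne_zero hN hq.out.ne_zero) hP
  have h3 := hk _ h2
  rw [map_sub, sub_eq_zero, map_smul, ← iS_rS hPN hP] at h3
  set p' : S N × S N := (rS hPN (eT ℓ) p.1, rS hPN (eT ℓ) p.2) with hp'
  obtain ⟨u, hu, hu1, hu2⟩ := ihara_mod hN hqN hPN hP hNE n p' _ h3.symm
  obtain ⟨c1, hc1⟩ := div_of_dvd hn _ hu1
  obtain ⟨c2, hc2⟩ := div_of_dvd hn _ hu2
  refine ⟨u * (eT ℓ * t), ?_, (c1, c2), ?_⟩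
  · rw [map_mul, map_mul]
    exact mul_ne_zero hu (mul_ne_zero hℓ ht)
  · rw [map_mul, map_mul, Module.End.mul_apply, Module.End.mul_apply]
    have h4 : n • (iS N q (c1, c2) - rS hP u (rS hP (eT ℓ) (rS hP t φ))) = 0 := by
      rw [smul_sub, sub_eq_zero, ← map_smul (rS hP u), h3, ← iS_rS hPN hP u p', hc1, hc2,
        ← map_zsmul]
      rfl
    apply Subtype.ext
    have h5 := congrArg Subtype.val h4
    funext α β
    have h6 := congrFun (congrFun h5 α) β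
    change n * ((iS N q (c1, c2)).1 α β - (rS hP u (rS hP (eT ℓ) (rS hP t φ))).1 α β) = 0 at h6
    exact sub_eq_zero.mp ((mul_eq_zero.mp h6).resolve_left hn)

include hN hqN hPN hP hNE in
/-- **(2)** -/
theorem two {t : TT P} (ht : θ t ≠ 0)
    (h1 : ∀ x : X (N * q), KC x → ∃ n : ℤ, n ≠ 0 ∧ ∃ a b : X N, KC a ∧ KC b ∧
      n • rX hP t x = i1 N q a + i2 N q b) :
    ∃ u : TT P, θ u ≠ 0 ∧ ∀ φ : S (N * q), ∃ a1 a2 : S N,
      rS hP u φ = e1 N q a1 + e2 N q a2 := by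
  haveI : NeZero (N * q) := ⟨mul_ne_zero hN hq.out.ne_zero⟩
  obtain ⟨u, hu, h2⟩ := unif (θ := θ) (rS hP) (⊤ : Submodule ℤ (S (N * q)))
    ((iS N q).range.toIntSubmodule) Module.Finite.fg_top (fun _ _ _ => trivial)
    (fun t v hv => rS_I hPN hP t v hv) (fun v _ => two_pt hN hqN hPN hP hNE ht h1 v)
  refine ⟨u, hu, fun φ => ?_⟩
  obtain ⟨p, hp⟩ := h2 φ trivial
  exact ⟨p.1, p.2, by rw [e12]; exact hp.symm⟩

lemma rSS_fst (hPN : PM P N) (t : TT P) (p : S N × S N) :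
    (FreeAlgebra.lift ℤ (oSS hPN) t p).1 = rS hPN t p.1 :=
  equi (AddMonoidHom.fst (S N) (S N)) (oSS hPN) (oS hPN) (fun _ _ => rfl) t p

lemma rSS_snd (hPN : PM P N) (t : TT P) (p : S N × S N) :
    (FreeAlgebra.lift ℤ (oSS hPN) t p).2 = rS hPN t p.2 :=
  equi (AddMonoidHom.snd (S N) (S N)) (oSS hPN) (oS hPN) (fun _ _ => rfl) t p

include hN hqN hPN hP hNE in
/-- **the kernel** -/
theorem two_ker : ∃ u : TT P, θ u ≠ 0 ∧ ∀ a1 a2 : S N, e1 N q a1 + e2 N q a2 = 0 →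
    rS hPN u a1 = 0 ∧ rS hPN u a2 = 0 := by
  haveI : NeZero N := ⟨hN⟩
  have hst : ∀ (t : TT P) (v : S N × S N), v ∈ (iS N q).ker.toIntSubmodule →
      FreeAlgebra.lift ℤ (oSS hPN) t v ∈ (iS N q).ker.toIntSubmodule := by
    intro t v hv
    change iS N q _ = 0
    have h1 := iS_rS hPN hP t v
    have hv' : iS N q v = 0 := hv
    rw [hv', map_zero] at h1
    rw [← h1]
    congr 1
    exact Prod.ext (rSS_fst hPN t v) (rSS_snd hPN t v)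
  obtain ⟨u, hu, h2⟩ := unif (θ := θ) (FreeAlgebra.lift ℤ (oSS hPN))
    ((iS N q).ker.toIntSubmodule) (⊥ : Submodule ℤ (S N × S N)) (IsNoetherian.noetherian _) hst
    (fun t v hv => by rw [Submodule.mem_bot] at hv ⊢; rw [hv, map_zero]) (fun v hv => by
      have hv' : iS N q v = (0 : ℤ) • 0 := by rw [zero_smul]; exact hv
      obtain ⟨u, hu, hu1, hu2⟩ := ihara_mod hN hqN hPN hP hNE 0 v _ hv'
      refine ⟨u, hu, ?_⟩
      rw [Submodule.mem_bot]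
      refine Prod.ext ?_ ?_
      · rw [rSS_fst]
        apply Subtype.ext
        funext α β
        exact zero_dvd_iff.mp (hu1 α β)
      · rw [rSS_snd]
        apply Subtype.ext
        funext α β
        exact zero_dvd_iff.mp (hu2 α β))
  refine ⟨u, hu, fun a1 a2 h => ?_⟩
  rw [e12] at h
  have h3 := h2 (a1, a2) h
  rw [Submodule.mem_bot] at h3
  exact ⟨by rw [← rSS_fst hPN u (a1, a2), h3]; rfl, by rw [← rSS_snd hPN u (a1, a2), h3]; rfl⟩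

include hN hP hNE in
/-- **(F3)** -/
theorem three : ∃ u : TT P, θ u ≠ 0 ∧ ∀ x : X (N * q), ∃ φ : S (N * q),
    rX hP u x = hO (N * q) φ := by
  obtain ⟨ℓ, hℓ, -, hk⟩ := exists_eis (θ := θ) hNE (mul_ne_zero hN hq.out.ne_zero) hP
  refine ⟨eT ℓ, hℓ, fun x => ?_⟩
  obtain ⟨φ, h, e⟩ := exists_sym (hk x)
  exact ⟨⟨φ, h⟩, e.symm⟩

end Ih

end Fermat.Agent.LR
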