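import Fermat.Agent.LR.Alg3
import Fermat.Agent.LR.NF
import Fermat.Agent.LR.Two
import Fermat.Agent.LR.F11
import Fermat.Statements.S41

/-!
# Level raising: final assembly
-/

set_option autoImplicit false

noncomputable section

namespace Fermat.Agent.LR

open CongruenceSubgroup Matrix.SpecialLinearGroup Fermat.Agent.Ihara Fermat.Agent.AnJac
open Fermat.Agent.Newform
open Fermat.Agent.IharaL (KC)
open ModularFormClass (qCoeff)
open scoped MatrixGroups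

/-- Claim 3 -/
def Claim3St : Prop := ∀ (N q D : ℕ) [NeZero N] [Fact q.Prime] (hP : PM (PD D) (N * q))
  (t : TT (PD D)), (∀ f : S2 (N * q), rF (N * q) D t f ∈ Old N q) → ∀ x : X (N * q), KC x →
  ∃ n : ℤ, n ≠ 0 ∧ ∃ a b : X N, KC a ∧ KC b ∧ n • rX hP t x = i1 N q a + i2 N q b

/-- F9 -/
def F9St : Prop := ∀ (N : ℕ) [NeZero N] (P' : Set ℕ) (hP' : PM P' N) (f : S2 N),
  f.IsNormalizedEigenform → ∀ a : TT P', rX hP' a = 0 →
  FreeAlgebra.lift ℤ (fun ℓ : P' => qCoeff f ℓ) a = 0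

open FreeAlgebra in
theorem s41_of (h3 : Claim3St) (h9 : F9St)
    (E : WeierstrassCurve ℚ) [E.IsElliptic] {W : WeierstrassCurve ℤ} (hW : W.IsIntegralModelOf E)
    {p N q' : ℕ} (hp : p.Prime) (hp2 : p ≠ 2) (hN : 0 < N) (hq' : q'.Prime) (hq'N : ¬ q' ∣ N)
    (hirr : WeierstrassCurve.Affine.Point.GaloisRepIsIrreducible (K := AlgebraicClosure ℚ) ℚ E p)
    (f : CuspForm (CongruenceSubgroup.Gamma0 N) 2) (𝔪 : Ideal (integralClosure ℤ ℂ))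
    (hf : f.IsNormalizedEigenform) (hmax : 𝔪.IsMaximal) (hpm : (p : integralClosure ℤ ℂ) ∈ 𝔪)
    (hcong : ∀ ℓ : ℕ, ℓ.Prime → W.IsGoodPrimeFor ℓ → ¬ ℓ ∣ N → ℓ ≠ p →
      ∃ a : integralClosure ℤ ℂ, (a : ℂ) = ModularFormClass.qCoeff f ℓ ∧
        a - ((W.apOfModel ℓ : ℤ) : integralClosure ℤ ℂ) ∈ 𝔪)
    (hLR : ∃ a : integralClosure ℤ ℂ, (a : ℂ) = ModularFormClass.qCoeff f q' ∧
      a ^ 2 - ((q' : integralClosure ℤ ℂ) + 1) ^ 2 ∈ 𝔪) :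
    ∃ (g : CuspForm (CongruenceSubgroup.Gamma0 (N * q')) 2) (𝔪' : Ideal (integralClosure ℤ ℂ)),
      g.IsNormalizedEigenform ∧ 𝔪'.IsMaximal ∧ (p : integralClosure ℤ ℂ) ∈ 𝔪' ∧
      (∀ ℓ : ℕ, ℓ.Prime → W.IsGoodPrimeFor ℓ → ¬ ℓ ∣ N * q' → ℓ ≠ p →
        ∃ a : integralClosure ℤ ℂ, (a : ℂ) = ModularFormClass.qCoeff g ℓ ∧
          a - ((W.apOfModel ℓ : ℤ) : integralClosure ℤ ℂ) ∈ 𝔪') ∧
      g.IsNewAt q' := by
  classical
  have : NeZero N := ⟨hN.ne'⟩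
  have : Fact q'.Prime := ⟨hq'⟩
  have : Fact p.Prime := ⟨hp⟩
  have hΔ : W.Δ ≠ 0 := by
    obtain ⟨C, hC⟩ := hW
    intro h
    have h1 : (W.map (Int.castRingHom ℚ)).Δ ≠ 0 := by
      rw [← hC, WeierstrassCurve.variableChange_Δ]
      exact mul_ne_zero (pow_ne_zero _ (Units.ne_zero _)) E.isUnit_Δ.ne_zero
    apply h1
    rw [WeierstrassCurve.map_Δ, h, map_zero]
  set D := N * q' * (p * W.Δ.natAbs) with hD
  have hD0 : D ≠ 0 := mul_ne_zero (mul_ne_zero hN.ne' hq'.ne_zero)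
    (mul_ne_zero hp.ne_zero (Int.natAbs_ne_zero.mpr hΔ))
  have hND : N * q' ∣ D := dvd_mul_right _ _
  have hPD : ∀ ℓ ∈ PD D, ℓ.Prime ∧ ¬ ℓ ∣ N * q' ∧ ℓ ≠ p ∧ W.IsGoodPrimeFor ℓ := by
    rintro ℓ ⟨h1, h2⟩
    refine ⟨h1, fun h => h2 (h.trans hND), fun h => h2 ?_, fun h => h2 ?_⟩
    · rw [h, hD]
      exact dvd_mul_of_dvd_right (dvd_mul_right _ _) _
    · rw [hD]
      exact dvd_mul_of_dvd_right (dvd_mul_of_dvd_right (Int.natCast_dvd.mp h) _) _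
  have hPD' : ∀ ℓ : ℕ, ℓ.Prime → W.IsGoodPrimeFor ℓ → ¬ ℓ ∣ N * q' → ℓ ≠ p → ℓ ∈ PD D := by
    intro ℓ h1 h2 h3 h4
    refine ⟨h1, fun h => ?_⟩
    rw [hD] at h
    rcases (Nat.Prime.dvd_mul h1).mp h with h5 | h5
    · exact h3 h5
    rcases (Nat.Prime.dvd_mul h1).mp h5 with h6 | h6
    · exact h4 ((Nat.prime_dvd_prime_iff_eq h1 hp).mp h6)
    · exact h2 (Int.natCast_dvd.mpr h6)
  have hP : PM (PD D) (N * q') := fun ℓ hℓ => ⟨(hPD ℓ hℓ).1, (hPD ℓ hℓ).2.1⟩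
  have hPN : PM (PD D) N := hP.of_dvd (dvd_mul_right _ _)
  by_contra hcon
  -- the residual system
  let θp : TT (PD D) →+* ZMod p := (chh (D := D) (fun ℓ : PD D => ((W.apOfModel ℓ : ℤ) : ZMod p)) :
    _ →ₐ[ℤ] _)
  have hθp : ∀ ℓ : PD D, θp (FreeAlgebra.ι ℤ ℓ) = ((W.apOfModel ℓ : ℤ) : ZMod p) := fun ℓ =>
    FreeAlgebra.lift_ι_apply _ _
  have hno : ∀ g : S2 (N * q'), g.IsNormalizedEigenform → qCoeff g q' ^ 2 = 1 →
      ∃ t : TT (PD D), chh (D := D) (fun ℓ : PD D => qCoeff g ℓ) t = 0 ∧ θp t ≠ 0 := by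
    intro g hg hgq
    by_contra hc
    push Not at hc
    apply hcon
    obtain ⟨𝔪', h1, h2, h3⟩ := exists_ideal hg (p := p) (fun ℓ : PD D => W.apOfModel ℓ) hc
    exact ⟨g, 𝔪', hg, h1, h2, fun ℓ k1 k2 k3 k4 => h3 ⟨ℓ, hPD' ℓ k1 k2 k3 k4⟩, hgq⟩
  obtain ⟨t0, ht0, hold⟩ := claim2 hq'N hD0 hND θp hno
  have hc3 := h3 N q' D hP t0 hold
  -- the residue field
  let κ := integralClosure ℤ ℂ ⧸ 𝔪
  let _ : Field κ := Ideal.Quotient.field 𝔪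
  have hpκ : (p : κ) = 0 := by
    have h := Ideal.Quotient.eq_zero_iff_mem.mpr hpm
    rwa [map_natCast] at h
  have hch : CharP κ p := by
    have h1 := CharP.exists κ
    obtain ⟨c, hc⟩ := h1
    have h2 : c ∣ p := (CharP.cast_eq_zero_iff κ c p).mp hpκ
    rcases (Nat.dvd_prime hp).mp h2 with h3 | h3
    · exfalso
      rw [h3] at hc
      have : ((1 : ℕ) : κ) = 0 := (CharP.cast_eq_zero_iff κ 1 1).mpr dvd_rfl
      rw [Nat.cast_one] at this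
      exact one_ne_zero this
    · rwa [h3] at hc
  let ιp : ZMod p →+* κ := ZMod.castHom dvd_rfl κ
  let θ : TT (PD D) →+* κ := ιp.comp θp
  have hθ0 : ∀ t, θp t ≠ 0 → θ t ≠ 0 := by
    intro t ht h
    apply ht
    exact (map_eq_zero_iff ιp ιp.injective).mp h
  have hθι : ∀ ℓ : PD D, θ (FreeAlgebra.ι ℤ ℓ) = ((W.apOfModel ℓ : ℤ) : κ) := by
    intro ℓ
    change ιp (θp _) = _
    rw [hθp, map_intCast]
  have hNE : NE (PD D) θ := by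
    refine ⟨fun M' hM' => ?_, ?_⟩
    · obtain ⟨ℓ, l1, -, l2, -, l3, l4⟩ := exists_aux_one hp2 E hW hirr hD0 hM'
      refine ⟨⟨ℓ, l1, l2⟩, l3, ?_⟩
      rw [eT, map_sub, hθι, map_natCast, sub_ne_zero]
      intro h
      apply l4
      apply ιp.injective
      rw [map_intCast, map_add, map_natCast, map_one, h]
      push_cast
      ring
    · obtain ⟨ℓ, l1, -, l2, -, l4⟩ := exists_aux_two hp2 E hW hirr hD0
      refine ⟨⟨ℓ, l1, l2⟩, ?_⟩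
      rw [fT, map_sub, map_mul, hθι, map_natCast, sub_ne_zero]
      intro h
      apply l4
      apply ιp.injective
      rw [map_pow, map_intCast, map_pow, map_add, map_natCast, map_one, sq, h]
      push_cast
      ring
  have hN0 : N ≠ 0 := hN.ne'
  obtain ⟨t, htθ, k1⟩ := two hN0 hq'N hPN hP hNE (hθ0 t0 ht0) hc3
  obtain ⟨u, huθ, k2⟩ := two_ker hN0 hq'N hPN hP hNE
  obtain ⟨E', hEθ, k3⟩ := three hN0 hP hNE
  -- the matrix step
  have hmat := matrix_step hq'N hP hPN (e1 N q') (e2 N q')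
    e1_coe e2_coe (e1_rS hPN hP) (e2_rS hPN hP)
    k1 k2 (exists_ev (N * q')) (hO N) (hO (N * q')) (hO_rS hP)
    (fun a => by
      rw [e1, AddMonoidHom.comp_apply, AddMonoidHom.inl_apply, hO_iS, map_zero, map_zero, add_zero])
    (fun a => by
      rw [e2, AddMonoidHom.comp_apply, AddMonoidHom.inr_apply, hO_iS, map_zero, map_zero, zero_add])
    k3
  -- the system of `f`
  have hPq : PM (insert q' (PD D)) N := by
    intro ℓ hℓ
    rcases Set.mem_insert_iff.mp hℓ with rfl | h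
    · exact ⟨hq', hq'N⟩
    · exact hPN ℓ h
  let b : ↥(insert q' (PD D)) → integralClosure ℤ ℂ := fun ℓ => ⟨qCoeff f ℓ, isIntegral_qCoeff hf ℓ⟩
  let ψ : TT (insert q' (PD D)) →ₐ[ℤ] integralClosure ℤ ℂ := FreeAlgebra.lift ℤ b
  have hψ : ∀ a, ((ψ a : integralClosure ℤ ℂ) : ℂ) =
      FreeAlgebra.lift ℤ (fun ℓ : ↥(insert q' (PD D)) => qCoeff f ℓ) a := by
    intro a
    have : (integralClosure ℤ ℂ).val.comp ψ =
        FreeAlgebra.lift ℤ (fun ℓ : ↥(insert q' (PD D)) => qCoeff f ℓ) := by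
      apply FreeAlgebra.hom_ext
      funext ℓ
      change (integralClosure ℤ ℂ).val (FreeAlgebra.lift ℤ b (FreeAlgebra.ι ℤ ℓ)) =
        FreeAlgebra.lift ℤ (fun ℓ : ↥(insert q' (PD D)) => qCoeff f ℓ) (FreeAlgebra.ι ℤ ℓ)
      rw [FreeAlgebra.lift_ι_apply, FreeAlgebra.lift_ι_apply]
      rfl
    exact DFunLike.congr_fun this a
  let θ' : TT (insert q' (PD D)) →+* κ := (Ideal.Quotient.mk 𝔪).comp (ψ : _ →+* _)
  have hθ'ι : ∀ ℓ, θ' (FreeAlgebra.ι ℤ ℓ) = Ideal.Quotient.mk 𝔪 (b ℓ) := by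
    intro ℓ
    change Ideal.Quotient.mk 𝔪 (FreeAlgebra.lift ℤ b (FreeAlgebra.ι ℤ ℓ)) = _
    rw [FreeAlgebra.lift_ι_apply]
  have hθθ' : ∀ ℓ : PD D, θ' (FreeAlgebra.ι ℤ ⟨ℓ, Set.mem_insert_of_mem _ ℓ.2⟩) =
      θ (FreeAlgebra.ι ℤ ℓ) := by
    intro ℓ
    rw [hθ'ι, hθι]
    obtain ⟨l1, l2, l3, l4⟩ := hPD ℓ ℓ.2
    obtain ⟨a, ha, ham⟩ := hcong ℓ l1 l4 (fun h => l2 (h.mul_right _)) l3
    have hab : b ⟨ℓ, Set.mem_insert_of_mem _ ℓ.2⟩ = a := Subtype.ext ha.symm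
    rw [hab, ← sub_eq_zero, ← map_intCast (Ideal.Quotient.mk 𝔪), ← map_sub]
    exact Ideal.Quotient.eq_zero_iff_mem.mpr ham
  obtain ⟨ε, hε, hεq⟩ : ∃ ε : ℤ, ε * ε = 1 ∧
      θ' (FreeAlgebra.ι ℤ ⟨q', Set.mem_insert _ _⟩) = ε * (q' + 1) := by
    obtain ⟨a, ha, ham⟩ := hLR
    have hab : b ⟨q', Set.mem_insert _ _⟩ = a := Subtype.ext ha.symm
    rw [hθ'ι, hab]
    have h1 := Ideal.Quotient.eq_zero_iff_mem.mpr ham
    rw [map_sub, map_pow, map_pow, map_add, map_natCast, map_one, sub_eq_zero, sq_eq_sq_iff_eq_or_eq_neg] at h1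
    rcases h1 with h1 | h1
    · exact ⟨1, by norm_num, by rw [h1]; push_cast; ring⟩
    · exact ⟨-1, by norm_num, by rw [h1]; push_cast; ring⟩
  have hfin := no_raise hq'N hPN hPq θ θ' hθθ' ε hε hεq (fun a ha => by
    have h1 := h9 N (insert q' (PD D)) hPq f hf a ha
    rw [← hψ] at h1
    have h2 : ψ a = 0 := Subtype.ext h1
    change Ideal.Quotient.mk 𝔪 (ψ a) = 0
    rw [h2, map_zero]) hmat
  have h2κ : (2 : κ) ≠ 0 := by
    intro h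
    have h4 : ((2 : ℕ) : κ) = 0 := by exact_mod_cast h
    have h5 := (CharP.cast_eq_zero_iff κ p 2).mp h4
    exact hp2 ((Nat.prime_dvd_prime_iff_eq hp Nat.prime_two).mp h5)
  rw [map_mul, map_mul, map_mul, star_hom, map_mul, map_ofNat] at hfin
  exact (mul_ne_zero (mul_ne_zero (mul_ne_zero htθ hEθ) (mul_ne_zero huθ htθ)) h2κ) hfin

end Fermat.Agent.LR
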