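import Fermat.Agent.LR.Per2
import Fermat.Agent.LR.Final

/-!
# Claim 3 and F9 in the final form
-/

set_option autoImplicit false

noncomputable section

namespace Fermat.Agent.LR

open CongruenceSubgroup Fermat.Agent.Newform
open Fermat.Agent.IharaL (KC)

theorem claim3St : Claim3St := by
  intro N q D hN hq hP t ht x hx
  haveI : NeZero (N * q) := ⟨mul_ne_zero (NeZero.ne N) hq.out.ne_zero⟩
  exact Pr.claim3 hP (by rw [mul_one]; exact dvd_mul_right _ _) dvd_rfl (fun f => ht f) hx

theorem f9St : F9St := by
  intro N hN P' hP' f hf a ha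
  exact Pr.chiF_eq_zero hP' hf ha

end Fermat.Agent.LR
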