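import Fermat.Agent.LR.Irr
import Fermat.Agent.S43Glue.Curve
import Fermat.Prelude.Def_GaloisRep_ComplexConjugation

/-!
# Choice of auxiliary primes
-/

set_option autoImplicit false
set_option maxHeartbeats 400000

noncomputable section

namespace Fermat.Agent.LR

open Matrix Fermat.Agent.S43Glue Fermat.Agent.GalRep

local notation "Qbar" => AlgebraicClosure ℚ
local notation "GQ" => Qbar ≃ₐ[ℚ] Qbar

variable {p : ℕ} [hp : Fact p.Prime] {ρ : GQ →* Matrix (Fin 2) (Fin 2) (ZMod p)}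

lemma chi_conj : chiK p (ZMod p) (complexConjugation : GQ) = -1 := by
  obtain ⟨ζ, hζ⟩ := HasEnoughRootsOfUnity.exists_primitiveRoot Qbar p
  have hc := complexEmbedding_complexConjugation
  have h1 : (complexConjugation : GQ) ζ = ζ ^ (p - 1) := by
    apply (complexEmbedding : Qbar →+* ℂ).injective
    change complexEmbedding _ = complexEmbedding _
    rw [hc, map_pow]
    have h2 : ‖complexEmbedding ζ‖ = 1 := by
      have : (complexEmbedding ζ) ^ p = 1 := by rw [← map_pow, hζ.pow_eq_one, map_one]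
      exact Complex.norm_eq_one_of_pow_eq_one this hp.out.ne_zero
    have h3 : (complexEmbedding ζ) ^ (p - 1) = (complexEmbedding ζ)⁻¹ := by
      symm
      apply inv_eq_of_mul_eq_one_left
      rw [← pow_succ, Nat.sub_add_cancel hp.out.one_lt.le, ← map_pow, hζ.pow_eq_one, map_one]
    rw [h3, Complex.inv_def, Complex.normSq_eq_norm_sq, h2]
    simp
  rw [chiK_spec p (ZMod p) _ hζ h1, Nat.cast_sub hp.out.one_lt.le, CharP.cast_eq_zero,
    Nat.cast_one, zero_sub]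

/-- all matrices commute if `ρ = ± 1` on the kernel of `χ` -/
lemma comm_of_pm (h : ∀ g, chiK p (ZMod p) g = 1 → ρ g = 1 ∨ ρ g = -1) (g g' : GQ) :
    ρ g * ρ g' = ρ g' * ρ g := by
  set u : GQ →* (ZMod p)ˣ := (chiK p (ZMod p)).toHomUnits with hu
  have hval : ∀ g, ((u g : (ZMod p)ˣ) : ZMod p) = chiK p (ZMod p) g := fun g => rfl
  obtain ⟨⟨x, hx⟩, hgen⟩ := IsCyclic.exists_generator (α := u.range)
  obtain ⟨g0, hg0⟩ := hx
  have key : ∀ g, ∃ k : ℤ, ρ g = ρ (g0 ^ k) ∨ ρ g = -ρ (g0 ^ k) := by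
    intro g
    obtain ⟨k, hk⟩ := hgen ⟨u g, g, rfl⟩
    have hk' : x ^ k = u g := congrArg Subtype.val hk
    refine ⟨k, ?_⟩
    have h1 : u (g0 ^ (-k) * g) = 1 := by
      rw [map_mul, map_zpow, hg0, _root_.zpow_neg, hk', inv_mul_cancel]
    have h2 : chiK p (ZMod p) (g0 ^ (-k) * g) = 1 := by rw [← hval, h1]; rfl
    have h3 : ρ g = ρ (g0 ^ k) * ρ (g0 ^ (-k) * g) := by
      rw [← map_mul]
      congr 1
      group
    rcases h _ h2 with h4 | h4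
    · left; rw [h3, h4, mul_one]
    · right; rw [h3, h4, mul_neg, mul_one]
  obtain ⟨k, hk⟩ := key g
  obtain ⟨k', hk'⟩ := key g'
  have hc : ρ (g0 ^ k) * ρ (g0 ^ k') = ρ (g0 ^ k') * ρ (g0 ^ k) := by
    rw [← map_mul, ← map_mul, ← _root_.zpow_add, ← _root_.zpow_add, add_comm]
  rcases hk with hk | hk <;> rcases hk' with hk' | hk' <;> rw [hk, hk'] <;>
    simp only [mul_neg, neg_mul, hc]

/-- fixing a root of unity -/
def fixZ (ζ : Qbar) : Subgroup GQ where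
  carrier := {σ | σ ζ = ζ}
  one_mem' := rfl
  mul_mem' := fun {a b} ha hb => by
    change (a * b) ζ = ζ
    rw [AlgEquiv.mul_apply, hb, ha]
  inv_mem' := fun {a} ha => by
    change a⁻¹ ζ = ζ
    conv_lhs => rw [← ha]
    exact AlgEquiv.symm_apply_apply a ζ

lemma fixZ_normal {ζ : Qbar} {m : ℕ} (hm : m ≠ 0) (hζ : IsPrimitiveRoot ζ m) :
    (fixZ ζ).Normal := by
  haveI : NeZero m := ⟨hm⟩
  constructor
  intro σ hσ g
  obtain ⟨i, hi, h1⟩ := hζ.eq_pow_of_pow_eq_one (ξ := g⁻¹ ζ) (by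
    rw [← map_pow, hζ.pow_eq_one, map_one])
  change (g * σ * g⁻¹) ζ = ζ
  rw [AlgEquiv.mul_apply, AlgEquiv.mul_apply, ← h1, map_pow, show σ ζ = ζ from hσ, h1]
  exact AlgEquiv.apply_symm_apply g ζ

lemma comm_fixZ {ζ : Qbar} {m : ℕ} (hm : m ≠ 0) (hζ : IsPrimitiveRoot ζ m) (g h : GQ) :
    (h * g)⁻¹ * (g * h) ∈ fixZ ζ := by
  haveI : NeZero m := ⟨hm⟩
  obtain ⟨i, hi, h1⟩ := hζ.eq_pow_of_pow_eq_one (ξ := g ζ) (by
    rw [← map_pow, hζ.pow_eq_one, map_one])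
  obtain ⟨j, hj, h2⟩ := hζ.eq_pow_of_pow_eq_one (ξ := h ζ) (by
    rw [← map_pow, hζ.pow_eq_one, map_one])
  change ((h * g)⁻¹ * (g * h)) ζ = ζ
  have h3 : (g * h) ζ = (h * g) ζ := by
    rw [AlgEquiv.mul_apply, AlgEquiv.mul_apply, ← h1, ← h2, map_pow, map_pow, ← h1, ← h2, ← pow_mul,
      ← pow_mul, mul_comm]
  rw [AlgEquiv.mul_apply, h3]
  exact AlgEquiv.symm_apply_apply (h * g) ζ

section main

variable (hlev : FinLevel ρ) (hirr : NoLine ρ) (hp2 : p ≠ 2)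
  (hdet : ∀ g, (ρ g).det = chiK p (ZMod p) g) (a : ℕ → ZMod p) {S : Set ℕ} (hS : S.Finite)
  (hfr : ∀ ℓ : ℕ, ℓ.Prime → ℓ ∉ S → ∀ A : ValuationSubring Qbar, A.LiesOverPrime ℓ →
      ∀ τ : GQ, A.IsFrobeniusAt τ ℓ → (ρ τ).trace = a ℓ ∧ (ρ τ).det = (ℓ : ZMod p))

include hp2 in
lemma two_ne' : (2 : ZMod p) ≠ 0 := by
  intro h
  have h1 : ((2 : ℕ) : ZMod p) = 0 := by exact_mod_cast h
  rw [ZMod.natCast_eq_zero_iff] at h1
  exact hp2 ((Nat.prime_dvd_prime_iff_eq hp.out Nat.prime_two).mp h1)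

include hlev hirr hp2 hdet hS hfr in
theorem exists_prime_one {M : ℕ} (hM : M ≠ 0) :
    ∃ ℓ : ℕ, ℓ.Prime ∧ ℓ ∉ S ∧ ℓ ≡ 1 [MOD M] ∧ a ℓ ≠ ℓ + 1 := by
  have h2 := two_ne' hp2
  have hM1 : M * p ≠ 0 := mul_ne_zero hM hp.out.ne_zero
  haveI : NeZero (M * p) := ⟨hM1⟩
  obtain ⟨ζ, hζ⟩ := HasEnoughRootsOfUnity.exists_primitiveRoot Qbar (M * p)
  haveI := fixZ_normal hM1 hζ
  have hζp : IsPrimitiveRoot (ζ ^ M) p := hζ.pow (Nat.pos_of_ne_zero hM1) rfl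
  have hchi : ∀ h ∈ fixZ ζ, chiK p (ZMod p) h = 1 := by
    intro h hh
    rw [chiK_spec p (ZMod p) h hζp (a := 1) (by rw [map_pow, show h ζ = ζ from hh, pow_one]),
      Nat.cast_one]
  obtain ⟨h, hh, htr⟩ : ∃ h ∈ fixZ ζ, (ρ h).trace ≠ 2 := by
    by_contra hcon
    push Not at hcon
    have h3 := pm_one_of_trace hirr h2 (fixZ ζ) (fun h hh => by rw [hdet, hchi h hh])
      (fun h hh => Or.inl (hcon h hh))
    have h4 : ∀ h ∈ fixZ ζ, ρ h = 1 := by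
      intro h hh
      rcases h3 h hh with h5 | h5
      · exact h5
      · exfalso
        have h6 := hcon h hh
        rw [h5, Matrix.trace_neg, Matrix.trace_one, Fintype.card_fin] at h6
        apply mul_ne_zero h2 h2
        push_cast at h6
        linear_combination -h6
    refine false_of_comm hirr h2 complexConjugation_mul_self (by rw [hdet, chi_conj]) fun g => ?_
    have h5 := h4 _ (comm_fixZ hM1 hζ g complexConjugation)
    have h6 : ρ (g * complexConjugation) = ρ (complexConjugation * g) *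
        ρ ((complexConjugation * g)⁻¹ * (g * complexConjugation)) := by
      rw [← map_mul, mul_inv_cancel_left]
    rw [h5, mul_one, map_mul, map_mul] at h6
    exact h6
  obtain ⟨L₁, hL₁, h₁⟩ := hlev
  have hint : IsIntegral ℚ ζ := ((AlgebraicClosure.isAlgebraic ℚ).isAlgebraic ζ).isIntegral
  haveI := IntermediateField.adjoin.finiteDimensional hint
  set S' : Set ℕ := S ∪ {ℓ | ℓ ∣ M * p} with hS'
  have hfin : S'.Finite := hS.union (Set.Finite.subset (Set.finite_Iic (M * p))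
    fun ℓ hℓ => Nat.le_of_dvd (Nat.pos_of_ne_zero hM1) hℓ)
  obtain ⟨ℓ, hℓ, hℓS, A, hA, τ, hτ, k, m, hk, hm⟩ :=
    FrobDens.exists_frobenius (L₁ ⊔ IntermediateField.adjoin ℚ {ζ}) S' hfin h
  have hℓS1 : ℓ ∉ S := fun h => hℓS (Or.inl h)
  have hℓM : ¬ ℓ ∣ M * p := fun h => hℓS (Or.inr h)
  have hζL : ζ ∈ L₁ ⊔ IntermediateField.adjoin ℚ {ζ} :=
    (le_sup_right (a := L₁)) (IntermediateField.mem_adjoin_simple_self ℚ ζ)
  refine ⟨ℓ, hℓ, hℓS1, ?_, ?_⟩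
  · have e1 := hm ζ hζL
    have e2 : (h ^ m) ζ = ζ := (pow_mem hh m : h ^ m ∈ fixZ ζ)
    have e3 := frob_rootOfUnity hℓ hA hτ hℓM hζ.pow_eq_one
    rw [← e1, e2] at e3
    have e4 : ζ ^ (ℓ - 1) = 1 := by
      apply mul_left_cancel₀ (hζ.ne_zero hM1)
      rw [mul_one, ← pow_succ', Nat.sub_add_cancel hℓ.one_lt.le]
      exact e3.symm
    have e5 : M * p ∣ ℓ - 1 := (hζ.pow_eq_one_iff_dvd _).mp e4
    have e6 : M ∣ ℓ - 1 := (dvd_mul_right M p).trans e5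
    exact ((Nat.modEq_iff_dvd' hℓ.one_lt.le).mpr e6).symm
  · intro haℓ
    obtain ⟨f1, f2⟩ := hfr ℓ hℓ hℓS1 A hA τ hτ
    obtain ⟨v, hv, hTv⟩ := (eig_iff (T := ρ τ) (ε := 1) (one_mul 1)).mpr (by
      rw [f1, f2, haℓ]; ring)
    have h5 := eig_pow hTv k
    rw [← map_pow, one_pow] at h5
    have h6 : ρ (τ ^ k) = ρ h := FinLevel.congr h₁ fun x hx => hk x (le_sup_left (a := L₁) hx)
    rw [h6] at h5
    have h7 := (eig_iff (T := ρ h) (ε := 1) (one_mul 1)).mp ⟨v, hv, h5⟩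
    rw [hdet, hchi h hh] at h7
    apply htr
    rw [h7]; ring

include hlev hirr hp2 hdet hS hfr in
theorem exists_prime_two :
    ∃ ℓ : ℕ, ℓ.Prime ∧ ℓ ∉ S ∧ (a ℓ) ^ 2 ≠ ((ℓ : ZMod p) + 1) ^ 2 := by
  have h2 := two_ne' hp2
  set H := (chiK p (ZMod p)).ker with hH
  haveI : H.Normal := MonoidHom.normal_ker _
  have hchi : ∀ h ∈ H, chiK p (ZMod p) h = 1 := fun h hh => MonoidHom.mem_ker.mp hh
  obtain ⟨h, hh, htr, htr'⟩ : ∃ h ∈ H, (ρ h).trace ≠ 2 ∧ (ρ h).trace ≠ -2 := by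
    by_contra hcon
    push Not at hcon
    have h3 := pm_one_of_trace hirr h2 H (fun h hh => by rw [hdet, hchi h hh])
      (fun h hh => by
        by_cases h5 : (ρ h).trace = 2
        · exact Or.inl h5
        · exact Or.inr (hcon h hh h5))
    refine false_of_comm hirr h2 complexConjugation_mul_self (by rw [hdet, chi_conj]) fun g => ?_
    exact comm_of_pm (fun g hg => h3 g (MonoidHom.mem_ker.mpr hg)) _ _
  obtain ⟨L₁, hL₁, h₁⟩ := hlev
  obtain ⟨ℓ, hℓ, hℓS, A, hA, τ, hτ, k, m, hk, hm⟩ := FrobDens.exists_frobenius L₁ S hS h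
  refine ⟨ℓ, hℓ, hℓS, fun haℓ => ?_⟩
  obtain ⟨f1, f2⟩ := hfr ℓ hℓ hℓS A hA τ hτ
  obtain ⟨ε, hε, hae⟩ : ∃ ε : ZMod p, (ε = 1 ∨ ε = -1) ∧ a ℓ = ε * (1 + ℓ) := by
    rcases sq_eq_sq_iff_eq_or_eq_neg.mp haℓ with e | e
    · exact ⟨1, Or.inl rfl, by rw [e]; ring⟩
    · exact ⟨-1, Or.inr rfl, by rw [e]; ring⟩
  have hεε : ∀ ε : ZMod p, (ε = 1 ∨ ε = -1) → ε * ε = 1 := by
    rintro ε (rfl | rfl) <;> ring
  obtain ⟨v, hv, hTv⟩ := (eig_iff (T := ρ τ) (hεε ε hε)).mpr (by rw [f1, f2, hae])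
  have h5 := eig_pow hTv k
  rw [← map_pow] at h5
  have h6 : ρ (τ ^ k) = ρ h := FinLevel.congr h₁ fun x hx => hk x hx
  rw [h6] at h5
  have hεk : ε ^ k = 1 ∨ ε ^ k = -1 := by
    rcases hε with rfl | rfl
    · left; rw [one_pow]
    · exact neg_one_pow_eq_or _ k
  have h7 := (eig_iff (T := ρ h) (hεε _ hεk)).mp ⟨v, hv, h5⟩
  rw [hdet, hchi h hh] at h7
  rcases hεk with e | e
  · apply htr; rw [h7, e]; ring
  · apply htr'; rw [h7, e]; ring

end main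

end Fermat.Agent.LR
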