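import Fermat.Agent.Ihara.Defs
import Fermat.Agent.AnJac.Lat

/-!
# Level raising: definitions
-/

set_option autoImplicit false

noncomputable section

namespace Fermat.Agent.LR

open CongruenceSubgroup Matrix.SpecialLinearGroup Fermat.Agent.Ihara Fermat.Agent.AnJac
open scoped MatrixGroups

/-- `Hom(Γ₀(M), ℤ)` -/
abbrev X (M : ℕ) := Additive (Gamma0 M) →+ ℤ

/-- `Sym(M, ℤ)` -/
def S (M : ℕ) : AddSubgroup (Cusp → Cusp → ℤ) where
  carrier := {φ | InSym M φ}
  zero_mem' := ⟨fun _ _ _ => by simp, fun _ _ => rfl⟩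
  add_mem' := fun {a b} ha hb => ⟨fun α β γ => by
      simp only [Pi.add_apply]
      rw [← ha.ms α β γ, ← hb.ms α β γ]
      abel, fun γ hγ => by
      funext α β
      have h1 := congrFun (congrFun (ha.inv γ hγ) α) β
      have h2 := congrFun (congrFun (hb.inv γ hγ) α) β
      exact congrArg₂ (· + ·) h1 h2⟩
  neg_mem' := fun {a} ha => ⟨fun α β γ => by
      simp only [Pi.neg_apply]
      rw [← ha.ms α β γ]
      abel, fun γ hγ => by
      funext α β
      have h1 := congrFun (congrFun (ha.inv γ hγ) α) β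
      exact congrArg (fun x => -x) h1⟩

/-- formal combinations of symbols -/
abbrev Dv := (Cusp × Cusp) →₀ ℤ

/-- evaluation of a function on a formal combination -/
def ev (φ : Cusp → Cusp → ℤ) : Dv →+ ℤ :=
  Finsupp.liftAddHom fun c => (AddMonoidHom.mulRight (φ c.1 c.2))

lemma ev_single (φ : Cusp → Cusp → ℤ) (c : Cusp × Cusp) (n : ℤ) :
    ev φ (Finsupp.single c n) = n * φ c.1 c.2 := by
  rw [ev, Finsupp.liftAddHom_apply_single]
  rfl

/-- transport by `g ∈ GL₂(ℚ)` -/
def mv (g : GL (Fin 2) ℚ) : Dv →+ Dv :=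
  Finsupp.mapDomain.addMonoidHom fun c => (g • c.1, g • c.2)

lemma ev_mv (g : GL (Fin 2) ℚ) (φ : Cusp → Cusp → ℤ) (D : Dv) : ev φ (mv g D) = ev (tr g φ) D := by
  induction D using Finsupp.induction_linear with
  | zero => simp
  | add a b ha hb => rw [map_add, map_add, map_add, ha, hb]
  | single c n =>
    change ev φ (Finsupp.mapDomain _ (Finsupp.single c n)) = _
    rw [Finsupp.mapDomain_single, ev_single, ev_single]
    rfl

end Fermat.Agent.LR
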