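import Fermat.Agent.LR.Alg
import Fermat.Agent.AnJac.Link
import Fermat.Agent.DSLift.Duality
import Fermat.Prelude.Def_FLTPrelim_ModularRep

/-!
# Relations between Hecke operators hold for eigenforms
-/

set_option autoImplicit false
set_option linter.unusedSectionVars false
set_option linter.style.haveILetI false

noncomputable section

namespace Fermat.Agent.LR

open CongruenceSubgroup Matrix.SpecialLinearGroup Fermat.Agent.Ihara Fermat.Agent.AnJac
open scoped MatrixGroups

variable {P : Set ℕ} {M : ℕ}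

/-- comparison of the free algebras -/
def toP (hM : PM P M) : TT P →ₐ[ℤ] FreeAlgebra ℤ PrimeT :=
  FreeAlgebra.lift ℤ fun ℓ => FreeAlgebra.ι ℤ ⟨ℓ, (hM ℓ ℓ.2).1⟩

lemma toP_ι (hM : PM P M) (ℓ : P) :
    toP hM (FreeAlgebra.ι ℤ ℓ) = FreeAlgebra.ι ℤ ⟨ℓ, (hM ℓ ℓ.2).1⟩ := by
  rw [toP, FreeAlgebra.lift_ι_apply]

variable [NeZero M]

lemma actM_toP (hM : PM P M) (t : TT P) (x : X M) : actM M ℤ (toP hM t) x = rX hM t x := by
  induction t using FreeAlgebra.induction generalizing x with
  | grade0 c =>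
    rw [AlgHom.commutes, AlgHom.commutes, AlgHom.commutes, Module.algebraMap_end_apply, eq_intCast,
      AddMonoid.End.intCast_apply]
  | grade1 i =>
    haveI : Fact (i : ℕ).Prime := ⟨(hM i i.2).1⟩
    rw [toP_ι, actM_ι, rX, FreeAlgebra.lift_ι_apply, oX_apply hM i (hM i i.2).2]
    exact DFunLike.congr_fun (MT_of_not_dvd M ℤ (i : ℕ) (hM i i.2).2) x
  | mul s t hs ht =>
    rw [map_mul, map_mul, map_mul, Module.End.mul_apply]
    change actM M ℤ (toP hM s) (actM M ℤ (toP hM t) x) = _
    rw [ht, hs]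
  | add s t hs ht =>
    rw [map_add, map_add, map_add, LinearMap.add_apply]
    change actM M ℤ (toP hM s) x + actM M ℤ (toP hM t) x = _
    rw [ht, hs]

/-- the system of eigenvalues -/
def chf (P : Set ℕ) (f : CuspForm (Gamma0 M) 2) : TT P →ₐ[ℤ] ℂ :=
  FreeAlgebra.lift ℤ fun ℓ => ModularFormClass.qCoeff f (ℓ : ℕ)

lemma chf_ι (f : CuspForm (Gamma0 M) 2) (ℓ : P) :
    chf P f (FreeAlgebra.ι ℤ ℓ) = ModularFormClass.qCoeff f (ℓ : ℕ) := by
  rw [chf, FreeAlgebra.lift_ι_apply]

lemma actS_toP (hM : PM P M) {f : CuspForm (Gamma0 M) 2} (hf : f.IsNormalizedEigenform)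
    (t : TT P) : actS M (toP hM t) f = chf P f t • f := by
  induction t using FreeAlgebra.induction with
  | grade0 c =>
    rw [AlgHom.commutes, AlgHom.commutes, AlgHom.commutes, Module.algebraMap_end_apply,
      algebraMap_int_eq, eq_intCast, Int.cast_smul_eq_zsmul]
  | grade1 i =>
    rw [toP_ι, actS_ι, chf_ι]
    exact DSLift.heckeOp_apply_of_isNormalizedEigenform M hf _
  | mul s t hs ht =>
    rw [map_mul, map_mul, map_mul, Module.End.mul_apply, ht, map_smul, hs, smul_smul, mul_comm]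
  | add s t hs ht =>
    rw [map_add, map_add, map_add, LinearMap.add_apply, hs, ht, add_smul]

/-- **(F9)** -/
theorem chf_eq_zero (hM : PM P M) {f : CuspForm (Gamma0 M) 2} (hf : f.IsNormalizedEigenform)
    {t : TT P} (h : rX hM t = 0) : chf P f t = 0 := by
  have h1 : actL M (toP hM t) = 0 := by
    refine AddMonoidHom.ext fun φ => Subtype.ext ((coe_actL (toP hM t) φ).trans ?_)
    rw [actM_toP, h]
    rfl
  have h2 := LinearMap.congr_fun (actS_eq_zero h1) f
  rw [actS_toP hM hf] at h2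
  exact (smul_eq_zero.mp h2).resolve_right hf.ne_zero

end Fermat.Agent.LR
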