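import Fermat.Agent.LR.Form

/-!
# Finiteness lemmas
-/

set_option autoImplicit false

noncomputable section

namespace Fermat.Agent.LR

open CongruenceSubgroup Matrix.SpecialLinearGroup Fermat.Agent.Ihara
open scoped MatrixGroups

/-- shorthand for the image in `GL₂(ℚ)` -/
abbrev mq (h : SL(2,ℤ)) : GL (Fin 2) ℚ := mapGL ℚ h

lemma mq_apply (h : SL(2,ℤ)) (i j : Fin 2) : (mq h) i j = (h i j : ℚ) := rfl

lemma dt_mq (h : SL(2,ℤ)) : dt (mq h) = 1 := by
  rw [dt]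
  simp only [mq_apply]
  have := h.det_coe
  rw [Matrix.det_fin_two] at this
  exact_mod_cast this

/-- norm of a vector -/
def nm (v : Fin 2 → ℚ) : ℚ := v 0 ^ 2 + v 1 ^ 2

lemma finite_bdd (L : ℝ) : {h : SL(2,ℤ) | ∀ i j, ((h i j : ℤ) : ℝ) ^ 2 ≤ L}.Finite := by
  obtain ⟨n, hn⟩ := exists_nat_ge L
  have h1 : (Set.pi (Set.univ : Set (Fin 2)) fun _ => Set.pi (Set.univ : Set (Fin 2))
      fun _ => Set.Icc (-(n : ℤ)) n).Finite :=
    Set.Finite.pi fun _ => Set.Finite.pi fun _ => Set.finite_Icc _ _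
  refine Set.Finite.of_injOn (f := fun h : SL(2,ℤ) => (fun i j => h i j)) (fun h hh => ?_)
    (fun a _ b _ e => ?_) h1
  · intro i _ j _
    have h2 : ((h i j : ℤ) : ℝ) ^ 2 ≤ n := (hh i j).trans hn
    have h3 : (h i j : ℤ) ^ 2 ≤ n := by exact_mod_cast h2
    rw [Set.mem_Icc]
    change -(n : ℤ) ≤ h i j ∧ h i j ≤ n
    constructor <;> nlinarith
  · ext i j
    exact congrFun (congrFun e i) j

lemma finite_of_bdd {v w : Fin 2 → ℚ} (h0 : dv v w ≠ 0) (K : ℝ) :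
    {h : SL(2,ℤ) | ((nm (gv (mq h) v) : ℚ) : ℝ) ≤ K ∧ ((nm (gv (mq h) w) : ℚ) : ℝ) ≤ K}.Finite := by
  refine (finite_bdd (2 * K * (nm v + nm w) / (dv v w) ^ 2)).subset ?_
  rintro h ⟨h1, h2⟩
  have hd : (0 : ℝ) < (dv v w : ℝ) ^ 2 := by
    have : (dv v w : ℝ) ≠ 0 := by exact_mod_cast h0
    positivity
  simp only [nm, gv_0, gv_1, mq_apply] at h1 h2
  push_cast at h1 h2
  set a : ℝ := ((h 0 0 : ℤ) : ℝ)
  set b : ℝ := ((h 0 1 : ℤ) : ℝ)
  set c : ℝ := ((h 1 0 : ℤ) : ℝ)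
  set d : ℝ := ((h 1 1 : ℤ) : ℝ)
  set v0 : ℝ := ((v 0 : ℚ) : ℝ)
  set v1 : ℝ := ((v 1 : ℚ) : ℝ)
  set w0 : ℝ := ((w 0 : ℚ) : ℝ)
  set w1 : ℝ := ((w 1 : ℚ) : ℝ)
  have key : ∀ p q s t : ℝ, p ^ 2 ≤ K → q ^ 2 ≤ K → (p * s - q * t) ^ 2 ≤ 2 * K * (s ^ 2 + t ^ 2) := by
    intro p q s t hp hq
    nlinarith [sq_nonneg (p * s + q * t), mul_nonneg (sub_nonneg.mpr hp) (sq_nonneg s),
      mul_nonneg (sub_nonneg.mpr hq) (sq_nonneg t)]
  have hK : 0 ≤ K := (by positivity : (0 : ℝ) ≤ (a * v0 + b * v1) ^ 2 + (c * v0 + d * v1) ^ 2).trans h1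
  have a1 : (a * v0 + b * v1) ^ 2 ≤ K := by nlinarith [sq_nonneg (c * v0 + d * v1)]
  have a2 : (c * v0 + d * v1) ^ 2 ≤ K := by nlinarith [sq_nonneg (a * v0 + b * v1)]
  have b1 : (a * w0 + b * w1) ^ 2 ≤ K := by nlinarith [sq_nonneg (c * w0 + d * w1)]
  have b2 : (c * w0 + d * w1) ^ 2 ≤ K := by nlinarith [sq_nonneg (a * w0 + b * w1)]
  have hdv : (dv v w : ℝ) = v0 * w1 - v1 * w0 := by
    rw [dv]; push_cast; rfl
  intro i j
  rw [le_div_iff₀ hd, hdv]
  have hn : ((nm v : ℚ) : ℝ) + ((nm w : ℚ) : ℝ) = v0 ^ 2 + v1 ^ 2 + (w0 ^ 2 + w1 ^ 2) := by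
    rw [nm, nm]; push_cast; rfl
  rw [hn]
  fin_cases i <;> fin_cases j
  · change a ^ 2 * _ ≤ _
    have := key _ _ w1 v1 a1 b1
    have e : (a * v0 + b * v1) * w1 - (a * w0 + b * w1) * v1 = a * (v0 * w1 - v1 * w0) := by ring
    rw [e] at this
    nlinarith [sq_nonneg v0, sq_nonneg w0, mul_nonneg hK (sq_nonneg v0), mul_nonneg hK (sq_nonneg w0)]
  · change b ^ 2 * _ ≤ _
    have := key _ _ w0 v0 a1 b1
    have e : (a * v0 + b * v1) * w0 - (a * w0 + b * w1) * v0 = - (b * (v0 * w1 - v1 * w0)) := by ring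
    rw [e] at this
    nlinarith [sq_nonneg v1, sq_nonneg w1, mul_nonneg hK (sq_nonneg v1), mul_nonneg hK (sq_nonneg w1)]
  · change c ^ 2 * _ ≤ _
    have := key _ _ w1 v1 a2 b2
    have e : (c * v0 + d * v1) * w1 - (c * w0 + d * w1) * v1 = c * (v0 * w1 - v1 * w0) := by ring
    rw [e] at this
    nlinarith [sq_nonneg v0, sq_nonneg w0, mul_nonneg hK (sq_nonneg v0), mul_nonneg hK (sq_nonneg w0)]
  · change d ^ 2 * _ ≤ _
    have := key _ _ w0 v0 a2 b2
    have e : (c * v0 + d * v1) * w0 - (c * w0 + d * w1) * v0 = - (d * (v0 * w1 - v1 * w0)) := by ring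
    rw [e] at this
    nlinarith [sq_nonneg v1, sq_nonneg w1, mul_nonneg hK (sq_nonneg v1), mul_nonneg hK (sq_nonneg w1)]

/-- nonzero integral vectors have norm at least one -/
lemma one_le_nm (h : SL(2,ℤ)) {a b : ℤ} (hab : a ≠ 0 ∨ b ≠ 0) :
    (1 : ℝ) ≤ ((nm (gv (mq h) ![(a : ℚ), (b : ℚ)]) : ℚ) : ℝ) := by
  have h1 : (1 : ℤ) ≤ (h 0 0 * a + h 0 1 * b) ^ 2 + (h 1 0 * a + h 1 1 * b) ^ 2 := by
    have hdet := h.det_coe
    rw [Matrix.det_fin_two] at hdet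
    by_contra hlt
    have e1 : h 0 0 * a + h 0 1 * b = 0 := by nlinarith [sq_nonneg (h 0 0 * a + h 0 1 * b), sq_nonneg (h 1 0 * a + h 1 1 * b)]
    have e2 : h 1 0 * a + h 1 1 * b = 0 := by nlinarith [sq_nonneg (h 0 0 * a + h 0 1 * b), sq_nonneg (h 1 0 * a + h 1 1 * b)]
    have ea : a = 0 := by
      have : (h 0 0 * h 1 1 - h 0 1 * h 1 0) * a = h 1 1 * (h 0 0 * a + h 0 1 * b) - h 0 1 * (h 1 0 * a + h 1 1 * b) := by ring
      rw [hdet, e1, e2] at this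
      simpa using this
    have eb : b = 0 := by
      have : (h 0 0 * h 1 1 - h 0 1 * h 1 0) * b = h 0 0 * (h 1 0 * a + h 1 1 * b) - h 1 0 * (h 0 0 * a + h 0 1 * b) := by ring
      rw [hdet, e1, e2] at this
      simpa using this
    rcases hab with h' | h'
    · exact h' ea
    · exact h' eb
  have e : (nm (gv (mq h) ![(a : ℚ), (b : ℚ)]) : ℚ) =
      (((h 0 0 * a + h 0 1 * b) ^ 2 + (h 1 0 * a + h 1 1 * b) ^ 2 : ℤ) : ℚ) := by
    simp only [nm, gv_0, gv_1, mq_apply]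
    push_cast
    simp
  rw [e]
  exact_mod_cast h1

/-! ### forms attached to `g` -/

/-- the form `Q ∘ g` -/
def bg (g : GL (Fin 2) ℚ) (x y : Fin 2 → ℚ) : ℝ := bq (gv g x) (gv g y)

lemma bg_coeff (g : GL (Fin 2) ℚ) : ∃ A B C : ℝ, ∀ x y : Fin 2 → ℚ,
    bg g x y = A * x 0 * y 0 + B * (x 0 * y 1 + x 1 * y 0) + C * x 1 * y 1 := by
  refine ⟨bq (gv g ![1, 0]) (gv g ![1, 0]), bq (gv g ![1, 0]) (gv g ![0, 1]),
    bq (gv g ![0, 1]) (gv g ![0, 1]), fun x y => ?_⟩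
  simp only [bg, bq, gv_0, gv_1, Matrix.cons_val_zero, Matrix.cons_val_one]
  push_cast
  ring

lemma bg_lower (g : GL (Fin 2) ℚ) : ∃ c : ℝ, 0 < c ∧ ∀ x : Fin 2 → ℚ, c * (nm x : ℚ) ≤ bg g x x := by
  have hd := dt_ne g
  set s : ℚ := g 0 0 ^ 2 + g 0 1 ^ 2 + g 1 0 ^ 2 + g 1 1 ^ 2 with hs
  have hs0 : 0 < s := by
    have h1 : (0 : ℚ) ≤ s := by positivity
    rcases h1.lt_or_eq with h | h
    · exact h
    · exfalso
      apply hd
      have e : dt g = g 0 0 * g 1 1 - g 0 1 * g 1 0 := rfl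
      have h00 : g 0 0 = 0 := by
        have : g 0 0 ^ 2 = 0 := by nlinarith [sq_nonneg (g 0 0), sq_nonneg (g 0 1), sq_nonneg (g 1 0), sq_nonneg (g 1 1)]
        exact pow_eq_zero_iff two_ne_zero |>.mp this
      have h01 : g 0 1 = 0 := by
        have : g 0 1 ^ 2 = 0 := by nlinarith [sq_nonneg (g 0 0), sq_nonneg (g 0 1), sq_nonneg (g 1 0), sq_nonneg (g 1 1)]
        exact pow_eq_zero_iff two_ne_zero |>.mp this
      rw [e, h00, h01]; ring
  have hc : (0 : ℚ) < dt g ^ 2 / s := by positivity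
  refine ⟨((dt g ^ 2 / s : ℚ) : ℝ), by exact_mod_cast hc, fun x => ?_⟩
  refine le_trans ?_ (sq_le_bq (gv g x))
  have key : dt g ^ 2 / s * nm x ≤ gv g x 0 ^ 2 + gv g x 1 ^ 2 := by
    rw [div_mul_eq_mul_div, div_le_iff₀ hs0]
    simp only [gv_0, gv_1, nm, dt, hs]
    nlinarith [sq_nonneg (g 0 0 * (g 0 0 * x 0 + g 0 1 * x 1) + g 1 0 * (g 1 0 * x 0 + g 1 1 * x 1)),
      sq_nonneg (g 0 1 * (g 0 0 * x 0 + g 0 1 * x 1) + g 1 1 * (g 1 0 * x 0 + g 1 1 * x 1))]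
  exact_mod_cast key

/-- the key estimate: if `Q_g` and `Q_g'` have different signs at `(x, y)` -/
lemma key_bound (g g' : GL (Fin 2) ℚ) : ∃ K : ℝ, ∀ x y : Fin 2 → ℚ,
    bg g x y * bg g' x y ≤ 0 → 1 ≤ ((nm x : ℚ) : ℝ) → 1 ≤ ((nm y : ℚ) : ℝ) →
    ((nm x : ℚ) : ℝ) ≤ K * (dv x y : ℝ) ^ 2 ∧ ((nm y : ℚ) : ℝ) ≤ K * (dv x y : ℝ) ^ 2 := by
  obtain ⟨A, B, C, hg⟩ := bg_coeff g
  obtain ⟨A', B', C', hg'⟩ := bg_coeff g'
  obtain ⟨c, hc, hcg⟩ := bg_lower g
  obtain ⟨c', hc', hcg'⟩ := bg_lower g'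
  set m := min c c' with hm
  have hm0 : 0 < m := lt_min hc hc'
  refine ⟨(|A| + |A'|) * (|C| + |C'|) / m ^ 2, fun x y hxy hx hy => ?_⟩
  obtain ⟨t, ht0, ht1, ht⟩ : ∃ t : ℝ, 0 ≤ t ∧ t ≤ 1 ∧ (1 - t) * bg g x y + t * bg g' x y = 0 := by
    by_cases h : bg g x y = bg g' x y
    · refine ⟨0, le_rfl, zero_le_one, ?_⟩
      rw [← h] at hxy
      have : bg g x y = 0 := by nlinarith
      rw [this, ← h, this]; ring
    · have hne : bg g x y - bg g' x y ≠ 0 := sub_ne_zero.mpr h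
      refine ⟨bg g x y / (bg g x y - bg g' x y), ?_, ?_, by field_simp; ring⟩
      · rcases lt_or_gt_of_ne hne with h1 | h1
        · apply div_nonneg_of_nonpos _ h1.le
          by_contra h2
          push Not at h2
          have : 0 < bg g' x y := by linarith
          nlinarith
        · apply div_nonneg _ h1.le
          by_contra h2
          push Not at h2
          have : bg g' x y < 0 := by linarith
          nlinarith
      · rcases lt_or_gt_of_ne hne with h1 | h1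
        · rw [div_le_one_of_neg h1]
          by_contra h2
          push Not at h2
          have h3 : bg g' x y < 0 := by linarith
          have h4 : bg g x y < 0 := by linarith
          nlinarith
        · rw [div_le_one h1]
          by_contra h2
          push Not at h2
          have h3 : 0 < bg g' x y := by linarith
          have h4 : 0 < bg g x y := by linarith
          nlinarith
  -- the gram identity
  set a : ℝ := (1 - t) * A + t * A' with ha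
  set b : ℝ := (1 - t) * B + t * B' with hb
  set d : ℝ := (1 - t) * C + t * C' with hd
  have hQ : ∀ u v : Fin 2 → ℚ, (1 - t) * bg g u v + t * bg g' u v =
      a * u 0 * v 0 + b * (u 0 * v 1 + u 1 * v 0) + d * u 1 * v 1 := by
    intro u v
    rw [hg, hg']
    ring
  have hlow : ∀ u : Fin 2 → ℚ, m * ((nm u : ℚ) : ℝ) ≤ (1 - t) * bg g u u + t * bg g' u u := by
    intro u
    have hn : (0 : ℝ) ≤ ((nm u : ℚ) : ℝ) := by
      have : (0 : ℚ) ≤ nm u := by rw [nm]; positivity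
      exact_mod_cast this
    have h1 : m * ((nm u : ℚ) : ℝ) ≤ bg g u u :=
      le_trans (mul_le_mul_of_nonneg_right (min_le_left _ _) hn) (hcg u)
    have h2 : m * ((nm u : ℚ) : ℝ) ≤ bg g' u u :=
      le_trans (mul_le_mul_of_nonneg_right (min_le_right _ _) hn) (hcg' u)
    nlinarith
  have hX := hlow x
  have hY := hlow y
  have hgram : ((1 - t) * bg g x x + t * bg g' x x) * ((1 - t) * bg g y y + t * bg g' y y) =
      (a * d - b ^ 2) * (dv x y : ℝ) ^ 2 := by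
    have h1 := hQ x y
    rw [ht] at h1
    rw [hQ x x, hQ y y]
    have e : (dv x y : ℝ) = x 0 * y 1 - x 1 * y 0 := by rw [dv]; push_cast; rfl
    rw [e]
    linear_combination (-1 : ℝ) * (a * x 0 * y 0 + b * (x 0 * y 1 + x 1 * y 0) + d * x 1 * y 1) * h1
  have hdd : (a * d - b ^ 2) ≤ (|A| + |A'|) * (|C| + |C'|) := by
    have h1 : |a| ≤ |A| + |A'| := by
      rw [ha]
      refine (abs_add_le _ _).trans ?_
      rw [abs_mul, abs_mul, abs_of_nonneg (by linarith : 0 ≤ 1 - t), abs_of_nonneg ht0]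
      nlinarith [abs_nonneg A, abs_nonneg A']
    have h2 : |d| ≤ |C| + |C'| := by
      rw [hd]
      refine (abs_add_le _ _).trans ?_
      rw [abs_mul, abs_mul, abs_of_nonneg (by linarith : 0 ≤ 1 - t), abs_of_nonneg ht0]
      nlinarith [abs_nonneg C, abs_nonneg C']
    calc a * d - b ^ 2 ≤ |a * d| := by nlinarith [le_abs_self (a * d), sq_nonneg b]
      _ = |a| * |d| := abs_mul _ _
      _ ≤ _ := mul_le_mul h1 h2 (abs_nonneg _) (by positivity)
  have hprod : m ^ 2 * (((nm x : ℚ) : ℝ) * ((nm y : ℚ) : ℝ)) ≤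
      (|A| + |A'|) * (|C| + |C'|) * (dv x y : ℝ) ^ 2 := by
    calc m ^ 2 * (((nm x : ℚ) : ℝ) * ((nm y : ℚ) : ℝ)) =
        (m * ((nm x : ℚ) : ℝ)) * (m * ((nm y : ℚ) : ℝ)) := by ring
      _ ≤ ((1 - t) * bg g x x + t * bg g' x x) * ((1 - t) * bg g y y + t * bg g' y y) :=
          mul_le_mul hX hY (by nlinarith) (le_trans (by nlinarith) hX)
      _ = (a * d - b ^ 2) * (dv x y : ℝ) ^ 2 := hgram
      _ ≤ _ := mul_le_mul_of_nonneg_right hdd (sq_nonneg _)
  have hm2 : 0 < m ^ 2 := by positivity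
  have hx0 : (0 : ℝ) ≤ ((nm x : ℚ) : ℝ) := zero_le_one.trans hx
  have hy0 : (0 : ℝ) ≤ ((nm y : ℚ) : ℝ) := zero_le_one.trans hy
  constructor
  · rw [div_mul_eq_mul_div, le_div_iff₀ hm2]
    refine le_trans ?_ hprod
    rw [mul_comm]
    exact mul_le_mul_of_nonneg_left (le_mul_of_one_le_right hx0 hy) hm2.le
  · rw [div_mul_eq_mul_div, le_div_iff₀ hm2]
    refine le_trans ?_ hprod
    rw [mul_comm]
    exact mul_le_mul_of_nonneg_left (le_mul_of_one_le_left hy0 hx) hm2.le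

/-- **(F1)** -/
theorem finite_ne {g g' : GL (Fin 2) ℚ} (hg : 0 < dt g) (hg' : 0 < dt g') (α β : Cusp) :
    {h : SL(2,ℤ) | e0 (g • mq h • α) (g • mq h • β) ≠ e0 (g' • mq h • α) (g' • mq h • β)}.Finite := by
  by_cases hαβ : α = β
  · subst hαβ
    convert Set.finite_empty
    ext h
    simp [e0_self]
  obtain ⟨a, b, hab, hv⟩ := exists_rp α
  obtain ⟨c, d, hcd, hw⟩ := exists_rp β
  set v : Fin 2 → ℚ := ![(a : ℚ), (b : ℚ)]
  set w : Fin 2 → ℚ := ![(c : ℚ), (d : ℚ)]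
  have hd0 : dv v w ≠ 0 := hv.dv_ne_zero hαβ hw
  obtain ⟨K, hK⟩ := key_bound g g'
  refine (finite_of_bdd hd0 (K * (dv v w : ℝ) ^ 2)).subset ?_
  intro h hh
  have e1 : e0 (g • mq h • α) (g • mq h • β) = sg (gv g (gv (mq h) v)) (gv g (gv (mq h) w)) :=
    e0_eq (rp_gv (rp_gv hv _) _) (rp_gv (rp_gv hw _) _)
  have e2 : e0 (g' • mq h • α) (g' • mq h • β) = sg (gv g' (gv (mq h) v)) (gv g' (gv (mq h) w)) :=
    e0_eq (rp_gv (rp_gv hv _) _) (rp_gv (rp_gv hw _) _)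
  have hdv : dv (gv (mq h) v) (gv (mq h) w) = dv v w := by rw [dv_gv, dt_mq, one_mul]
  have hne : bg g (gv (mq h) v) (gv (mq h) w) * bg g' (gv (mq h) v) (gv (mq h) w) ≤ 0 := by
    by_contra hpos
    push Not at hpos
    apply hh
    rw [e1, e2, sg, sg, dv_gv g, dv_gv g', hdv]
    congr 1
    rw [eq_iff_iff]
    have hgr : (0 : ℝ) < (dt g : ℝ) := by exact_mod_cast hg
    have hgr' : (0 : ℝ) < (dt g' : ℝ) := by exact_mod_cast hg'
    change 0 < ((dt g * dv v w : ℚ) : ℝ) * bg g (gv (mq h) v) (gv (mq h) w) ↔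
      0 < ((dt g' * dv v w : ℚ) : ℝ) * bg g' (gv (mq h) v) (gv (mq h) w)
    push_cast
    rw [mul_assoc, mul_assoc, mul_pos_iff_of_pos_left hgr, mul_pos_iff_of_pos_left hgr']
    rcases mul_pos_iff.mp hpos with ⟨h1, h2⟩ | ⟨h1, h2⟩
    · rw [mul_pos_iff_of_pos_right h1, mul_pos_iff_of_pos_right h2]
    · constructor
      · intro h3
        exact mul_pos_of_neg_of_neg (by nlinarith) h2
      · intro h3
        exact mul_pos_of_neg_of_neg (by nlinarith) h1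
  have := hK _ _ hne (one_le_nm h hab) (one_le_nm h hcd)
  rw [hdv] at this
  exact this

/-- **(F2)** finiteness of the set of reduced triangles -/
theorem finite_red {u v : Fin 2 → ℚ} (a b c d : ℤ) (hu : u = ![(a : ℚ), (b : ℚ)])
    (hv : v = ![(c : ℚ), (d : ℚ)]) (h0 : dv u v ≠ 0) :
    {h : SL(2,ℤ) | bq (gv (mq h) u) (gv (mq h) v) ≤ 0 ∧
      bq (gv (mq h) u) (gv (mq h) (-u - v)) ≤ 0 ∧
      bq (gv (mq h) v) (gv (mq h) (-u - v)) ≤ 0}.Finite := by
  have hab : a ≠ 0 ∨ b ≠ 0 := by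
    by_contra hc
    push Not at hc
    apply h0
    rw [hu, hc.1, hc.2]
    simp [dv]
  have hcd : c ≠ 0 ∨ d ≠ 0 := by
    by_contra hc
    push Not at hc
    apply h0
    rw [hv, hc.1, hc.2]
    simp [dv]
  have huv : (-u - v : Fin 2 → ℚ) = ![((-a - c : ℤ) : ℚ), ((-b - d : ℤ) : ℚ)] := by
    rw [hu, hv]
    ext i
    fin_cases i <;> simp
  have huv0 : (-a - c : ℤ) ≠ 0 ∨ (-b - d : ℤ) ≠ 0 := by
    by_contra hc
    push Not at hc
    apply h0
    rw [hu, hv]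
    have e1 : (c : ℚ) = - a := by
      have : c = - a := by omega
      exact_mod_cast this
    have e2 : (d : ℚ) = - b := by
      have : d = - b := by omega
      exact_mod_cast this
    rw [e1, e2]
    simp [dv]
    ring
  refine (finite_of_bdd h0 (2 * (dq * (dv u v : ℝ) ^ 2))).subset ?_
  rintro h ⟨h1, h2, h3⟩
  have hneg : gv (mq h) (-u - v) = -gv (mq h) u - gv (mq h) v := by
    ext i
    fin_cases i <;> simp <;> ring
  set x := gv (mq h) u with hx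
  set y := gv (mq h) v with hy
  have hdv : dv x y = dv u v := by rw [hx, hy, dv_gv, dt_mq, one_mul]
  have e2 : bq x (-x - y) = - bq x x - bq x y := by
    rw [sub_eq_add_neg, bq_add_right, bq_neg_right, bq_neg_right]; ring
  have e3 : bq y (-x - y) = - bq x y - bq y y := by
    rw [sub_eq_add_neg, bq_add_right, bq_neg_right, bq_neg_right, bq_comm y x]; ring
  rw [hneg, e2] at h2
  rw [hneg, e3] at h3
  have hg := bq_gram x y
  rw [hdv] at hg
  have n1 : (1 : ℝ) ≤ bq x x := by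
    have := one_le_nm h hab
    rw [← hu] at this
    exact this.trans (sq_le_bq x)
  have n2 : (1 : ℝ) ≤ bq y y := by
    have := one_le_nm h hcd
    rw [← hv] at this
    exact this.trans (sq_le_bq y)
  have n3 : (1 : ℝ) ≤ bq x x + bq y y + 2 * bq x y := by
    have := one_le_nm h huv0
    rw [← huv, hneg] at this
    refine (this.trans (sq_le_bq _)).trans_eq ?_
    simp only [bq, Pi.sub_apply, Pi.neg_apply]
    push_cast
    ring
  set p := - bq x y with hp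
  set q := bq y y + bq x y with hq
  set r := bq x x + bq x y with hr
  have hp0 : 0 ≤ p := by linarith
  have hq0 : 0 ≤ q := by linarith
  have hr0 : 0 ≤ r := by linarith
  have hxx : bq x x = p + r := by rw [hp, hr]; ring
  have hyy : bq y y = p + q := by rw [hp, hq]; ring
  have hxy : bq x y = - p := by rw [hp]; ring
  have hsum : p * q + q * r + r * p = dq * (dv u v : ℝ) ^ 2 := by
    rw [← hg, hxx, hyy, hxy]; ring
  have k1 : 1 ≤ p + r := by rw [← hxx]; exact n1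
  have k2 : 1 ≤ p + q := by rw [← hyy]; exact n2
  have k3 : 1 ≤ q + r := by
    have : bq x x + bq y y + 2 * bq x y = q + r := by rw [hxx, hyy, hxy]; ring
    rw [← this]; exact n3
  have bp : p ≤ dq * (dv u v : ℝ) ^ 2 := by rw [← hsum]; nlinarith [mul_nonneg hq0 hr0]
  have bq' : q ≤ dq * (dv u v : ℝ) ^ 2 := by rw [← hsum]; nlinarith [mul_nonneg hp0 hr0]
  have br : r ≤ dq * (dv u v : ℝ) ^ 2 := by rw [← hsum]; nlinarith [mul_nonneg hp0 hq0]
  constructor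
  · refine (sq_le_bq x).trans ?_
    rw [hxx]; linarith
  · refine (sq_le_bq y).trans ?_
    rw [hyy]; linarith

end Fermat.Agent.LR
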