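import Fermat.Agent.LR.Defs
import Fermat.Agent.Ihara.Basic
import Mathlib.NumberTheory.Real.Irrational

/-!
# A positive definite quadratic form and the side function of a pair of cusps
-/

set_option autoImplicit false

noncomputable section

namespace Fermat.Agent.LR

open CongruenceSubgroup Matrix.SpecialLinearGroup Fermat.Agent.Ihara
open scoped MatrixGroups

/-! ### irrationality -/

lemma indep {x y z : ℚ} (h : (x : ℝ) + √2 * y + √3 * z = 0) : x = 0 ∧ y = 0 ∧ z = 0 := by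
  have h2 : (√2 : ℝ) ^ 2 = 2 := Real.sq_sqrt (by norm_num)
  have h3 : (√3 : ℝ) ^ 2 = 3 := Real.sq_sqrt (by norm_num)
  have i2 : Irrational √2 := irrational_sqrt_two
  have i3 : Irrational √3 := Nat.Prime.irrational_sqrt (by norm_num : Nat.Prime 3)
  have key : 2 * (x : ℝ) * y * √2 = 3 * z ^ 2 - x ^ 2 - 2 * y ^ 2 := by
    have e : ((x : ℝ) + √2 * y) ^ 2 = (√3 * z) ^ 2 := by
      have : (x : ℝ) + √2 * y = - (√3 * z) := by linarith
      rw [this]; ring
    have e2 : ((x : ℝ) + √2 * y) ^ 2 = x ^ 2 + 2 * x * y * √2 + √2 ^ 2 * y ^ 2 := by ring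
    have e3 : (√3 * (z : ℝ)) ^ 2 = √3 ^ 2 * z ^ 2 := by ring
    rw [e2, e3, h2, h3] at e
    linarith
  have hxy : x * y = 0 := by
    by_contra hne
    apply i2.ne_rat ((3 * z ^ 2 - x ^ 2 - 2 * y ^ 2) / (2 * (x * y)))
    push_cast
    have hne' : (x : ℝ) * y ≠ 0 := by exact_mod_cast hne
    rw [eq_div_iff (by simpa using hne')]
    linarith
  rcases mul_eq_zero.mp hxy with hx | hy
  · -- `√2 y + √3 z = 0`
    subst hx
    have e : 2 * (y : ℝ) ^ 2 = 3 * z ^ 2 := by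
      push_cast at key
      linarith
    have e' : 2 * y ^ 2 = 3 * z ^ 2 := by exact_mod_cast e
    by_cases hz : z = 0
    · subst hz
      have : y = 0 := by
        have : y ^ 2 = 0 := by linarith
        exact pow_eq_zero_iff (two_ne_zero) |>.mp this
      exact ⟨rfl, this, rfl⟩
    · exfalso
      have e6 : (2 * y / z) ^ 2 = 6 := by
        rw [div_pow, mul_pow]
        field_simp
        linarith
      have hs : IsSquare (6 : ℚ) := ⟨2 * y / z, by rw [← e6]; ring⟩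
      have h6 : ¬ IsSquare (6 : ℕ) := by decide +kernel
      apply h6
      have : IsSquare ((6 : ℕ) : ℚ) := by exact_mod_cast hs
      exact Rat.isSquare_natCast_iff.mp this
  · subst hy
    have e : (x : ℝ) + √3 * z = 0 := by
      push_cast at h
      linarith
    by_cases hz : z = 0
    · subst hz
      push_cast at e
      refine ⟨?_, rfl, rfl⟩
      have : (x : ℝ) = 0 := by linarith
      exact_mod_cast this
    · exfalso
      apply i3.ne_rat (- x / z)
      push_cast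
      have hz' : (z : ℝ) ≠ 0 := by exact_mod_cast hz
      field_simp
      linarith

/-! ### the form -/

/-- determinant of a pair of vectors -/
def dv (v w : Fin 2 → ℚ) : ℚ := v 0 * w 1 - v 1 * w 0

/-- the bilinear form -/
def bq (v w : Fin 2 → ℚ) : ℝ :=
  (((v 0 - v 1) * (w 0 - w 1) : ℚ) : ℝ) + √2 * ((v 1 * w 1 : ℚ) : ℝ) + √3 * ((v 0 * w 0 : ℚ) : ℝ)

lemma bq_ne_zero {v w : Fin 2 → ℚ} (h : dv v w ≠ 0) : bq v w ≠ 0 := by
  intro e
  obtain ⟨h1, h2, h3⟩ := indep e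
  apply h
  rw [dv]
  rcases mul_eq_zero.mp h2 with a | a <;> rcases mul_eq_zero.mp h3 with b | b <;>
    rw [a, b] at h1 <;> rw [a, b] <;> simp at h1 ⊢ <;>
    rcases h1 with h1 | h1 <;> simp_all

lemma bq_comm (v w : Fin 2 → ℚ) : bq v w = bq w v := by
  rw [bq, bq, mul_comm (v 0 - v 1), mul_comm (v 1), mul_comm (v 0) (w 0)]

lemma bq_smul (c d : ℚ) (v w : Fin 2 → ℚ) : bq (c • v) (d • w) = c * d * bq v w := by
  simp only [bq, Pi.smul_apply, smul_eq_mul]
  push_cast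
  ring

lemma dv_smul (c d : ℚ) (v w : Fin 2 → ℚ) : dv (c • v) (d • w) = c * d * dv v w := by
  simp only [dv, Pi.smul_apply, smul_eq_mul]
  ring

lemma bq_add_right (u v w : Fin 2 → ℚ) : bq u (v + w) = bq u v + bq u w := by
  simp only [bq, Pi.add_apply]
  push_cast
  ring

lemma bq_neg_right (u v : Fin 2 → ℚ) : bq u (-v) = - bq u v := by
  simp only [bq, Pi.neg_apply]
  push_cast
  ring

lemma sq_le_bq (v : Fin 2 → ℚ) : ((v 0 ^ 2 + v 1 ^ 2 : ℚ) : ℝ) ≤ bq v v := by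
  have h2 : (1 : ℝ) ≤ √2 := by rw [Real.one_le_sqrt]; norm_num
  have h3 : (1 : ℝ) ≤ √3 := by rw [Real.one_le_sqrt]; norm_num
  rw [bq]
  push_cast
  nlinarith [sq_nonneg ((v 0 : ℝ) - v 1), sq_nonneg (v 0 : ℝ), sq_nonneg (v 1 : ℝ)]

/-- the discriminant -/
def dq : ℝ := √2 + √3 + √2 * √3

lemma dq_pos : 0 < dq := by
  rw [dq]; positivity

lemma bq_gram (v w : Fin 2 → ℚ) :
    bq v v * bq w w - bq v w ^ 2 = dq * (dv v w : ℝ) ^ 2 := by
  simp only [bq, dv, dq]
  push_cast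
  ring

/-- the side function on vectors -/
def sg (v w : Fin 2 → ℚ) : ℤ := if 0 < (dv v w : ℝ) * bq v w then 1 else 0

lemma sg_smul {c d : ℚ} (hc : c ≠ 0) (hd : d ≠ 0) (v w : Fin 2 → ℚ) :
    sg (c • v) (d • w) = sg v w := by
  rw [sg, sg, bq_smul, dv_smul]
  congr 1
  have h : (0 : ℝ) < ((c : ℝ) * d) ^ 2 := by
    have : (c : ℝ) * d ≠ 0 := by exact_mod_cast mul_ne_zero hc hd
    positivity
  have e : (((c * d * dv v w : ℚ) : ℝ)) * ((c : ℝ) * d * bq v w) =
      ((c : ℝ) * d) ^ 2 * ((dv v w : ℝ) * bq v w) := by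
    push_cast
    ring
  rw [e, eq_iff_iff, mul_pos_iff_of_pos_left h]

/-! ### cusps -/

/-- the vector of a cusp -/
def vec (α : Cusp) : Fin 2 → ℚ := OnePoint.elim α (![1, 0] : Fin 2 → ℚ) (fun x => ![x, 1])

lemma vec_infty : vec OnePoint.infty = ![1, 0] := rfl
lemma vec_coe (x : ℚ) : vec (x : Cusp) = ![x, 1] := rfl

/-- `v` represents the cusp `α` -/
def Rp (α : Cusp) (v : Fin 2 → ℚ) : Prop := ∃ c : ℚ, c ≠ 0 ∧ v = c • vec α

lemma rp_vec (α : Cusp) : Rp α (vec α) := ⟨1, one_ne_zero, (one_smul _ _).symm⟩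

lemma Rp.smul {α : Cusp} {v : Fin 2 → ℚ} (h : Rp α v) {c : ℚ} (hc : c ≠ 0) : Rp α (c • v) := by
  obtain ⟨d, hd, rfl⟩ := h
  exact ⟨c * d, mul_ne_zero hc hd, by rw [mul_smul]⟩

/-- the image of a vector -/
def gv (g : GL (Fin 2) ℚ) (v : Fin 2 → ℚ) : Fin 2 → ℚ :=
  ![g 0 0 * v 0 + g 0 1 * v 1, g 1 0 * v 0 + g 1 1 * v 1]

@[simp] lemma gv_0 (g : GL (Fin 2) ℚ) (v : Fin 2 → ℚ) : gv g v 0 = g 0 0 * v 0 + g 0 1 * v 1 := rfl
@[simp] lemma gv_1 (g : GL (Fin 2) ℚ) (v : Fin 2 → ℚ) : gv g v 1 = g 1 0 * v 0 + g 1 1 * v 1 := rfl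

lemma gv_smul (g : GL (Fin 2) ℚ) (c : ℚ) (v : Fin 2 → ℚ) : gv g (c • v) = c • gv g v := by
  ext i
  fin_cases i <;> simp <;> ring

lemma gv_mul (g h : GL (Fin 2) ℚ) (v : Fin 2 → ℚ) : gv (g * h) v = gv g (gv h v) := by
  ext i
  fin_cases i
  · change (g * h) 0 0 * v 0 + (g * h) 0 1 * v 1 = _
    rw [mul_00, mul_01]; simp; ring
  · change (g * h) 1 0 * v 0 + (g * h) 1 1 * v 1 = _
    rw [mul_10, mul_11]; simp; ring

lemma dv_gv (g : GL (Fin 2) ℚ) (v w : Fin 2 → ℚ) : dv (gv g v) (gv g w) = dt g * dv v w := by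
  simp only [dv, gv_0, gv_1, dt]
  ring

lemma rp_gv {α : Cusp} {v : Fin 2 → ℚ} (h : Rp α v) (g : GL (Fin 2) ℚ) :
    Rp (g • α) (gv g v) := by
  obtain ⟨c, hc, rfl⟩ := h
  rw [gv_smul]
  refine Rp.smul ?_ hc
  have hdt := dt_ne g
  induction α using OnePoint.rec with
  | infty =>
    rw [OnePoint.smul_infty_eq_ite]
    split_ifs with h1
    · refine ⟨g 0 0, fun h0 => hdt (by rw [dt, h0, h1]; ring), ?_⟩
      ext i
      fin_cases i <;> simp [vec_infty, h1]
    · refine ⟨g 1 0, h1, ?_⟩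
      ext i
      fin_cases i
      · change g 0 0 * 1 + g 0 1 * 0 = g 1 0 * (g 0 0 / g 1 0)
        field_simp
        ring
      · change g 1 0 * 1 + g 1 1 * 0 = g 1 0 * 1
        ring
  | coe x =>
    rw [OnePoint.smul_some_eq_ite]
    split_ifs with h1
    · refine ⟨g 0 0 * x + g 0 1, fun h0 => hdt ?_, ?_⟩
      · rw [dt]
        have e1 : g 1 1 = - (g 1 0 * x) := by linarith
        have e2 : g 0 1 = - (g 0 0 * x) := by linarith
        rw [e1, e2]; ring
      · ext i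
        fin_cases i <;> simp [vec_coe, vec_infty, h1]
    · refine ⟨g 1 0 * x + g 1 1, h1, ?_⟩
      ext i
      fin_cases i
      · change g 0 0 * x + g 0 1 * 1 =
          (g 1 0 * x + g 1 1) * ((g 0 0 * x + g 0 1) / (g 1 0 * x + g 1 1))
        rw [mul_div_cancel₀ _ h1]
        ring
      · change g 1 0 * x + g 1 1 * 1 = (g 1 0 * x + g 1 1) * 1
        ring

/-- the side function -/
def e0 (α β : Cusp) : ℤ := sg (vec α) (vec β)

lemma e0_eq {α β : Cusp} {v w : Fin 2 → ℚ} (hv : Rp α v) (hw : Rp β w) : e0 α β = sg v w := by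
  obtain ⟨c, hc, rfl⟩ := hv
  obtain ⟨d, hd, rfl⟩ := hw
  rw [sg_smul hc hd]
  rfl

lemma dv_vec_ne_zero {α β : Cusp} (h : α ≠ β) : dv (vec α) (vec β) ≠ 0 := by
  induction α using OnePoint.rec with
  | infty =>
    induction β using OnePoint.rec with
    | infty => exact absurd rfl h
    | coe x => simp [vec_coe, vec_infty, dv]
  | coe x =>
    induction β using OnePoint.rec with
    | infty => simp [vec_coe, vec_infty, dv]
    | coe y =>
      simp only [vec_coe, dv]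
      simp
      intro e
      apply h
      congr 1
      linarith

lemma Rp.dv_ne_zero {α β : Cusp} (h : α ≠ β) {v w : Fin 2 → ℚ} (hv : Rp α v) (hw : Rp β w) :
    dv v w ≠ 0 := by
  obtain ⟨c, hc, rfl⟩ := hv
  obtain ⟨d, hd, rfl⟩ := hw
  rw [dv_smul]
  exact mul_ne_zero (mul_ne_zero hc hd) (dv_vec_ne_zero h)

lemma e0_self (α : Cusp) : e0 α α = 0 := by
  rw [e0, sg]
  have : dv (vec α) (vec α) = 0 := by rw [dv]; ring
  rw [this]
  simp

lemma sg_swap {v w : Fin 2 → ℚ} (h : dv v w ≠ 0) : sg w v = 1 - sg v w := by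
  have h1 : dv w v = - dv v w := by rw [dv, dv]; ring
  have h2 := bq_ne_zero h
  have h3 : (dv v w : ℝ) ≠ 0 := by exact_mod_cast h
  have h4 : (dv v w : ℝ) * bq v w ≠ 0 := mul_ne_zero h3 h2
  rw [sg, sg, h1, bq_comm w v]
  push_cast
  rcases lt_or_gt_of_ne h4 with h5 | h5
  · rw [if_pos (by linarith), if_neg (by linarith)]; norm_num
  · rw [if_neg (by linarith), if_pos h5]; norm_num

lemma e0_swap {α β : Cusp} (h : α ≠ β) : e0 β α = 1 - e0 α β := sg_swap (dv_vec_ne_zero h)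

/-- integral representative -/
lemma exists_rp (α : Cusp) : ∃ a b : ℤ, (a ≠ 0 ∨ b ≠ 0) ∧ Rp α ![(a : ℚ), (b : ℚ)] := by
  induction α using OnePoint.rec with
  | infty => exact ⟨1, 0, Or.inl one_ne_zero, 1, one_ne_zero, by
      ext i; fin_cases i <;> simp [vec_infty]⟩
  | coe x =>
    refine ⟨x.num, x.den, Or.inr (by exact_mod_cast x.den_ne_zero), x.den,
      by exact_mod_cast x.den_ne_zero, ?_⟩
    ext i
    fin_cases i
    · simp [vec_coe]
    · simp [vec_coe]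

end Fermat.Agent.LR
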