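import Fermat.Agent.LR.Defs
import Fermat.Agent.Ihara.Cos

/-!
# Hecke correspondences between different groups
-/

set_option autoImplicit false

noncomputable section

namespace Fermat.Agent.LR

open CongruenceSubgroup Matrix.SpecialLinearGroup Fermat.Agent.Ihara Fermat.Agent.AnJac
open scoped MatrixGroups

lemma mapGLQ_inj {g h : SL(2,ℤ)} (e : mapGL ℚ g = mapGL ℚ h) : g = h := by
  have h1 := congrArg (fun A : GL (Fin 2) ℚ => (A : Matrix (Fin 2) (Fin 2) ℚ)) e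
  ext i j
  have h2 := congrFun (congrFun h1 i) j
  simpa using h2

/-- A finite family of matrices `A i`, together with the right action of `Γ'` on the cosets
`Γ (A i)`. -/
structure WF (Γ Γ' : Subgroup SL(2,ℤ)) (ι : Type*) where
  A : ι → GL (Fin 2) ℚ
  g : Γ' → ι → Γ
  s : Γ' → ι → ι
  spec : ∀ (γ : Γ') (i : ι), A i * mapGL ℚ (γ : SL(2,ℤ)) = mapGL ℚ (g γ i : SL(2,ℤ)) * A (s γ i)
  s_one : ∀ i, s 1 i = i
  s_mul : ∀ (γ γ' : Γ') (i : ι), s (γ * γ') i = s γ' (s γ i)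

namespace WF

variable {Γ Γ' Γ'' : Subgroup SL(2,ℤ)} {ι κ : Type*} (F : WF Γ Γ' ι) (G : WF Γ' Γ'' κ)

lemma g_one (i : ι) : F.g 1 i = 1 := by
  have h := F.spec 1 i
  rw [F.s_one, OneMemClass.coe_one, map_one, mul_one] at h
  have h2 : mapGL ℚ (F.g 1 i : SL(2,ℤ)) = mapGL ℚ (1 : SL(2,ℤ)) := by
    rw [map_one]
    exact (mul_eq_right.mp h.symm)
  exact Subtype.ext (mapGLQ_inj h2)

lemma g_mul (γ γ' : Γ') (i : ι) : F.g (γ * γ') i = F.g γ i * F.g γ' (F.s γ i) := by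
  have h := F.spec (γ * γ') i
  rw [Subgroup.coe_mul, map_mul, ← mul_assoc, F.spec, mul_assoc, F.spec, ← mul_assoc, ← map_mul,
    F.s_mul] at h
  have h2 := mul_right_cancel h
  rw [← Subgroup.coe_mul] at h2
  exact (Subtype.ext (mapGLQ_inj h2)).symm

/-- the permutation as an equivalence -/
def sE (γ : Γ') : ι ≃ ι where
  toFun := F.s γ
  invFun := F.s γ⁻¹
  left_inv i := by rw [← F.s_mul, mul_inv_cancel, F.s_one]
  right_inv i := by rw [← F.s_mul, inv_mul_cancel, F.s_one]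

/-- composition of families -/
def comp : WF Γ Γ'' (ι × κ) where
  A x := F.A x.1 * G.A x.2
  g γ x := F.g (G.g γ x.2) x.1
  s γ x := (F.s (G.g γ x.2) x.1, G.s γ x.2)
  spec γ x := by
    change F.A x.1 * G.A x.2 * _ = _ * (F.A (F.s (G.g γ x.2) x.1) * G.A (G.s γ x.2))
    rw [mul_assoc, G.spec, ← mul_assoc, F.spec, mul_assoc]
  s_one x := by
    change (F.s (G.g 1 x.2) x.1, G.s 1 x.2) = x
    rw [G.g_one, F.s_one, G.s_one]
  s_mul γ γ' x := by
    change (F.s (G.g (γ * γ') x.2) x.1, G.s (γ * γ') x.2) =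
      (F.s (G.g γ' (G.s γ x.2)) (F.s (G.g γ x.2) x.1), G.s γ' (G.s γ x.2))
    rw [G.g_mul, F.s_mul, G.s_mul]

lemma comp_A (x : ι × κ) : (F.comp G).A x = F.A x.1 * G.A x.2 := rfl

variable [Fintype ι] [Fintype κ]

/-- the operator on homomorphisms -/
def T {M : Type*} [AddCommGroup M] : (Additive Γ →+ M) →+ (Additive Γ' →+ M) where
  toFun φ :=
    { toFun := fun x => ∑ i, φ (Additive.ofMul (F.g (Additive.toMul x) i))
      map_zero' := by
        refine Finset.sum_eq_zero fun i _ => ?_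
        rw [toMul_zero, F.g_one, ofMul_one, map_zero]
      map_add' := by
        intro x y
        rw [toMul_add]
        simp only [F.g_mul, ofMul_mul, map_add]
        rw [Finset.sum_add_distrib]
        congr 1
        exact Equiv.sum_comp (F.sE (Additive.toMul x))
          (fun i => φ (Additive.ofMul (F.g (Additive.toMul y) i))) }
  map_zero' := by
    ext x
    simp
  map_add' φ ψ := by
    ext x
    change ∑ i, (φ + ψ) _ = ∑ i, φ _ + ∑ i, ψ _
    rw [← Finset.sum_add_distrib]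
    rfl

lemma T_apply {M : Type*} [AddCommGroup M] (φ : Additive Γ →+ M) (γ : Γ') :
    F.T φ (Additive.ofMul γ) = ∑ i, φ (Additive.ofMul (F.g γ i)) := rfl

lemma T_comp {M : Type*} [AddCommGroup M] (φ : Additive Γ →+ M) :
    (F.comp G).T φ = G.T (F.T φ) := by
  refine AddMonoidHom.ext fun x => ?_
  obtain ⟨γ, rfl⟩ := Additive.ofMul.surjective x
  rw [T_apply, T_apply, Fintype.sum_prod_type_right]
  rfl

variable {ι' : Type*} [Fintype ι']

/-- the operator depends only on the set of cosets (up to a central factor) -/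
theorem T_congr {M : Type*} [AddCommGroup M] (F' : WF Γ Γ' ι') (e : ι ≃ ι') (c : GL (Fin 2) ℚ)
    (hc : ∀ x, c * x = x * c)
    (h : ∀ i, ∃ g : Γ, F'.A (e i) = c * (mapGL ℚ (g : SL(2,ℤ)) * F.A i))
    (uniq : ∀ (i j : ι') (g : Γ), F'.A i = mapGL ℚ (g : SL(2,ℤ)) * F'.A j → i = j)
    (φ : Additive Γ →+ M) : F'.T φ = F.T φ := by
  choose k hk using h
  have key : ∀ (γ : Γ') (i : ι), F'.s γ (e i) = e (F.s γ i) ∧
      F'.g γ (e i) = k i * F.g γ i * (k (F.s γ i))⁻¹ := by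
    intro γ i
    have h1 := F'.spec γ (e i)
    have h2 : F'.A (e i) * mapGL ℚ (γ : SL(2,ℤ)) =
        mapGL ℚ ((k i * F.g γ i * (k (F.s γ i))⁻¹ : Γ) : SL(2,ℤ)) * F'.A (e (F.s γ i)) := by
      rw [hk, hk, hc, hc, ← mul_assoc, Subgroup.coe_mul, Subgroup.coe_mul, map_mul, map_mul,
        Subgroup.coe_inv, map_inv, mul_assoc _ _ (mapGL ℚ (k (F.s γ i) : SL(2,ℤ)) * _),
        inv_mul_cancel_left, mul_assoc _ c, hc, ← mul_assoc, mul_assoc _ (F.A i), F.spec]
      simp only [mul_assoc]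
    have h3 : F'.A (F'.s γ (e i)) = mapGL ℚ (((F'.g γ (e i))⁻¹ *
        (k i * F.g γ i * (k (F.s γ i))⁻¹) : Γ) : SL(2,ℤ)) * F'.A (e (F.s γ i)) := by
      rw [Subgroup.coe_mul, map_mul, mul_assoc, ← h2, h1, Subgroup.coe_inv, map_inv,
        inv_mul_cancel_left]
    have h4 := uniq _ _ _ h3
    refine ⟨h4, ?_⟩
    rw [h4, h2] at h1
    exact (Subtype.ext (mapGLQ_inj (mul_right_cancel h1))).symm
  refine AddMonoidHom.ext fun x => ?_
  obtain ⟨γ, rfl⟩ := Additive.ofMul.surjective x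
  rw [T_apply, T_apply, ← Equiv.sum_comp e]
  have h1 : ∀ i, φ (Additive.ofMul (F'.g γ (e i))) = φ (Additive.ofMul (F.g γ i)) +
      (φ (Additive.ofMul (k i)) - φ (Additive.ofMul (k (F.s γ i)))) := by
    intro i
    rw [(key γ i).2, ofMul_mul, ofMul_mul, map_add, map_add, ofMul_inv, map_neg]
    abel
  rw [Finset.sum_congr rfl fun i _ => h1 i, Finset.sum_add_distrib, Finset.sum_sub_distrib]
  have h2 : ∑ i, φ (Additive.ofMul (k (F.s γ i))) = ∑ i, φ (Additive.ofMul (k i)) :=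
    Equiv.sum_comp (F.sE γ) (fun i => φ (Additive.ofMul (k i)))
  rw [h2, sub_self, add_zero]

/-- telescoping for matrices in a bigger group on which the homomorphism extends -/
theorem T_card {M : Type*} [AddCommGroup M] {Δ : Subgroup SL(2,ℤ)} (F : WF Γ Γ' ι)
    (a : ι → Δ) (u : Γ → Δ) (v : Γ' → Δ)
    (h : ∀ γ i, a i * v γ = u (F.g γ i) * a (F.s γ i)) (φ : Additive Γ →+ M) (ψ : Additive Δ →+ M)
    (hφ : ∀ γ, φ (Additive.ofMul γ) = ψ (Additive.ofMul (u γ))) (γ : Γ') :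
    F.T φ (Additive.ofMul γ) = Fintype.card ι • ψ (Additive.ofMul (v γ)) := by
  rw [T_apply]
  have h1 : ∀ i, φ (Additive.ofMul (F.g γ i)) = ψ (Additive.ofMul (v γ)) +
      (ψ (Additive.ofMul (a i)) - ψ (Additive.ofMul (a (F.s γ i)))) := by
    intro i
    have h2 := congrArg (fun x => ψ (Additive.ofMul x)) (h γ i)
    simp only [ofMul_mul, map_add] at h2
    rw [hφ, add_comm, ← sub_eq_iff_eq_add'.mpr h2]
    abel
  rw [Finset.sum_congr rfl fun i _ => h1 i, Finset.sum_add_distrib, Finset.sum_sub_distrib]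
  have h2 : ∑ i, ψ (Additive.ofMul (a (F.s γ i))) = ∑ i, ψ (Additive.ofMul (a i)) :=
    Equiv.sum_comp (F.sE γ) (fun i => ψ (Additive.ofMul (a i)))
  rw [h2, sub_self, add_zero, Finset.sum_const, Finset.card_univ]

end WF

section mk

variable {Γ Γ' : Subgroup SL(2,ℤ)} {ι : Type*} (A : ι → GL (Fin 2) ℚ)
    (tr : ∀ (γ : Γ') (i : ι), ∃ (g : Γ) (j : ι), A i * mapGL ℚ (γ : SL(2,ℤ)) =
      mapGL ℚ (g : SL(2,ℤ)) * A j)
    (uniq : ∀ (i j : ι) (g : Γ), A i = mapGL ℚ (g : SL(2,ℤ)) * A j → i = j)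

include tr uniq in
lemma WF.mk_aux : ∃ (g : Γ' → ι → Γ) (s : Γ' → ι → ι),
    (∀ (γ : Γ') (i : ι), A i * mapGL ℚ (γ : SL(2,ℤ)) = mapGL ℚ (g γ i : SL(2,ℤ)) * A (s γ i)) ∧
    (∀ i, s 1 i = i) ∧ (∀ (γ γ' : Γ') (i : ι), s (γ * γ') i = s γ' (s γ i)) := by
  choose g s hs using tr
  refine ⟨g, s, hs, ?_, ?_⟩
  · intro i
    have h := hs 1 i
    rw [OneMemClass.coe_one, map_one, mul_one] at h
    exact (uniq _ _ _ h).symm
  · intro γ γ' i
    have h := hs (γ * γ') i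
    rw [Subgroup.coe_mul, map_mul, ← mul_assoc, hs, mul_assoc, hs, ← mul_assoc, ← map_mul] at h
    symm
    refine uniq _ _ ((g γ i * g γ' (s γ i))⁻¹ * g (γ * γ') i) ?_
    rw [Subgroup.coe_mul, map_mul, mul_assoc, ← h, Subgroup.coe_inv, map_inv, Subgroup.coe_mul,
      inv_mul_cancel_left]

/-- construct the action from existence and uniqueness -/
def WF.mk' : WF Γ Γ' ι where
  A := A
  g := (WF.mk_aux A tr uniq).choose
  s := (WF.mk_aux A tr uniq).choose_spec.choose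
  spec := (WF.mk_aux A tr uniq).choose_spec.choose_spec.1
  s_one := (WF.mk_aux A tr uniq).choose_spec.choose_spec.2.1
  s_mul := (WF.mk_aux A tr uniq).choose_spec.choose_spec.2.2

end mk

/-! ### the families -/

section Fam

variable (N : ℕ)

/-- `T_ℓ` -/
def wT (ℓ : ℕ) [hℓ : Fact ℓ.Prime] (hℓN : ¬ ℓ ∣ N) :
    WF (Gamma0 N) (Gamma0 N) (OnePoint (ZMod ℓ)) where
  A := rq ℓ
  g := (hfT N ℓ hℓN).g
  s := (hfT N ℓ hℓN).s
  spec γ i := spec_rat hℓN γ i
  s_one i := ((hfT N ℓ hℓN).one_spec i).1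
  s_mul γ γ' i := (hfT N ℓ hℓN).s_mul γ γ' i

lemma wT_T (ℓ : ℕ) [hℓ : Fact ℓ.Prime] (hℓN : ¬ ℓ ∣ N) {M : Type*} [AddCommGroup M]
    (φ : Additive (Gamma0 N) →+ M) : (wT N ℓ hℓN).T φ = (hfT N ℓ hℓN).T φ := rfl

end Fam

end Fermat.Agent.LR
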