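import Fermat.Agent.LR.Hom
import Fermat.Agent.Ihara.Cos2

/-!
# Integral matrices
-/

set_option autoImplicit false

noncomputable section

namespace Fermat.Agent.LR

open CongruenceSubgroup Matrix.SpecialLinearGroup Fermat.Agent.Ihara Fermat.Agent.AnJac
open scoped MatrixGroups

/-- integral matrices `(a, b; N c, d)` of determinant `n` -/
def IM (N : ℕ) (n : ℤ) (x : GL (Fin 2) ℚ) : Prop :=
  ∃ a b c d : ℤ, x 0 0 = a ∧ x 0 1 = b ∧ x 1 0 = (N * c : ℤ) ∧ x 1 1 = d ∧ a * d - b * (N * c) = n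

lemma IM.mul {N : ℕ} {n m : ℤ} {x y : GL (Fin 2) ℚ} (hx : IM N n x) (hy : IM N m y) :
    IM N (n * m) (x * y) := by
  obtain ⟨a, b, c, d, h1, h2, h3, h4, h5⟩ := hx
  obtain ⟨a', b', c', d', h1', h2', h3', h4', h5'⟩ := hy
  refine ⟨a * a' + b * (N * c'), a * b' + b * d', c * a' + d * c', N * c * b' + d * d', ?_, ?_, ?_,
    ?_, ?_⟩
  · rw [mul_00, h1, h2, h1', h3']; push_cast; ring
  · rw [mul_01, h1, h2, h2', h4']; push_cast; ring
  · rw [mul_10, h3, h4, h1', h3']; push_cast; ring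
  · rw [mul_11, h3, h4, h2', h4']; push_cast; ring
  · rw [← h5, ← h5']; ring

lemma IM_mapGL {N : ℕ} {γ : SL(2,ℤ)} (h : γ ∈ Gamma0 N) : IM N 1 (mapGL ℚ γ) := by
  rw [Gamma0_mem, ZMod.intCast_zmod_eq_zero_iff_dvd] at h
  obtain ⟨c, hc⟩ := h
  have hd := Matrix.SpecialLinearGroup.det_coe γ
  rw [Matrix.det_fin_two] at hd
  refine ⟨γ 0 0, γ 0 1, c, γ 1 1, mapGL_00 γ, mapGL_01 γ, ?_, mapGL_11 γ, ?_⟩
  · rw [mapGL_10, hc]
  · rw [← hc]; exact hd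

lemma IM.exists_SL {N : ℕ} {x : GL (Fin 2) ℚ} (h : IM N 1 x) :
    ∃ γ : Gamma0 N, x = mapGL ℚ (γ : SL(2,ℤ)) := by
  obtain ⟨a, b, c, d, h1, h2, h3, h4, h5⟩ := h
  obtain ⟨γ, e00, e01, e10, e11⟩ := exists_SL4 h5
  refine ⟨⟨γ, ?_⟩, ?_⟩
  · rw [Gamma0_mem, ZMod.intCast_zmod_eq_zero_iff_dvd, e10]
    exact dvd_mul_right _ _
  · apply gl_ext
    · rw [mapGL_00, e00, h1]
    · rw [mapGL_01, e01, h2]
    · rw [mapGL_10, e10, h3]
    · rw [mapGL_11, e11, h4]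

variable {ℓ : ℕ}

lemma rq_00 (hℓ : ℓ ≠ 0) (i : OnePoint (ZMod ℓ)) : (rq ℓ i) 0 0 = ea ℓ i := by
  rw [rq_val hℓ]; rfl
lemma rq_01 (hℓ : ℓ ≠ 0) (i : OnePoint (ZMod ℓ)) : (rq ℓ i) 0 1 = eb ℓ i := by
  rw [rq_val hℓ]; rfl
lemma rq_10 (hℓ : ℓ ≠ 0) (i : OnePoint (ZMod ℓ)) : (rq ℓ i) 1 0 = 0 := by
  rw [rq_val hℓ]; rfl
lemma rq_11 (hℓ : ℓ ≠ 0) (i : OnePoint (ZMod ℓ)) : (rq ℓ i) 1 1 = ed ℓ i := by
  rw [rq_val hℓ]; rfl

lemma ea_infty : ea ℓ OnePoint.infty = ℓ := rfl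
lemma eb_infty : eb ℓ OnePoint.infty = 0 := rfl
lemma ed_infty : ed ℓ OnePoint.infty = 1 := rfl
lemma ea_coe (x : ZMod ℓ) : ea ℓ (x : OnePoint (ZMod ℓ)) = 1 := rfl
lemma eb_coe (x : ZMod ℓ) : eb ℓ (x : OnePoint (ZMod ℓ)) = x.val := rfl
lemma ed_coe (x : ZMod ℓ) : ed ℓ (x : OnePoint (ZMod ℓ)) = ℓ := rfl

lemma IM_rq (hℓ : ℓ ≠ 0) (N : ℕ) (i : OnePoint (ZMod ℓ)) : IM N ℓ (rq ℓ i) :=
  ⟨ea ℓ i, eb ℓ i, 0, ed ℓ i, rq_00 hℓ i, rq_01 hℓ i, by rw [rq_10 hℓ]; simp, rq_11 hℓ i, by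
    rw [mul_zero, mul_zero, sub_zero, ea_ed]⟩

/-- **the key lemma** -/
theorem IM.exists_rq [hℓ : Fact ℓ.Prime] {N : ℕ} (hN : ¬ ℓ ∣ N) {n : ℤ} {x : GL (Fin 2) ℚ}
    (h : IM N (n * ℓ) x) : ∃ (y : GL (Fin 2) ℚ) (i : OnePoint (ZMod ℓ)), IM N n y ∧
      x = y * rq ℓ i := by
  obtain ⟨a, b, c, d, h1, h2, h3, h4, h5⟩ := h
  have hℓ0 : ℓ ≠ 0 := hℓ.out.ne_zero
  have hℓz : (ℓ : ℤ) ≠ 0 := by exact_mod_cast hℓ0
  have hp : Prime (ℓ : ℤ) := Nat.prime_iff_prime_int.mp hℓ.out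
  have hNℓ : ¬ (ℓ : ℤ) ∣ N := fun h => hN (Int.natCast_dvd_natCast.mp h)
  by_cases hc : (ℓ : ℤ) ∣ a ∧ (ℓ : ℤ) ∣ c
  · obtain ⟨⟨a', rfl⟩, ⟨c', rfl⟩⟩ := hc
    have hdet : a' * d - b * (N * c') = n := by
      apply mul_right_cancel₀ hℓz
      rw [← h5]; ring
    by_cases hn : n = 0
    · exfalso
      have := dt_ne x
      rw [dt, h1, h2, h3, h4] at this
      apply this
      have h6 : ℓ * a' * d - b * (N * (ℓ * c')) = 0 := by rw [h5, hn, zero_mul]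
      exact_mod_cast h6
    have hne : ((a' : ℤ) : ℚ) * (d : ℚ) - (b : ℚ) * ((N * c' : ℤ) : ℚ) ≠ 0 := by
      have : (n : ℚ) ≠ 0 := by exact_mod_cast hn
      rw [← hdet] at this
      push_cast at this ⊢
      exact this
    refine ⟨g4 a' b ((N * c' : ℤ) : ℚ) d, OnePoint.infty, ⟨a', b, c', d, g4_00 hne, g4_01 hne,
      g4_10 hne, g4_11 hne, hdet⟩, ?_⟩
    apply gl_ext
    · rw [mul_00, g4_00 hne, g4_01 hne, rq_00 hℓ0, rq_10 hℓ0, ea_infty, h1]; push_cast; ring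
    · rw [mul_01, g4_00 hne, g4_01 hne, rq_01 hℓ0, rq_11 hℓ0, eb_infty, ed_infty, h2]
      push_cast; ring
    · rw [mul_10, g4_10 hne, g4_11 hne, rq_00 hℓ0, rq_10 hℓ0, ea_infty, h3]; push_cast; ring
    · rw [mul_11, g4_10 hne, g4_11 hne, rq_01 hℓ0, rq_11 hℓ0, eb_infty, ed_infty, h4]
      push_cast; ring
  · -- the second column is a multiple of the first
    obtain ⟨t, ht1, ht2⟩ : ∃ t : ZMod ℓ, ((b : ℤ) : ZMod ℓ) = t * a ∧
        ((d : ℤ) : ZMod ℓ) = t * (N * c : ℤ) := by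
      have hdet : ((a : ℤ) : ZMod ℓ) * d - b * ((N * c : ℤ) : ZMod ℓ) = 0 := by
        have := congrArg (fun z : ℤ => (z : ZMod ℓ)) h5
        push_cast at this ⊢
        rw [this, ZMod.natCast_self, mul_zero]
      by_cases ha : ((a : ℤ) : ZMod ℓ) = 0
      · have hc' : ((N * c : ℤ) : ZMod ℓ) ≠ 0 := by
          intro h6
          rw [ZMod.intCast_zmod_eq_zero_iff_dvd] at h6 ha
          exact hc ⟨ha, (hp.dvd_or_dvd h6).resolve_left hNℓ⟩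
        refine ⟨d * ((N * c : ℤ) : ZMod ℓ)⁻¹, ?_, ?_⟩
        · rw [ha, mul_zero]
          rw [ha, zero_mul, zero_sub, neg_eq_zero] at hdet
          exact (mul_eq_zero.mp hdet).resolve_right hc'
        · rw [mul_assoc, inv_mul_cancel₀ hc', mul_one]
      · refine ⟨b * (a : ZMod ℓ)⁻¹, ?_, ?_⟩
        · rw [mul_assoc, inv_mul_cancel₀ ha, mul_one]
        · apply mul_left_cancel₀ ha
          rw [sub_eq_zero] at hdet
          rw [hdet]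
          field_simp
    haveI : NeZero ℓ := ⟨hℓ0⟩
    obtain ⟨u, hu⟩ : (ℓ : ℤ) ∣ b - a * t.val := by
      rw [← ZMod.intCast_zmod_eq_zero_iff_dvd]
      push_cast
      rw [ht1, ZMod.natCast_zmod_val]; ring
    obtain ⟨v, hv⟩ : (ℓ : ℤ) ∣ d - N * c * t.val := by
      rw [← ZMod.intCast_zmod_eq_zero_iff_dvd]
      push_cast
      rw [ht2, ZMod.natCast_zmod_val]; push_cast; ring
    have hdet : a * v - u * (N * c) = n := by
      apply mul_right_cancel₀ hℓz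
      rw [← h5]
      linear_combination (-a) * hv + N * c * hu
    by_cases hn : n = 0
    · exfalso
      have := dt_ne x
      rw [dt, h1, h2, h3, h4] at this
      apply this
      have h6 : a * d - b * (N * c) = 0 := by rw [h5, hn, zero_mul]
      exact_mod_cast h6
    have hne : ((a : ℤ) : ℚ) * (v : ℚ) - (u : ℚ) * ((N * c : ℤ) : ℚ) ≠ 0 := by
      have : (n : ℚ) ≠ 0 := by exact_mod_cast hn
      rw [← hdet] at this
      push_cast at this ⊢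
      exact this
    have hu' : (b : ℚ) - a * t.val = ℓ * u := by exact_mod_cast hu
    have hv' : (d : ℚ) - N * c * t.val = ℓ * v := by exact_mod_cast hv
    refine ⟨g4 a u ((N * c : ℤ) : ℚ) v, (t : OnePoint (ZMod ℓ)), ⟨a, u, c, v, g4_00 hne,
      g4_01 hne, g4_10 hne, g4_11 hne, hdet⟩, ?_⟩
    apply gl_ext
    · rw [mul_00, g4_00 hne, g4_01 hne, rq_00 hℓ0, rq_10 hℓ0, ea_coe, h1]; push_cast; ring
    · rw [mul_01, g4_00 hne, g4_01 hne, rq_01 hℓ0, rq_11 hℓ0, eb_coe, ed_coe, h2]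
      push_cast; linear_combination hu'
    · rw [mul_10, g4_10 hne, g4_11 hne, rq_00 hℓ0, rq_10 hℓ0, ea_coe, h3]; push_cast; ring
    · rw [mul_11, g4_10 hne, g4_11 hne, rq_01 hℓ0, rq_11 hℓ0, eb_coe, ed_coe, h4]
      push_cast; linear_combination hv'

lemma IM.exists_rq1 [hℓ : Fact ℓ.Prime] {N : ℕ} (hN : ¬ ℓ ∣ N) {x : GL (Fin 2) ℚ}
    (h : IM N ℓ x) : ∃ (y : Gamma0 N) (i : OnePoint (ZMod ℓ)),
      x = mapGL ℚ (y : SL(2,ℤ)) * rq ℓ i := by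
  obtain ⟨y, i, hy, hi⟩ := IM.exists_rq hN (n := 1) (by rwa [one_mul])
  obtain ⟨γ, rfl⟩ := hy.exists_SL
  exact ⟨γ, i, hi⟩

/-- uniqueness, with a denominator prime to `ℓ` allowed -/
lemma rq_uniq' [hℓ : Fact ℓ.Prime] {q : ℤ} (hq : q ≠ 0) (hqℓ : ¬ (ℓ : ℤ) ∣ q)
    {i j : OnePoint (ZMod ℓ)} {x : GL (Fin 2) ℚ} {a b d : ℤ} (h1 : x 0 0 = a)
    (h2 : q * x 0 1 = b) (h4 : x 1 1 = d) (hx : dt x = 1) (h : rq ℓ i = x * rq ℓ j) : i = j := by
  have hℓ0 : ℓ ≠ 0 := hℓ.out.ne_zero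
  have hℓQ : (ℓ : ℚ) ≠ 0 := by exact_mod_cast hℓ0
  have hp : Prime (ℓ : ℤ) := Nat.prime_iff_prime_int.mp hℓ.out
  have e10 := congrArg (fun z : GL (Fin 2) ℚ => z 1 0) h
  have e00 := congrArg (fun z : GL (Fin 2) ℚ => z 0 0) h
  have e01 := congrArg (fun z : GL (Fin 2) ℚ => z 0 1) h
  have e11 := congrArg (fun z : GL (Fin 2) ℚ => z 1 1) h
  simp only [mul_00, mul_01, mul_10, mul_11, rq_00 hℓ0, rq_01 hℓ0, rq_10 hℓ0, rq_11 hℓ0, mul_zero,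
    add_zero] at e10 e00 e01 e11
  have hpos : ∀ i, 0 < ea ℓ i := by
    intro i
    induction i using OnePoint.rec with
    | infty => rw [ea_infty]; exact_mod_cast hℓ.out.pos
    | coe x => rw [ea_coe]; exact one_pos
  have hpj : (0 : ℚ) < ea ℓ j := by exact_mod_cast hpos j
  have hpi : (0 : ℚ) < ea ℓ i := by exact_mod_cast hpos i
  have h10 : x 1 0 = 0 := by
    rcases mul_eq_zero.mp e10.symm with h | h
    · exact h
    · exact absurd h hpj.ne'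
  rw [dt, h10, mul_zero, sub_zero, h1, h4] at hx
  have hx' : a * d = 1 := by exact_mod_cast hx
  have ha : a = 1 := by
    rcases Int.eq_one_or_neg_one_of_mul_eq_one hx' with h | h
    · exact h
    · exfalso
      rw [h1, h] at e00
      push_cast at e00
      linarith
  have hd : d = 1 := by rw [ha, one_mul] at hx'; exact hx'
  rw [h1, ha] at e00 e01
  rw [h10, h4, hd] at e11
  have hea : ea ℓ i = ea ℓ j := by
    have : (ea ℓ i : ℚ) = ea ℓ j := by rw [e00]; simp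
    exact_mod_cast this
  have hb : q * (eb ℓ i - eb ℓ j) = b * ed ℓ j := by
    have : (q : ℚ) * (eb ℓ i - eb ℓ j) = b * ed ℓ j := by
      rw [e01, ← h2]; push_cast; ring
    exact_mod_cast this
  have h1ℓ : (1 : ℤ) ≠ ℓ := by exact_mod_cast hℓ.out.one_lt.ne
  haveI : NeZero ℓ := ⟨hℓ0⟩
  induction i using OnePoint.rec with
  | infty =>
    induction j using OnePoint.rec with
    | infty => rfl
    | coe y => exact absurd hea.symm (by rw [ea_coe, ea_infty]; exact h1ℓ)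
  | coe x =>
    induction j using OnePoint.rec with
    | infty => exact absurd hea (by rw [ea_coe, ea_infty]; exact h1ℓ)
    | coe y =>
      rw [eb_coe, eb_coe, ed_coe] at hb
      have h5 : (ℓ : ℤ) ∣ q * ((x.val : ℤ) - y.val) := by rw [hb]; exact dvd_mul_left _ _
      rw [zmod_eq_of_dvd ((hp.dvd_or_dvd h5).resolve_left hqℓ)]

lemma rq_uniq [hℓ : Fact ℓ.Prime] {i j : OnePoint (ZMod ℓ)} {g : SL(2,ℤ)}
    (h : rq ℓ i = mapGL ℚ g * rq ℓ j) : i = j := by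
  refine rq_uniq' (q := 1) (b := g 0 1) one_ne_zero ?_ (mapGL_00 g) ?_ (mapGL_11 g) (dt_mapGL g) h
  · intro h
    have := Int.eq_one_of_dvd_one (by positivity) h
    exact hℓ.out.one_lt.ne' (by exact_mod_cast this)
  · rw [mapGL_01]; push_cast; rw [one_mul]

end Fermat.Agent.LR
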