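import Mathlib

/-!
# Irreducible two-dimensional representations: group theory
-/

set_option autoImplicit false

namespace Fermat.Agent.LR

open Matrix

section

variable {k : Type*} [Field k]

lemma anti2 {X Y : Matrix (Fin 2) (Fin 2) k} (hX : X.trace = 0) (hY : Y.trace = 0) :
    X * Y + Y * X = (X * Y).trace • (1 : Matrix (Fin 2) (Fin 2) k) := by
  rw [Matrix.trace_fin_two] at hX hY
  have h1 : X 1 1 = -X 0 0 := by linear_combination hX
  have h2 : Y 1 1 = -Y 0 0 := by linear_combination hY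
  rw [Matrix.trace_fin_two]
  ext i j
  fin_cases i <;> fin_cases j <;>
    simp [Matrix.mul_apply, Fin.sum_univ_two, h1, h2] <;> ring

lemma ch2 (X : Matrix (Fin 2) (Fin 2) k) :
    X * X = X.trace • X - X.det • (1 : Matrix (Fin 2) (Fin 2) k) := by
  rw [Matrix.trace_fin_two, Matrix.det_fin_two]
  ext i j
  fin_cases i <;> fin_cases j <;>
    simp [Matrix.mul_apply, Fin.sum_univ_two] <;> ring

lemma ker_line {n : Matrix (Fin 2) (Fin 2) k} (hn : n ≠ 0) {v w : Fin 2 → k} (hv : v ≠ 0)
    (h1 : n *ᵥ v = 0) (h2 : n *ᵥ w = 0) : ∃ c : k, w = c • v := by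
  have e1 := fun i => congrFun h1 i
  have e2 := fun i => congrFun h2 i
  simp only [Matrix.mulVec, dotProduct, Fin.sum_univ_two, Pi.zero_apply] at e1 e2
  have hd : v 0 * w 1 - v 1 * w 0 = 0 := by
    by_contra hne
    apply hn
    ext i j
    rw [Matrix.zero_apply]
    fin_cases j
    · apply (mul_eq_zero.mp (?_ : (v 0 * w 1 - v 1 * w 0) * n i 0 = 0)).resolve_left hne
      linear_combination w 1 * e1 i - v 1 * e2 i
    · apply (mul_eq_zero.mp (?_ : (v 0 * w 1 - v 1 * w 0) * n i 1 = 0)).resolve_left hne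
      linear_combination v 0 * e2 i - w 0 * e1 i
  by_cases h0 : v 0 = 0
  · have h1' : v 1 ≠ 0 := by
      intro h
      apply hv
      ext i
      fin_cases i
      · exact h0
      · exact h
    refine ⟨w 1 / v 1, ?_⟩
    ext i
    fin_cases i
    · simp only [Fin.zero_eta, Pi.smul_apply, smul_eq_mul, h0, mul_zero]
      rw [h0, zero_mul, zero_sub, neg_eq_zero] at hd
      exact (mul_eq_zero.mp hd).resolve_left h1'
    · simp only [Fin.mk_one, Pi.smul_apply, smul_eq_mul]
      field_simp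
  · refine ⟨w 0 / v 0, ?_⟩
    ext i
    fin_cases i
    · simp only [Fin.zero_eta, Pi.smul_apply, smul_eq_mul]
      field_simp
    · simp only [Fin.mk_one, Pi.smul_apply, smul_eq_mul]
      field_simp
      linear_combination hd

variable {Γ : Type*} [Group Γ] (ρ : Γ →* Matrix (Fin 2) (Fin 2) k)

/-- no stable line -/
def NoLine : Prop := ∀ v : Fin 2 → k, v ≠ 0 → ∃ g, ∀ c : k, ρ g *ᵥ v ≠ c • v

variable {ρ}

lemma rho_inv_mul (g : Γ) : ρ g⁻¹ * ρ g = 1 := by rw [← map_mul, inv_mul_cancel, map_one]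
lemma rho_mul_inv (g : Γ) : ρ g * ρ g⁻¹ = 1 := by rw [← map_mul, mul_inv_cancel, map_one]

/-- a normal subgroup all of whose elements have the double eigenvalue `±1` -/
theorem pm_one_of_trace (hirr : NoLine ρ) (h2 : (2 : k) ≠ 0) (H : Subgroup Γ) [hH : H.Normal]
    (hdet : ∀ h ∈ H, (ρ h).det = 1) (htr : ∀ h ∈ H, (ρ h).trace = 2 ∨ (ρ h).trace = -2) :
    ∀ h ∈ H, ρ h = 1 ∨ ρ h = -1 := by
  intro h hh
  by_contra hcon
  rw [not_or] at hcon
  have hne4 : (4 : k) ≠ 0 := by
    have : (4 : k) = 2 * 2 := by norm_num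
    rw [this]; exact mul_ne_zero h2 h2
  set T := ρ h with hT
  obtain ⟨ε, hε, hε2⟩ : ∃ ε : k, T.trace = 2 * ε ∧ (ε = 1 ∨ ε = -1) := by
    rcases htr h hh with e | e
    · exact ⟨1, by rw [e]; ring, Or.inl rfl⟩
    · exact ⟨-1, by rw [e]; ring, Or.inr rfl⟩
  have hεε : ε * ε = 1 := by rcases hε2 with rfl | rfl <;> ring
  have hTne : T - ε • (1 : Matrix (Fin 2) (Fin 2) k) ≠ 0 := by
    intro h0
    rw [sub_eq_zero] at h0
    rcases hε2 with rfl | rfl
    · exact hcon.1 (by rw [h0, one_smul])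
    · exact hcon.2 (by rw [h0, neg_smul, one_smul])
  have hch := ch2 T
  rw [hdet h hh, one_smul, hε] at hch
  -- the unipotent element
  set u := h * h with hu
  have huH : u ∈ H := mul_mem hh hh
  set n := ρ u - 1 with hn
  have hρu : ρ u = 1 + n := by rw [hn]; abel
  have hn1 : n = (2 * ε) • (T - ε • (1 : Matrix (Fin 2) (Fin 2) k)) := by
    rw [hn, hu, map_mul, ← hT, hch, smul_sub, smul_smul, mul_assoc, hεε, mul_one, sub_sub,
      ← one_add_one_eq_two (R := k), add_smul 1 1 (1 : Matrix (Fin 2) (Fin 2) k), one_smul]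
  have hεne : ε ≠ 0 := by rintro rfl; rw [mul_zero] at hεε; exact zero_ne_one hεε
  have hnne : n ≠ 0 := by
    rw [hn1]; exact smul_ne_zero (mul_ne_zero h2 hεne) hTne
  have hnt : n.trace = 0 := by
    rw [hn1, Matrix.trace_smul, Matrix.trace_sub, Matrix.trace_smul, Matrix.trace_one, hε,
      Fintype.card_fin]
    simp only [smul_eq_mul]
    push_cast
    ring
  have hdu := hdet u huH
  have hndet : n.det = 0 := by
    have e : (ρ u).det = n.det + n.trace + 1 := by
      rw [hρu, Matrix.det_fin_two, Matrix.det_fin_two, Matrix.trace_fin_two]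
      simp only [Matrix.add_apply, Matrix.one_apply_eq, Fin.isValue, ne_eq, zero_ne_one,
        not_false_eq_true, Matrix.one_apply_ne, one_ne_zero]
      ring
    rw [hdu, hnt] at e
    linear_combination -e
  have hnn : n * n = 0 := by rw [ch2 n, hnt, hndet, zero_smul, zero_smul, sub_zero]
  obtain ⟨v, hv, hnv⟩ := Matrix.exists_mulVec_eq_zero_iff.mpr hndet
  obtain ⟨g, hg⟩ := hirr v hv
  -- the conjugate
  set u' := g⁻¹ * u * g with hu'
  have hu'H : u' ∈ H := by
    have := hH.conj_mem u huH g⁻¹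
    rwa [inv_inv] at this
  set n' := ρ g⁻¹ * n * ρ g with hn'
  have hρu' : ρ u' = 1 + n' := by
    rw [hu', map_mul, map_mul, hρu, mul_add, mul_one, add_mul, rho_inv_mul]
  have hn't : n'.trace = 0 := by
    rw [hn', mul_assoc, Matrix.trace_mul_comm, mul_assoc, rho_mul_inv, mul_one, hnt]
  have hn'n' : n' * n' = 0 := by
    have : n' * n' = ρ g⁻¹ * (n * (ρ g * ρ g⁻¹) * n) * ρ g := by
      rw [hn']; simp only [mul_assoc]
    rw [this, rho_mul_inv, mul_one, hnn, mul_zero, zero_mul]
  set t := (n * n').trace with ht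
  have htr1 : (ρ (u * u')).trace = 2 + t := by
    rw [map_mul, hρu, hρu', add_mul, one_mul, mul_add, mul_one, Matrix.trace_add, Matrix.trace_add,
      Matrix.trace_add, hnt, hn't, Matrix.trace_one, Fintype.card_fin, ← ht]
    push_cast; ring
  have htr2 : (ρ (u * u * u')).trace = 2 + 2 * t := by
    have e : ρ (u * u * u') = 1 + n + n + n' + (n * n') + (n * n') := by
      rw [map_mul, map_mul, hρu, hρu']
      have : (1 + n) * (1 + n) = 1 + n + n := by
        rw [add_mul, one_mul, mul_add, mul_one, hnn, add_zero]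
      rw [this]
      simp only [add_mul, mul_add, one_mul, mul_one]
      abel
    rw [e]
    simp only [Matrix.trace_add, hnt, hn't, Matrix.trace_one, Fintype.card_fin, ← ht]
    push_cast; ring
  have ht0 : t = 0 := by
    have a1 := htr (u * u') (mul_mem huH hu'H)
    have a2 := htr (u * u * u') (mul_mem (mul_mem huH huH) hu'H)
    rw [htr1] at a1
    rw [htr2] at a2
    rcases a1 with a1 | a1
    · linear_combination a1
    · exfalso
      rcases a2 with a2 | a2
      · have : (2 : k) * 4 = 0 := by linear_combination (-1 : k) * a2 + 2 * a1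
        exact (mul_ne_zero h2 hne4) this
      · have : (4 : k) = 0 := by linear_combination 2 * a1 - a2
        exact hne4 this
  have hanti := anti2 hnt hn't
  rw [← ht, ht0, zero_smul] at hanti
  -- `n' v ∈ ker n`
  have h3 : n *ᵥ (n' *ᵥ v) = 0 := by
    rw [Matrix.mulVec_mulVec]
    have e : n * n' = -(n' * n) := by rw [eq_neg_iff_add_eq_zero]; exact hanti
    rw [e, Matrix.neg_mulVec, ← Matrix.mulVec_mulVec, hnv, Matrix.mulVec_zero, neg_zero]
  obtain ⟨c, hc⟩ := ker_line hnne hv hnv h3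
  have h4 : (c * c) • v = 0 := by
    have : n' *ᵥ (n' *ᵥ v) = 0 := by rw [Matrix.mulVec_mulVec, hn'n', Matrix.zero_mulVec]
    rw [hc, Matrix.mulVec_smul, hc, smul_smul] at this
    exact this
  have hc0 : c = 0 := by
    rcases smul_eq_zero.mp h4 with h | h
    · exact mul_self_eq_zero.mp h
    · exact absurd h hv
  rw [hc0, zero_smul] at hc
  have h5 : n *ᵥ (ρ g *ᵥ v) = 0 := by
    have : ρ g *ᵥ (n' *ᵥ v) = 0 := by rw [hc, Matrix.mulVec_zero]
    rw [Matrix.mulVec_mulVec, hn', ← mul_assoc, ← mul_assoc, rho_mul_inv, one_mul,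
      ← Matrix.mulVec_mulVec] at this
    exact this
  obtain ⟨c', hc'⟩ := ker_line hnne hv hnv h5
  exact hg c' hc'

/-- an odd involution cannot be central -/
theorem false_of_comm (hirr : NoLine ρ) (h2 : (2 : k) ≠ 0) {c : Γ} (hc2 : c * c = 1)
    (hcd : (ρ c).det = -1) (hcomm : ∀ g, ρ g * ρ c = ρ c * ρ g) : False := by
  have hCC : ρ c * ρ c = 1 := by rw [← map_mul, hc2, map_one]
  have hch := ch2 (ρ c)
  rw [hCC, hcd, neg_smul, one_smul, sub_neg_eq_add, right_eq_add] at hch
  have ht : (ρ c).trace = 0 := by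
    rcases smul_eq_zero.mp hch with h | h
    · exact h
    · rw [h, Matrix.det_zero] at hcd
      exact absurd (neg_eq_zero.mp hcd.symm) one_ne_zero
  have hdet : (ρ c - 1).det = 0 := by
    have e : (ρ c - 1).det = (ρ c).det - (ρ c).trace + 1 := by
      rw [Matrix.det_fin_two, Matrix.det_fin_two, Matrix.trace_fin_two]
      simp only [Matrix.sub_apply, Matrix.one_apply_eq, Fin.isValue, ne_eq, zero_ne_one,
        not_false_eq_true, Matrix.one_apply_ne, one_ne_zero]
      ring
    rw [e, hcd, ht]; ring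
  have hne : ρ c - 1 ≠ 0 := by
    intro h
    rw [sub_eq_zero] at h
    rw [h, Matrix.det_one] at hcd
    apply h2
    linear_combination hcd
  obtain ⟨v, hv, hnv⟩ := Matrix.exists_mulVec_eq_zero_iff.mpr hdet
  obtain ⟨g, hg⟩ := hirr v hv
  have h3 : (ρ c - 1) *ᵥ (ρ g *ᵥ v) = 0 := by
    rw [Matrix.mulVec_mulVec, sub_mul, one_mul, ← hcomm, ← mul_one (ρ g), mul_assoc, one_mul,
      ← mul_sub, ← Matrix.mulVec_mulVec, hnv, Matrix.mulVec_zero]
  obtain ⟨c', hc'⟩ := ker_line hne hv hnv h3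
  exact hg c' hc'

/-- eigenvalue `±1` -/
lemma eig_iff {T : Matrix (Fin 2) (Fin 2) k} {ε : k} (hε : ε * ε = 1) :
    (∃ v : Fin 2 → k, v ≠ 0 ∧ T *ᵥ v = ε • v) ↔ T.trace = ε * (1 + T.det) := by
  have e : (T - ε • (1 : Matrix (Fin 2) (Fin 2) k)).det = T.det - ε * T.trace + 1 := by
    rw [Matrix.det_fin_two, Matrix.det_fin_two, Matrix.trace_fin_two]
    simp only [Matrix.sub_apply, Matrix.smul_apply, Matrix.one_apply_eq, Fin.isValue, ne_eq,
      zero_ne_one, not_false_eq_true, Matrix.one_apply_ne, one_ne_zero, smul_eq_mul]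
    linear_combination hε
  have h1 : (∃ v : Fin 2 → k, v ≠ 0 ∧ T *ᵥ v = ε • v) ↔
      (T - ε • (1 : Matrix (Fin 2) (Fin 2) k)).det = 0 := by
    rw [← Matrix.exists_mulVec_eq_zero_iff]
    refine exists_congr fun v => and_congr_right fun _ => ?_
    rw [Matrix.sub_mulVec, Matrix.smul_mulVec, Matrix.one_mulVec, sub_eq_zero]
  rw [h1, e]
  constructor
  · intro h
    linear_combination (-ε) * h - T.trace * hε
  · intro h
    rw [h]
    linear_combination (-(1 + T.det)) * hε

lemma eig_pow {T : Matrix (Fin 2) (Fin 2) k} {ε : k} {v : Fin 2 → k} (h : T *ᵥ v = ε • v) (m : ℕ) :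
    (T ^ m) *ᵥ v = (ε ^ m) • v := by
  induction m with
  | zero => rw [pow_zero, pow_zero, Matrix.one_mulVec, one_smul]
  | succ m ih =>
    rw [pow_succ, ← Matrix.mulVec_mulVec, h, Matrix.mulVec_smul, ih, smul_smul, pow_succ, mul_comm]

end

end Fermat.Agent.LR
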