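import Fermat.Agent.LR.Fin
import Mathlib.Algebra.BigOperators.Finprod

/-!
# The intersection pairing
-/

set_option autoImplicit false

noncomputable section

namespace Fermat.Agent.LR

open CongruenceSubgroup Matrix.SpecialLinearGroup Fermat.Agent.Ihara
open scoped MatrixGroups

/-- the summand -/
def sm (g g' : GL (Fin 2) ℚ) (α β : Cusp) (h : SL(2,ℤ)) : ℤ :=
  e0 (g • mq h • α) (g • mq h • β) - e0 (g' • mq h • α) (g' • mq h • β)

/-- the difference of side functions summed over `H` -/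
def cc (H : Subgroup SL(2,ℤ)) (g g' : GL (Fin 2) ℚ) (α β : Cusp) : ℤ := ∑ᶠ h : H, sm g g' α β h

variable {H : Subgroup SL(2,ℤ)} {g g' g'' : GL (Fin 2) ℚ} {α β : Cusp}

lemma sm_fin (hg : 0 < dt g) (hg' : 0 < dt g') (α β : Cusp) :
    (Function.support (sm g g' α β)).Finite := by
  refine (finite_ne hg hg' α β).subset fun h hh => ?_
  intro e
  exact hh (sub_eq_zero.mpr e)

lemma sm_finH (hg : 0 < dt g) (hg' : 0 < dt g') (α β : Cusp) :
    (Function.support fun h : H => sm g g' α β h).Finite :=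
  (sm_fin hg hg' α β).preimage Subtype.val_injective.injOn

lemma dt_pos_mul (hg : 0 < dt g) (hg' : 0 < dt g') : 0 < dt (g * g') := by
  rw [dt_mul]; positivity

lemma dt_pos_mq (h : SL(2,ℤ)) : 0 < dt (mq h) := by rw [dt_mq]; norm_num

lemma dt_pos_one : 0 < dt (1 : GL (Fin 2) ℚ) := by rw [dt_one]; norm_num

lemma dt_pos_inv (hg : 0 < dt g) : 0 < dt g⁻¹ := by rw [dt_inv]; positivity

lemma cc_add (hg : 0 < dt g) (hg' : 0 < dt g') (hg'' : 0 < dt g'') :
    cc H g g' α β + cc H g' g'' α β = cc H g g'' α β := by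
  rw [cc, cc, ← finsum_add_distrib (sm_finH hg hg' α β) (sm_finH hg' hg'' α β), cc]
  refine finsum_congr fun h => ?_
  rw [sm, sm, sm]
  ring

lemma cc_self : cc H g g α β = 0 := by
  rw [cc]
  simp [sm]

lemma cc_right {k : SL(2,ℤ)} (hk : k ∈ H) :
    cc H (g * mq k) (g' * mq k) α β = cc H g g' α β := by
  rw [cc, cc, ← finsum_comp_equiv (Equiv.mulLeft (⟨k, hk⟩ : H)) (f := fun h : H => sm g g' α β h)]
  refine finsum_congr fun h => ?_
  have e : mq ((Equiv.mulLeft (⟨k, hk⟩ : H)) h : H) = mq k * mq h := by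
    change mapGL ℚ (k * (h : SL(2,ℤ))) = _
    rw [map_mul]
  rw [sm, sm, e]
  simp only [mul_smul]

/-- the intersection number -/
def iota (H : Subgroup SL(2,ℤ)) (γ : SL(2,ℤ)) (α β : Cusp) : ℤ := cc H (mq γ⁻¹) 1 α β

lemma iota_mul {γ γ' : SL(2,ℤ)} (hγ : γ ∈ H) (_hγ' : γ' ∈ H) (α β : Cusp) :
    iota H (γ * γ') α β = iota H γ α β + iota H γ' α β := by
  rw [iota, mul_inv_rev]
  have e : mq (γ'⁻¹ * γ⁻¹) = mq γ'⁻¹ * mq γ⁻¹ := map_mul _ _ _
  rw [e, ← cc_add (dt_pos_mul (dt_pos_mq _) (dt_pos_mq _)) (dt_pos_mq γ⁻¹) dt_pos_one]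
  have h1 : cc H (mq γ'⁻¹ * mq γ⁻¹) (mq γ⁻¹) α β = cc H (mq γ'⁻¹) 1 α β := by
    have := cc_right (g := mq γ'⁻¹) (g' := 1) (α := α) (β := β) (inv_mem hγ)
    rwa [one_mul] at this
  rw [h1, add_comm]
  rfl

lemma iota_inv {γ k : SL(2,ℤ)} (hk : k ∈ H) (α β : Cusp) :
    iota H γ (mq k • α) (mq k • β) = iota H γ α β := by
  rw [iota, iota, cc, cc, ← finsum_comp_equiv (Equiv.mulRight (⟨k, hk⟩ : H))
    (f := fun h : H => sm (mq γ⁻¹) 1 α β h)]
  refine finsum_congr fun h => ?_
  have e : mq ((Equiv.mulRight (⟨k, hk⟩ : H)) h : H) = mq h * mq k := by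
    change mapGL ℚ ((h : SL(2,ℤ)) * k) = _
    rw [map_mul]
  rw [sm, sm, e]
  simp only [mul_smul]

/-! ### triangles -/

/-- the reduced condition -/
def Red (x y : Fin 2 → ℚ) : Prop := bq x y ≤ 0 ∧ bq x (-x - y) ≤ 0 ∧ bq y (-x - y) ≤ 0

open Classical in
lemma tri {x y : Fin 2 → ℚ} (h : dv x y ≠ 0) :
    sg x y + sg y (-x - y) + sg (-x - y) x =
      if 0 < dv x y then (if Red x y then 0 else 1) else (if Red x y then 3 else 2) := by
  have d1 : dv y (-x - y) = dv x y := by simp only [dv, Pi.sub_apply, Pi.neg_apply]; ring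
  have d2 : dv (-x - y) x = dv x y := by simp only [dv, Pi.sub_apply, Pi.neg_apply]; ring
  have d3 : dv x (-x - y) ≠ 0 := by
    intro e
    apply h
    rw [← d2]
    have : dv (-x - y) x = - dv x (-x - y) := by rw [dv, dv]; ring
    rw [this, e, neg_zero]
  have n1 := bq_ne_zero h
  have n2 := bq_ne_zero (d1.symm ▸ h : dv y (-x - y) ≠ 0)
  have n3 := bq_ne_zero d3
  have e2 : bq x (-x - y) = - bq x x - bq x y := by
    rw [sub_eq_add_neg, bq_add_right, bq_neg_right, bq_neg_right]; ring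
  have e3 : bq y (-x - y) = - bq x y - bq y y := by
    rw [sub_eq_add_neg, bq_add_right, bq_neg_right, bq_neg_right, bq_comm y x]; ring
  have e4 : bq (-x - y) (-x - y) = bq x x + bq y y + 2 * bq x y := by
    simp only [bq, Pi.sub_apply, Pi.neg_apply]; push_cast; ring
  have pos : ∀ v : Fin 2 → ℚ, v ≠ 0 → 0 < bq v v := by
    intro v hv
    refine lt_of_lt_of_le ?_ (sq_le_bq v)
    have : (0 : ℚ) < v 0 ^ 2 + v 1 ^ 2 := by
      have h0 : (0 : ℚ) ≤ v 0 ^ 2 + v 1 ^ 2 := by positivity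
      rcases h0.lt_or_eq with h' | h'
      · exact h'
      · exfalso
        apply hv
        ext i
        fin_cases i
        · change v 0 = 0
          have : v 0 ^ 2 = 0 := by nlinarith [sq_nonneg (v 0), sq_nonneg (v 1)]
          exact pow_eq_zero_iff two_ne_zero |>.mp this
        · change v 1 = 0
          have : v 1 ^ 2 = 0 := by nlinarith [sq_nonneg (v 0), sq_nonneg (v 1)]
          exact pow_eq_zero_iff two_ne_zero |>.mp this
    exact_mod_cast this
  have px := pos x (fun e => h (by rw [e, dv]; simp))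
  have py := pos y (fun e => h (by rw [e, dv]; simp))
  have pz := pos (-x - y) (fun e => h (by rw [← d2, e, dv]; simp))
  rw [e4] at pz
  have hsy : bq (-x - y) x = bq x (-x - y) := bq_comm _ _
  have hR : Red x y ↔ (bq x y ≤ 0 ∧ bq x (-x - y) ≤ 0 ∧ bq y (-x - y) ≤ 0) := Iff.rfl
  simp only [sg, d1, d2]
  rw [hsy]
  set p := bq x y
  set q := bq y (-x - y)
  set r := bq x (-x - y)
  have s1 : r + p < 0 := by linarith
  have s2 : q + p < 0 := by linarith
  have s3 : q + r < 0 := by linarith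
  rcases lt_or_gt_of_ne h with hd | hd
  · have hd' : (dv x y : ℝ) < 0 := by exact_mod_cast hd
    have hn : ¬ (0 < dv x y) := by linarith
    rw [if_neg hn]
    have t : ∀ z : ℝ, z ≠ 0 → ((0 < (dv x y : ℝ) * z) ↔ z < 0) := by
      intro z hz
      constructor
      · intro h1; by_contra h2; push Not at h2; nlinarith
      · intro h1; exact mul_pos_of_neg_of_neg hd' h1
    rw [if_congr (t p n1) rfl rfl, if_congr (t q n2) rfl rfl, if_congr (t r n3) rfl rfl]
    rcases lt_or_gt_of_ne n1 with a1 | a1 <;> rcases lt_or_gt_of_ne n2 with a2 | a2 <;>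
      rcases lt_or_gt_of_ne n3 with a3 | a3
    · rw [if_pos a1, if_pos a2, if_pos a3, if_pos (hR.mpr ⟨a1.le, a3.le, a2.le⟩)]; norm_num
    · rw [if_pos a1, if_pos a2, if_neg (by linarith), if_neg (by rw [hR]; rintro ⟨_, h2, _⟩; linarith)]; norm_num
    · rw [if_pos a1, if_neg (by linarith), if_pos a3, if_neg (by rw [hR]; rintro ⟨_, _, h2⟩; linarith)]; norm_num
    · exfalso; linarith
    · rw [if_neg (by linarith), if_pos a2, if_pos a3, if_neg (by rw [hR]; rintro ⟨h2, _, _⟩; linarith)]; norm_num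
    · exfalso; linarith
    · exfalso; linarith
    · exfalso; linarith
  · have hd' : (0 : ℝ) < (dv x y : ℝ) := by exact_mod_cast hd
    rw [if_pos hd]
    have t : ∀ z : ℝ, ((0 < (dv x y : ℝ) * z) ↔ 0 < z) := fun z => mul_pos_iff_of_pos_left hd'
    rw [if_congr (t p) rfl rfl, if_congr (t q) rfl rfl, if_congr (t r) rfl rfl]
    rcases lt_or_gt_of_ne n1 with a1 | a1 <;> rcases lt_or_gt_of_ne n2 with a2 | a2 <;>
      rcases lt_or_gt_of_ne n3 with a3 | a3
    · rw [if_neg (by linarith), if_neg (by linarith), if_neg (by linarith),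
        if_pos (hR.mpr ⟨a1.le, a3.le, a2.le⟩)]; norm_num
    · rw [if_neg (by linarith), if_neg (by linarith), if_pos a3, if_neg (by rw [hR]; rintro ⟨_, h2, _⟩; linarith)]; norm_num
    · rw [if_neg (by linarith), if_pos a2, if_neg (by linarith), if_neg (by rw [hR]; rintro ⟨_, _, h2⟩; linarith)]; norm_num
    · exfalso; linarith
    · rw [if_pos a1, if_neg (by linarith), if_neg (by linarith), if_neg (by rw [hR]; rintro ⟨h2, _, _⟩; linarith)]; norm_num
    · exfalso; linarith
    · exfalso; linarith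
    · exfalso; linarith

/-- telescoping -/
lemma finsum_tele {f : SL(2,ℤ) → ℤ} {k : ℤ} (hf : {h | f h ≠ k}.Finite) {γ : SL(2,ℤ)} (hγ : γ ∈ H) :
    ∑ᶠ h : H, (f (γ⁻¹ * h) - f h) = 0 := by
  have h1 : (Function.support fun h : H => f h - k).Finite := by
    refine (hf.preimage Subtype.val_injective.injOn).subset fun h hh => ?_
    intro e
    exact hh (sub_eq_zero.mpr e)
  have h2 : (Function.support fun h : H => f (γ⁻¹ * h) - k).Finite := by
    have : Function.Injective fun h : H => γ⁻¹ * (h : SL(2,ℤ)) := fun a b e =>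
      Subtype.ext (mul_left_cancel e)
    refine (hf.preimage (f := fun h : H => γ⁻¹ * (h : SL(2,ℤ))) this.injOn).subset fun h hh => ?_
    intro e
    exact hh (sub_eq_zero.mpr e)
  have e1 : ∑ᶠ h : H, (f (γ⁻¹ * h) - f h) =
      ∑ᶠ h : H, ((fun h : H => f (γ⁻¹ * h) - k) h - (fun h : H => f h - k) h) :=
    finsum_congr fun h => by ring
  rw [e1, finsum_sub_distrib h2 h1, sub_eq_zero,
    ← finsum_comp_equiv (Equiv.mulLeft (⟨γ⁻¹, inv_mem hγ⟩ : H)) (f := fun h : H => f h - k)]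
  rfl

/-- the triangle function is almost constant -/
lemma tri_const (α β κ : Cusp) : ∃ k : ℤ, {h : SL(2,ℤ) | e0 (mq h • α) (mq h • β) +
    e0 (mq h • β) (mq h • κ) - e0 (mq h • α) (mq h • κ) ≠ k}.Finite := by
  classical
  by_cases h1 : α = β
  · refine ⟨0, ?_⟩
    subst h1
    convert Set.finite_empty
    ext h
    simp [e0_self]
  by_cases h2 : β = κ
  · refine ⟨0, ?_⟩
    subst h2
    convert Set.finite_empty
    ext h
    simp [e0_self]
  by_cases h3 : α = κ
  · refine ⟨1, ?_⟩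
    subst h3
    convert Set.finite_empty
    ext h
    have hne : mq h • α ≠ mq h • β := fun e => h1 (smul_left_cancel _ e)
    simp [e0_self, e0_swap hne]
  obtain ⟨a, b, hab, hu⟩ := exists_rp α
  obtain ⟨c, d, hcd, hv⟩ := exists_rp β
  obtain ⟨e, f, hef, hw⟩ := exists_rp κ
  set u : Fin 2 → ℚ := ![(a : ℚ), (b : ℚ)]
  set v : Fin 2 → ℚ := ![(c : ℚ), (d : ℚ)]
  set w : Fin 2 → ℚ := ![(e : ℚ), (f : ℚ)]
  have duv := hu.dv_ne_zero h1 hv
  have dvw := hv.dv_ne_zero h2 hw
  have dwu := hw.dv_ne_zero (Ne.symm h3) hu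
  set x : Fin 2 → ℚ := dv v w • u with hx
  set y : Fin 2 → ℚ := dv w u • v with hy
  have hz : -x - y = dv u v • w := by
    ext i
    fin_cases i
    · simp [hx, hy, dv]; ring
    · simp [hx, hy, dv]; ring
  have rx : Rp α x := hu.smul dvw
  have ry : Rp β y := hv.smul dwu
  have rz : Rp κ (-x - y) := by rw [hz]; exact hw.smul duv
  have hxy : dv x y ≠ 0 := rx.dv_ne_zero h1 ry
  have hxi : x = ![((( c * f - d * e) * a : ℤ) : ℚ), (((c * f - d * e) * b : ℤ) : ℚ)] := by
    ext i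
    fin_cases i <;> simp [hx, dv, u, v, w]
  have hyi : y = ![((( e * b - f * a) * c : ℤ) : ℚ), (((e * b - f * a) * d : ℤ) : ℚ)] := by
    ext i
    fin_cases i <;> simp [hy, dv, u, v, w]
  have hfin := finite_red _ _ _ _ hxi hyi hxy
  refine ⟨(if 0 < dv x y then 1 else 2) - 1, hfin.subset fun h hh => ?_⟩
  by_contra hred
  apply hh
  have hne : mq h • α ≠ mq h • κ := fun e => h3 (smul_left_cancel _ e)
  have hg : gv (mq h) (-x - y) = - gv (mq h) x - gv (mq h) y := by
    ext i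
    fin_cases i <;> simp <;> ring
  have hd : dv (gv (mq h) x) (gv (mq h) y) = dv x y := by rw [dv_gv, dt_mq, one_mul]
  have ht := tri (x := gv (mq h) x) (y := gv (mq h) y) (by rw [hd]; exact hxy)
  rw [hd, ← hg, ← e0_eq (rp_gv rx (mq h)) (rp_gv ry (mq h)), ← e0_eq (rp_gv ry (mq h)) (rp_gv rz (mq h)),
    ← e0_eq (rp_gv rz (mq h)) (rp_gv rx (mq h)), e0_swap hne] at ht
  have hred' : ¬ Red (gv (mq h) x) (gv (mq h) y) := by
    rw [Red, ← hg]
    exact hred
  rw [if_neg hred', if_neg hred'] at ht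
  rw [← ht]
  ring

lemma iota_ms {γ : SL(2,ℤ)} (hγ : γ ∈ H) : IsMS (iota H γ) := by
  intro α β κ
  obtain ⟨k, hk⟩ := tri_const α β κ
  rw [← sub_eq_zero]
  have f1 := sm_finH (H := H) (dt_pos_mq γ⁻¹) dt_pos_one α β
  have f2 := sm_finH (H := H) (dt_pos_mq γ⁻¹) dt_pos_one β κ
  have f3 := sm_finH (H := H) (dt_pos_mq γ⁻¹) dt_pos_one α κ
  have f12 : (Function.support fun h : H => sm (mq γ⁻¹) 1 α β h + sm (mq γ⁻¹) 1 β κ h).Finite :=
    (f1.union f2).subset (Function.support_add _ _)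
  rw [iota, iota, iota, cc, cc, cc, ← finsum_add_distrib f1 f2, ← finsum_sub_distrib f12 f3,
    ← finsum_tele hk hγ]
  refine finsum_congr fun h => ?_
  have e : ∀ c : Cusp, mq (γ⁻¹ * h) • c = mq γ⁻¹ • mq h • c := by
    intro c
    rw [← mul_smul]
    congr 1
    exact map_mul _ _ _
  simp only [sm, e, one_smul]
  ring

/-- `iota` is in `Sym` -/
lemma iota_mem {M : ℕ} {γ : SL(2,ℤ)} (hγ : γ ∈ Gamma0 M) : iota (Gamma0 M) γ ∈ S M :=
  ⟨iota_ms hγ, fun k hk => by
    funext α β
    exact iota_inv hk α β⟩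

/-- the intersection pairing -/
def IP (M : ℕ) (D : Dv) : X M where
  toFun γ := ev (iota (Gamma0 M) (Additive.toMul γ : Gamma0 M)) D
  map_zero' := by
    have h := iota_mul (one_mem (Gamma0 M)) (one_mem (Gamma0 M))
    have h0 : iota (Gamma0 M) 1 = 0 := by
      funext α β
      have := h α β
      rw [mul_one] at this
      change _ = (0 : ℤ)
      linarith
    rw [toMul_zero]
    change ev (iota (Gamma0 M) 1) D = 0
    rw [h0]
    induction D using Finsupp.induction_linear with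
    | zero => simp
    | add a b ha hb => rw [map_add, ha, hb, add_zero]
    | single c n => rw [ev_single]; simp
  map_add' γ γ' := by
    rw [toMul_add, Subgroup.coe_mul]
    have h0 : iota (Gamma0 M) ((Additive.toMul γ : Gamma0 M) * (Additive.toMul γ' : Gamma0 M) : SL(2,ℤ)) =
        iota (Gamma0 M) (Additive.toMul γ : Gamma0 M) +
          iota (Gamma0 M) (Additive.toMul γ' : Gamma0 M) := by
      funext α β
      exact iota_mul (Additive.toMul γ).2 (Additive.toMul γ').2 α β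
    rw [h0]
    induction D using Finsupp.induction_linear with
    | zero => simp
    | add a b ha hb => rw [map_add, map_add, map_add, ha, hb]; ring
    | single c n => rw [ev_single, ev_single, ev_single]; simp [mul_add]

lemma IP_apply (M : ℕ) (D : Dv) (γ : Gamma0 M) :
    IP M D (Additive.ofMul γ) = ev (iota (Gamma0 M) γ) D := rfl

lemma IP_add (M : ℕ) (D D' : Dv) : IP M (D + D') = IP M D + IP M D' := by
  ext γ
  exact map_add (ev (iota (Gamma0 M) (Additive.toMul γ : Gamma0 M))) D D'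

/-- (a) -/
lemma IP_eq_zero {M : ℕ} {D : Dv} (h : ∀ φ ∈ S M, ev φ D = 0) : IP M D = 0 := by
  ext γ
  exact h _ (iota_mem (Additive.toMul γ).2)

end Fermat.Agent.LR
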