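import Fermat.Agent.LR.Alg
import Fermat.Agent.IharaL.Par

/-!
# Hecke operators on symbols and homomorphisms
-/

set_option autoImplicit false
set_option linter.unusedSectionVars false

noncomputable section

namespace Fermat.Agent.LR

open CongruenceSubgroup Matrix.SpecialLinearGroup Fermat.Agent.Ihara Fermat.Agent.AnJac
open Fermat.Agent.IharaL (homOf homOf_apply inSym_TS homOf_TS mapGL_tz tz KC exists_sym exists_sym
  kc_E es_eq_zero)
open scoped MatrixGroups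

lemma TS_add {k : Type*} [AddCommGroup k] (ℓ : ℕ) (φ ψ : Cusp → Cusp → k) :
    TS ℓ (φ + ψ) = TS ℓ φ + TS ℓ ψ := by
  rw [TS, TS, TS]
  simp only [tr_add, Finset.sum_add_distrib]
  abel

variable {P : Set ℕ} {M : ℕ}

/-- the homomorphism of a symbol -/
def hO (M : ℕ) : S M →+ X M :=
  AddMonoidHom.mk' (fun φ : S M => homOf φ.2) fun φ ψ => by
    refine AddMonoidHom.ext fun x => ?_
    rfl

lemma hO_apply (φ : S M) (γ : Gamma0 M) :
    hO M φ (Additive.ofMul γ) = (φ : Cusp → Cusp → ℤ) OnePoint.infty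
      (mapGL ℚ (γ : SL(2,ℤ)) • OnePoint.infty) := rfl

lemma hO_oS (hM : PM P M) (ℓ : P) (φ : S M) : hO M (oS hM ℓ φ) = oX hM ℓ (hO M φ) :=
  haveI : Fact (ℓ : ℕ).Prime := ⟨(hM ℓ ℓ.2).1⟩
  homOf_TS (hM ℓ ℓ.2).2 φ.2

lemma hO_rS (hM : PM P M) (t : TT P) (φ : S M) : hO M (rS hM t φ) = rX hM t (hO M φ) :=
  equi (hO M) (oS hM) (oX hM) (hO_oS hM) t φ

/-! ### degeneracy maps -/

section deg

variable {N q : ℕ} [hq : Fact q.Prime]

lemma inSym_res {k : Type*} [AddCommGroup k] {φ : Cusp → Cusp → k} (h : InSym N φ) :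
    InSym (N * q) φ := ⟨h.ms, fun γ hγ => h.inv γ (Gamma0_mul_le N q hγ)⟩

lemma inSym_cj {k : Type*} [AddCommGroup k] {φ : Cusp → Cusp → k} (h : InSym N φ) :
    InSym (N * q) (tr (um q 0 1) φ) := by
  refine ⟨fun _ _ _ => h.ms _ _ _, fun γ hγ => ?_⟩
  obtain ⟨g', hg'⟩ := exists_conj (N := N) (q := q) ⟨γ, hγ⟩
  rw [← tr_mul, hg', tr_mul, h.inv _ g'.2]

lemma tr_T_zpow {k : Type*} [AddCommGroup k] {φ : Cusp → Cusp → k} (h : InSym N φ) (n : ℤ) :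
    tr (mapGL ℚ (tz n)) φ = φ := by
  refine h.inv _ ?_
  have h1 := ModularGroup.coe_T_zpow n
  have h3 : tz n 1 0 = 0 := by rw [h1]; rfl
  rw [Gamma0_mem, h3, Int.cast_zero]

/-- `T_ℓ` commutes with the degeneracy map -/
theorem TS_cj {k : Type*} [AddCommGroup k] {φ : Cusp → Cusp → k} (h : InSym N φ) {ℓ : ℕ}
    [hℓ : Fact ℓ.Prime] (hne : ℓ ≠ q) : TS ℓ (tr (um q 0 1) φ) = tr (um q 0 1) (TS ℓ φ) := by
  have hℓ' : (ℓ : ℚ) ≠ 0 := by exact_mod_cast hℓ.out.ne_zero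
  have : NeZero ℓ := ⟨hℓ.out.ne_zero⟩
  have hq' : (q : ℚ) ≠ 0 := q_ne q
  have hu : ((q : ℕ) : ZMod ℓ) ≠ 0 := by
    rw [Ne, ZMod.natCast_eq_zero_iff]
    intro h1
    exact hne ((Nat.prime_dvd_prime_iff_eq hℓ.out hq.out).mp h1)
  rw [IharaL.TS_eq, IharaL.TS_eq, tr_sum]
  have s1 : ∀ F : OnePoint (ZMod ℓ) → (Cusp → Cusp → k), ∑ x, F x =
      F OnePoint.infty + ∑ j : ZMod ℓ, F (j : OnePoint (ZMod ℓ)) := fun F => Fintype.sum_option _
  rw [s1, s1]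
  congr 1
  · rw [← tr_mul, ← tr_mul]
    congr 1
    apply gl_ext
    all_goals
      change (um q 0 1 * um ℓ 0 1) _ _ = (um ℓ 0 1 * um q 0 1) _ _
      simp only [mul_00, mul_01, mul_10, mul_11, um_00 (a := (ℓ : ℚ)) (b := 0) (d := 1)
        (by simpa using hℓ'), um_01 (a := (ℓ : ℚ)) (b := 0) (d := 1) (by simpa using hℓ'),
        um_10 (a := (ℓ : ℚ)) (b := 0) (d := 1) (by simpa using hℓ'),
        um_11 (a := (ℓ : ℚ)) (b := 0) (d := 1) (by simpa using hℓ'), dl_00, dl_01, dl_10, dl_11]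
      try ring
  · rw [← Equiv.sum_comp (Equiv.mulLeft₀ ((q : ℕ) : ZMod ℓ) hu)
      (fun j : ZMod ℓ => tr (um q 0 1) (tr (IharaL.rq ℓ (j : OnePoint (ZMod ℓ))) φ))]
    refine Finset.sum_congr rfl fun j _ => ?_
    set j' : ZMod ℓ := Equiv.mulLeft₀ ((q : ℕ) : ZMod ℓ) hu j with hj'
    obtain ⟨t, ht⟩ : ∃ t : ℤ, (q : ℤ) * j.val = j'.val + t * ℓ := by
      have h1 : (((q : ℤ) * j.val - j'.val : ℤ) : ZMod ℓ) = 0 := by
        push_cast
        rw [ZMod.natCast_zmod_val, ZMod.natCast_zmod_val, sub_eq_zero]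
        rfl
      rw [ZMod.intCast_zmod_eq_zero_iff_dvd] at h1
      obtain ⟨t, ht⟩ := h1
      exact ⟨t, by linarith⟩
    have e1 : um q 0 1 * IharaL.rq ℓ (j : OnePoint (ZMod ℓ)) =
        mapGL ℚ (tz t) * (IharaL.rq ℓ (j' : OnePoint (ZMod ℓ)) * um q 0 1) := by
      have ht' : (q : ℚ) * (j.val : ℚ) = (j'.val : ℚ) + t * ℓ := by exact_mod_cast ht
      have m1 : ∀ i : ZMod ℓ, (((IharaL.rq ℓ (i : OnePoint (ZMod ℓ))) : GL (Fin 2) ℚ) :
          Matrix (Fin 2) (Fin 2) ℚ) = !![(1 : ℚ), (i.val : ℚ); 0, (ℓ : ℚ)] := fun i =>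
        coe_um (a := (1 : ℚ)) (b := (i.val : ℚ)) (d := (ℓ : ℚ)) (by simpa using hℓ')
      have m2 : (((um q 0 1) : GL (Fin 2) ℚ) : Matrix (Fin 2) (Fin 2) ℚ) =
          !![(q : ℚ), 0; 0, 1] := coe_um (a := (q : ℚ)) (b := 0) (d := 1) (by simpa using hq')
      apply Units.ext
      rw [Units.val_mul, Units.val_mul, Units.val_mul, m1, m1, m2, mapGL_tz]
      ext a b
      fin_cases a <;> fin_cases b <;>
        simp [Matrix.mul_apply, Fin.sum_univ_two, -ZMod.natCast_val]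
      exact ht'
    rw [← tr_mul, e1, tr_mul, tr_T_zpow h, ← tr_mul]

/-- the two degeneracy maps -/
def iS (N q : ℕ) [Fact q.Prime] : S N × S N →+ S (N * q) :=
  AddMonoidHom.mk' (fun p : S N × S N => (⟨p.1.1 + tr (um q 0 1) p.2.1,
    (S (N * q)).add_mem (inSym_res p.1.2) (inSym_cj p.2.2)⟩ : S (N * q))) fun a b =>
    Subtype.ext (by
      change (a.1.1 + b.1.1) + tr (um q 0 1) (a.2.1 + b.2.1) = (a.1.1 + _) + (b.1.1 + _)
      rw [tr_add]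
      abel)

lemma coe_iS (p : S N × S N) :
    (iS N q p : Cusp → Cusp → ℤ) = p.1.1 + tr (um q 0 1) p.2.1 := rfl

lemma hO_iS (p : S N × S N) :
    hO (N * q) (iS N q p) = i1 N q (hO N p.1) + i2 N q (hO N p.2) := by
  refine AddMonoidHom.ext fun x => ?_
  obtain ⟨γ, rfl⟩ := Additive.ofMul.surjective x
  obtain ⟨g, hg⟩ := exists_conj (N := N) (q := q) γ
  rw [AddMonoidHom.add_apply, i1_apply, i2_apply N q (hO N p.2) γ g hg, hO_apply, hO_apply,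
    hO_apply, coe_iS]
  have h1 : um q 0 1 • (OnePoint.infty : Cusp) = OnePoint.infty := by
    rw [OnePoint.smul_infty_eq_self_iff]
    exact dl_10 q
  change p.1.1 _ _ + p.2.1 (um q 0 1 • OnePoint.infty)
    (um q 0 1 • (mapGL ℚ (γ : SL(2,ℤ)) • OnePoint.infty)) = _
  rw [h1, ← mul_smul, hg, mul_smul, h1]

lemma iS_oS (hN : PM P N) (hNq : PM P (N * q)) (ℓ : P) (p : S N × S N) :
    iS N q (oS hN ℓ p.1, oS hN ℓ p.2) = oS hNq ℓ (iS N q p) := by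
  haveI : Fact (ℓ : ℕ).Prime := ⟨(hN ℓ ℓ.2).1⟩
  apply Subtype.ext
  rw [coe_oS, coe_iS, coe_iS, TS_add, TS_cj p.2.2
    (fun e => (hNq ℓ ℓ.2).2 ((dvd_of_eq e).trans (dvd_mul_left _ _)))]
  rfl

/-- the action on pairs -/
def oSS (hN : PM P N) (ℓ : P) : Module.End ℤ (S N × S N) := (oS hN ℓ).prodMap (oS hN ℓ)

lemma iS_rS (hN : PM P N) (hNq : PM P (N * q)) (t : TT P) (p : S N × S N) :
    iS N q (rS hN t p.1, rS hN t p.2) = rS hNq t (iS N q p) := by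
  have h1 := equi (iS N q) (oSS hN) (oS hNq) (fun ℓ a => iS_oS hN hNq ℓ a) t p
  have h2 := equi (AddMonoidHom.fst (S N) (S N)) (oSS hN) (oS hN) (fun ℓ a => rfl) t p
  have h3 := equi (AddMonoidHom.snd (S N) (S N)) (oSS hN) (oS hN) (fun ℓ a => rfl) t p
  rw [rS, rS, ← h1]
  congr 1
  exact Prod.ext h2.symm h3.symm

end deg

end Fermat.Agent.LR
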