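import Fermat.Agent.LR.Alg
import Fermat.Agent.IharaL.Bd
import Fermat.Agent.AnJac.Link
import Fermat.Agent.Newform.New

/-!
# Period maps and level raising
-/

set_option autoImplicit false
set_option maxHeartbeats 400000

noncomputable section

namespace Fermat.Agent.LR.Pr

open CongruenceSubgroup Matrix.SpecialLinearGroup Fermat.Agent.Ihara Fermat.Agent.AnJac
open ModularCurve UpperHalfPlane EichlerShimura ModularForm ModularCurve.Period
open Fermat.Agent.Newform (S2)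
open scoped MatrixGroups
open P2MW.S_ModularForm_heckeT_slash_eq_self_of_mem_Gamma0.ModularForm.HeckeSlashInvariance

/-! ### parabolic homomorphisms -/

section KC

open Fermat.Agent.IharaL

variable {N : ℕ} {k : Type*} [AddCommGroup k]

lemma KC.par {f : Additive (Gamma0 N) →+ k} (hf : KC f) (γ : Gamma0 N)
    (hγ : ((γ : SL(2, ℤ)) : Matrix (Fin 2) (Fin 2) ℤ).trace ^ 2 = 4) :
    f (Additive.ofMul γ) = 0 := by
  obtain ⟨δ, hδ⟩ := exists_fixed_vector (γ : SL(2,ℤ)) hγ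
  refine hf γ (mapGL ℚ δ • (OnePoint.infty : Cusp)) ?_
  have h1 : mapGL ℚ (δ⁻¹ * (γ : SL(2,ℤ)) * δ) • (OnePoint.infty : Cusp) = OnePoint.infty := by
    rw [OnePoint.smul_infty_eq_self_iff, mapGL_10, hδ]; simp
  rw [← mul_smul, ← map_mul]
  have h2 : (γ : SL(2,ℤ)) * δ = δ * (δ⁻¹ * (γ : SL(2,ℤ)) * δ) := by group
  rw [h2, map_mul, mul_smul, h1]

lemma KC.of_par {f : Additive (Gamma0 N) →+ k} (hf : ∀ γ : Gamma0 N,
    ((γ : SL(2, ℤ)) : Matrix (Fin 2) (Fin 2) ℤ).trace ^ 2 = 4 → f (Additive.ofMul γ) = 0) :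
    KC f := by
  intro γ α hα
  obtain ⟨g, hg⟩ := exists_inf α
  apply hf
  set x := g⁻¹ * (γ : SL(2,ℤ)) * g with hx
  have h1 : mapGL ℚ x • (OnePoint.infty : Cusp) = OnePoint.infty := by
    rw [hx, map_mul, map_mul, mul_smul, mul_smul]
    rw [show mapGL ℚ g • (OnePoint.infty : Cusp) = α from hg, hα, ← hg, ← mul_smul, map_inv,
      inv_mul_cancel, one_smul]
  rw [OnePoint.smul_infty_eq_self_iff, mapGL_10] at h1
  have h10 : x 1 0 = 0 := by exact_mod_cast h1
  have hdet := x.det_coe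
  rw [Matrix.det_fin_two, h10, mul_zero, sub_zero] at hdet
  have htr : ((γ : SL(2,ℤ)) : Matrix (Fin 2) (Fin 2) ℤ).trace = x 0 0 + x 1 1 := by
    have e : (x : Matrix (Fin 2) (Fin 2) ℤ).trace =
        ((γ : SL(2,ℤ)) : Matrix (Fin 2) (Fin 2) ℤ).trace := by
      rw [hx, Matrix.SpecialLinearGroup.coe_mul, Matrix.trace_mul_comm,
        ← Matrix.SpecialLinearGroup.coe_mul, mul_inv_cancel_left]
    rw [← e, Matrix.trace_fin_two]
  rw [htr]
  rcases Int.eq_one_or_neg_one_of_mul_eq_one hdet with h | h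
  · rw [h, one_mul] at hdet
    rw [h, hdet]; norm_num
  · rw [h, neg_one_mul] at hdet
    have : x 1 1 = -1 := by linarith
    rw [h, this]; norm_num

lemma KC.nha [IsAddTorsionFree k] {f : Additive (Gamma0 N) →+ k} (hf : KC f) :
    f ∈ NHA (Gamma0 N) k := by
  intro γ hγ
  exact SL2Pres.eq_zero_of_trace_le (KC.par hf) γ ((trace_sq_le_iff _).mpr hγ)

lemma kc_of_nha {f : Additive (Gamma0 N) →+ k} (hf : f ∈ NHA (Gamma0 N) k) : KC f :=
  KC.of_par fun γ hγ => hf γ ((trace_sq_le_iff _).mp hγ.le)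

end KC

/-! ### the abstract Hecke algebra -/

section Hecke

variable {P : Set ℕ} {M : ℕ} (hM : PM P M)

/-- comparison of free algebras -/
def toP : TT P →ₐ[ℤ] FreeAlgebra ℤ PrimeT :=
  FreeAlgebra.lift ℤ fun ℓ => FreeAlgebra.ι ℤ ⟨ℓ, (hM ℓ ℓ.2).1⟩

variable [NeZero M]

lemma rX_toP (t : TT P) (x : X M) : rX hM t x = actM M ℤ (toP hM t) x := by
  induction t using FreeAlgebra.induction generalizing x with
  | grade0 r =>
    rw [AlgHom.commutes, AlgHom.commutes, AlgHom.commutes, Module.algebraMap_end_apply, eq_intCast,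
      AddMonoid.End.intCast_apply]
  | grade1 ℓ =>
    haveI : Fact (ℓ : ℕ).Prime := ⟨(hM ℓ ℓ.2).1⟩
    rw [toP, FreeAlgebra.lift_ι_apply, actM_ι, rX, FreeAlgebra.lift_ι_apply,
      oX_apply hM ℓ (hM ℓ ℓ.2).2, MT_of_not_dvd M ℤ (ℓ : ℕ) (hM ℓ ℓ.2).2]
  | mul s t hs ht =>
    rw [map_mul, map_mul, map_mul, Module.End.mul_apply, hs, ht]
    rfl
  | add s t hs ht =>
    rw [map_add, map_add, map_add, LinearMap.add_apply, hs, ht]
    rfl

/-- the action on cusp forms -/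
def rF : TT P →ₐ[ℤ] Module.End ℂ (S2 M) :=
  FreeAlgebra.lift ℤ fun ℓ => DSLift.heckeOp M 2 (hM ℓ ℓ.2).1

lemma rF_ι (ℓ : P) : rF hM (FreeAlgebra.ι ℤ ℓ) = DSLift.heckeOp M 2 (hM ℓ ℓ.2).1 :=
  FreeAlgebra.lift_ι_apply _ _

lemma actS_toP (t : TT P) : actS M (toP hM t) = rF hM t := by
  have h : (actS M).comp (toP hM) = rF hM := by
    apply FreeAlgebra.hom_ext
    funext ℓ
    change actS M (toP hM (FreeAlgebra.ι ℤ ℓ)) = rF hM (FreeAlgebra.ι ℤ ℓ)
    rw [toP, FreeAlgebra.lift_ι_apply, actS_ι, rF, FreeAlgebra.lift_ι_apply]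
  exact DFunLike.congr_fun h t

/-- the system of eigenvalues of a form -/
def chiF (P : Set ℕ) (f : S2 M) : TT P →ₐ[ℤ] ℂ :=
  FreeAlgebra.lift ℤ fun ℓ => ModularFormClass.qCoeff f ℓ

lemma chiF_ι (f : S2 M) (ℓ : P) :
    chiF P f (FreeAlgebra.ι ℤ ℓ) = ModularFormClass.qCoeff f ℓ :=
  FreeAlgebra.lift_ι_apply _ _

lemma rF_eigen {f : S2 M} (hf : f.IsNormalizedEigenform) (t : TT P) :
    rF hM t f = chiF P f t • f := by
  induction t using FreeAlgebra.induction with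
  | grade0 r =>
    rw [AlgHom.commutes, AlgHom.commutes, eq_intCast, eq_intCast]
    change ((r : Module.End ℂ (S2 M)) f) = _
    rw [← zsmul_one, LinearMap.smul_apply, Module.End.one_apply, Int.cast_smul_eq_zsmul]
  | grade1 ℓ =>
    rw [rF_ι, chiF_ι, DSLift.heckeOp_apply_of_isNormalizedEigenform _ hf]
  | mul s t hs ht =>
    rw [map_mul, map_mul, Module.End.mul_apply, ht, map_smul, hs, smul_smul, mul_comm]
  | add s t hs ht => rw [map_add, map_add, LinearMap.add_apply, hs, ht, add_smul]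

/-- **(F9)** -/
theorem chiF_eq_zero {f : S2 M} (hf : f.IsNormalizedEigenform) {t : TT P} (ht : rX hM t = 0) :
    chiF P f t = 0 := by
  have h1 : actL M (toP hM t) = 0 := by
    refine AddMonoidHom.ext fun φ => Subtype.ext ((coe_actL _ φ).trans ?_)
    rw [← rX_toP, ht]
    rfl
  have h2 := actS_eq_zero h1
  have h3 := rF_eigen hM hf t
  rw [← actS_toP, h2, LinearMap.zero_apply] at h3
  rcases smul_eq_zero.mp h3.symm with h | h
  · exact h
  · exfalso
    have := hf.qCoeff_one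
    rw [h] at this
    have h4 : ModularFormClass.qCoeff (⇑(0 : S2 M)) 1 = 0 := Newform.qCoeff_zero_fun 1
    rw [h4] at this
    exact zero_ne_one this

end Hecke

end Fermat.Agent.LR.Pr
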