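import Fermat.Agent.LR.Per
import Fermat.Agent.LR.Comm

/-!
# Period maps and degeneracy maps
-/

set_option autoImplicit false
set_option maxHeartbeats 400000

noncomputable section

namespace Fermat.Agent.LR.Pr

open CongruenceSubgroup Matrix.SpecialLinearGroup Fermat.Agent.Ihara Fermat.Agent.AnJac
open ModularCurve UpperHalfPlane EichlerShimura ModularForm ModularCurve.Period
open Fermat.Agent.Newform (S2)
open Fermat.Agent.IharaL (KC)
open scoped MatrixGroups
open P2MW.S_ModularForm_heckeT_slash_eq_self_of_mem_Gamma0.ModularForm.HeckeSlashInvariance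

lemma T_compHom {Γ Γ' : Subgroup SL(2,ℤ)} {ι : Type*} [Fintype ι] (F : WF Γ Γ' ι)
    {M M' : Type*} [AddCommGroup M] [AddCommGroup M'] (π : M →+ M')
    (φ : Additive Γ →+ M) : F.T (π.comp φ) = π.comp (F.T φ) := by
  refine AddMonoidHom.ext fun γ => ?_
  change ∑ i, π (φ _) = π (∑ i, φ _)
  rw [map_sum]

section per

variable {N q : ℕ} [hq : Fact q.Prime] [NeZero N] [NeZero (N * q)]

lemma wRes_apply {M : Type*} [AddCommGroup M] (φ : Additive (Gamma0 N) →+ M) (γ : Gamma0 (N * q)) :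
    (wRes N q).T φ (Additive.ofMul γ) = φ (Additive.ofMul ⟨γ, Gamma0_mul_le N q γ.2⟩) := by
  rw [WF.T_apply, Fintype.sum_unique]
  rfl

lemma wCj_apply {M : Type*} [AddCommGroup M] (φ : Additive (Gamma0 N) →+ M) (γ : Gamma0 (N * q)) :
    (wCj N q).T φ (Additive.ofMul γ) = φ (Additive.ofMul ((wCj N q).g γ ())) := by
  rw [WF.T_apply, Fintype.sum_unique]

lemma cj_real (γ : Gamma0 (N * q)) :
    heckeDiagMatrix q * gl (γ : SL(2,ℤ)) = gl ((wCj N q).g γ () : SL(2,ℤ)) * heckeDiagMatrix q := by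
  have hq0 := hq.out.ne_zero
  have h := (wCj N q).spec γ ()
  change um q 0 1 * mapGL ℚ (γ : SL(2,ℤ)) = _ * um q 0 1 at h
  have h1 := congrArg IharaL.toR h
  rw [map_mul, map_mul, IharaL.toR_mapGL, IharaL.toR_mapGL] at h1
  have h2 : IharaL.toR (um q 0 1) = heckeDiagMatrix q := by
    have := IharaL.toR_rq hq0 (OnePoint.infty)
    rw [heckeRep_infty] at this
    exact this
  rw [h2] at h1
  exact h1

lemma Bd_one (f : ℍ → ℂ) : Newform.Bd 1 f = f := by
  rw [Newform.Bd_eq one_ne_zero, Nat.cast_one, inv_one, one_smul]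
  have : heckeDiagMatrix 1 = 1 := by
    apply Units.ext
    rw [val_heckeDiagMatrix one_ne_zero]
    ext i j
    fin_cases i <;> fin_cases j <;> simp
  rw [this, SlashAction.slash_one]

variable (h1 : N * 1 ∣ N * q) (hq' : N * q ∣ N * q)

lemma per_b1 (u : S2 N) :
    periodLin (N * q) (Newform.bL N (N * q) 1 one_ne_zero h1 u) =
      (wRes N q).T (periodLin N u) := by
  refine AddMonoidHom.ext fun x => ?_
  obtain ⟨γ, rfl⟩ := Additive.ofMul.surjective x
  rw [wRes_apply, periodLin_apply, periodLin_apply, Newform.coe_bL, Bd_one]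
  rfl

lemma per_b1c (u : S2 N) :
    charInvolution (N * q) ℂ ℂ (periodLin (N * q) (Newform.bL N (N * q) 1 one_ne_zero h1 u)) =
      (wRes N q).T (charInvolution N ℂ ℂ (periodLin N u)) := by
  refine AddMonoidHom.ext fun x => ?_
  obtain ⟨γ, rfl⟩ := Additive.ofMul.surjective x
  rw [wRes_apply, charInvolution_apply, charInvolution_apply, periodLin_apply, periodLin_apply,
    Newform.coe_bL, Bd_one]
  rfl

lemma per_bq (v : S2 N) :
    periodLin (N * q) (Newform.bL N (N * q) q hq.out.ne_zero hq' v) =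
      (q : ℂ)⁻¹ • (wCj N q).T (periodLin N v) := by
  refine AddMonoidHom.ext fun x => ?_
  obtain ⟨γ, rfl⟩ := Additive.ofMul.surjective x
  have hq0 := hq.out.ne_zero
  rw [AddMonoidHom.smul_apply, wCj_apply, periodLin_apply, periodLin_apply, Newform.coe_bL,
    Newform.Bd_eq hq0]
  have hg : Good (⇑v ∣[(2 : ℤ)] heckeDiagMatrix q) := (isUT_heckeDiag hq0).good (good_cusp v)
  rw [symb_smul _ hg]
  congr 1
  have h2 := hecke_symb_of (ι := Unit) (A := fun _ => heckeDiagMatrix q)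
    (fun _ => isUT_heckeDiag hq0) (σ := id) (γ := (γ : SL(2,ℤ)))
    (γ' := fun _ => ((wCj N q).g γ () : SL(2,ℤ))) (fun _ => cj_real γ) (good_cusp v)
  rw [Fintype.sum_unique, Fintype.sum_unique] at h2
  exact h2

lemma per_bqc (v : S2 N) :
    charInvolution (N * q) ℂ ℂ
        (periodLin (N * q) (Newform.bL N (N * q) q hq.out.ne_zero hq' v)) =
      (q : ℂ)⁻¹ • (wCj N q).T (charInvolution N ℂ ℂ (periodLin N v)) := by
  refine AddMonoidHom.ext fun x => ?_
  obtain ⟨γ, rfl⟩ := Additive.ofMul.surjective x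
  have hq0 := hq.out.ne_zero
  rw [AddMonoidHom.smul_apply, wCj_apply, charInvolution_apply, charInvolution_apply,
    periodLin_apply, periodLin_apply, Newform.coe_bL, Newform.Bd_eq hq0]
  have hg : Good (⇑v ∣[(2 : ℤ)] heckeDiagMatrix q) := (isUT_heckeDiag hq0).good (good_cusp v)
  rw [symb_smul _ hg]
  congr 1
  have h2 := hecke_symb_conj (ι := Unit) (A := fun _ => heckeDiagMatrix q)
    (fun _ => isUT_heckeDiag hq0) (σ := id) (γ := (γ : SL(2,ℤ)))
    (γ' := fun _ => ((wCj N q).g γ () : SL(2,ℤ))) (fun _ => cj_real γ) (good_cusp v)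
  rw [Fintype.sum_unique, Fintype.sum_unique, J_heckeDiag_J hq0] at h2
  exact h2

/-- complex parabolic homs of level `N` -/
abbrev HPC (N : ℕ) := NHA (Gamma0 N) ℂ

lemma smul_mem_HPC (c : ℂ) {φ : Additive (Gamma0 N) →+ ℂ} (h : φ ∈ HPC N) : c • φ ∈ HPC N := by
  intro γ hγ
  rw [AddMonoidHom.smul_apply, h γ hγ, smul_zero]

lemma per_mem (f : S2 N) : periodLin N f ∈ HPC N := periodLin_mem_NHA f

lemma perc_mem (f : S2 N) : charInvolution N ℂ ℂ (periodLin N f) ∈ HPC N := by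
  have h1 := charInvolution_mem_parabolicHoms N ℂ ℂ (periodLin_mem f)
  intro γ hγ
  refine SL2Pres.eq_zero_of_trace_le (fun γ hγ => ?_) γ ((trace_sq_le_iff _).mpr hγ)
  exact mem_parabolicHoms_iff.mp h1 γ hγ

/-- the old complex homomorphisms -/
def OldC (N q : ℕ) [hq : Fact q.Prime] [NeZero N] (φ : Additive (Gamma0 (N * q)) →+ ℂ) : Prop :=
  ∃ A ∈ HPC N, ∃ B ∈ HPC N, φ = (wRes N q).T A + (wCj N q).T B

lemma OldC.add {φ ψ : Additive (Gamma0 (N * q)) →+ ℂ} (h : OldC N q φ) (h' : OldC N q ψ) :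
    OldC N q (φ + ψ) := by
  obtain ⟨A, hA, B, hB, rfl⟩ := h
  obtain ⟨A', hA', B', hB', rfl⟩ := h'
  refine ⟨A + A', add_mem hA hA', B + B', add_mem hB hB', ?_⟩
  rw [map_add, map_add]
  abel

lemma smul_T {Γ Γ' : Subgroup SL(2,ℤ)} {ι : Type*} [Fintype ι] (F : WF Γ Γ' ι) (c : ℂ)
    (φ : Additive Γ →+ ℂ) : F.T (c • φ) = c • F.T φ := by
  refine AddMonoidHom.ext fun γ => ?_
  change ∑ i, c • (φ _) = c • (∑ i, φ _)
  rw [Finset.smul_sum]

lemma oldC_per {g : S2 (N * q)} (hg : g ∈ LinearMap.range (Newform.bL N (N * q) 1 one_ne_zero h1) ⊔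
    LinearMap.range (Newform.bL N (N * q) q hq.out.ne_zero hq')) :
    OldC N q (periodLin (N * q) g) ∧ OldC N q (charInvolution (N * q) ℂ ℂ (periodLin (N * q) g)) := by
  obtain ⟨_, ⟨u, rfl⟩, _, ⟨v, rfl⟩, rfl⟩ := Submodule.mem_sup.mp hg
  constructor
  · refine ⟨periodLin N u, per_mem u, (q : ℂ)⁻¹ • periodLin N v, smul_mem_HPC _ (per_mem v), ?_⟩
    rw [map_add, per_b1, per_bq, smul_T]
  · refine ⟨charInvolution N ℂ ℂ (periodLin N u), perc_mem u,
      (q : ℂ)⁻¹ • charInvolution N ℂ ℂ (periodLin N v), smul_mem_HPC _ (perc_mem v), ?_⟩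
    rw [map_add, map_add, per_b1c, per_bqc, smul_T]

lemma OldC.neg {φ : Additive (Gamma0 (N * q)) →+ ℂ} (h : OldC N q φ) : OldC N q (-φ) := by
  obtain ⟨A, hA, B, hB, rfl⟩ := h
  refine ⟨-A, neg_mem hA, -B, neg_mem hB, ?_⟩
  rw [map_neg, map_neg]
  abel

end per

/-- clearing denominators -/
lemma exists_clear {Γ : Type*} [Group Γ] [hfg : Group.FG Γ] (ψ : Additive Γ →+ ℚ) :
    ∃ n : ℤ, n ≠ 0 ∧ ∃ a : Additive Γ →+ ℤ, ∀ x, (a x : ℚ) = n * ψ x := by
  obtain ⟨S, hS⟩ := Group.FG.out (G := Γ)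
  set n : ℤ := ∏ s ∈ S, ((ψ (Additive.ofMul s)).den : ℤ) with hn
  have hn0 : n ≠ 0 := Finset.prod_ne_zero_iff.mpr fun s _ => by
    exact_mod_cast (ψ (Additive.ofMul s)).den_nz
  have hint : ∀ γ : Γ, ∃ z : ℤ, (z : ℚ) = n * ψ (Additive.ofMul γ) := by
    have : ∀ γ ∈ Subgroup.closure (S : Set Γ), ∃ z : ℤ, (z : ℚ) = n * ψ (Additive.ofMul γ) := by
      intro γ hγ
      induction hγ using Subgroup.closure_induction with
      | mem s hs =>
        obtain ⟨m, hm⟩ : ((ψ (Additive.ofMul s)).den : ℤ) ∣ n := Finset.dvd_prod_of_mem _ hs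
        refine ⟨m * (ψ (Additive.ofMul s)).num, ?_⟩
        rw [hm]
        push_cast
        have := Rat.den_mul_eq_num (ψ (Additive.ofMul s))
        rw [← this]
        ring
      | one => exact ⟨0, by rw [ofMul_one, map_zero]; simp⟩
      | mul x y _ _ hx hy =>
        obtain ⟨z, hz⟩ := hx
        obtain ⟨w, hw⟩ := hy
        exact ⟨z + w, by rw [ofMul_mul, map_add]; push_cast; rw [hz, hw]; ring⟩
      | inv x _ hx =>
        obtain ⟨z, hz⟩ := hx
        exact ⟨-z, by rw [ofMul_inv, map_neg]; push_cast; rw [hz]; ring⟩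
    intro γ
    exact this γ (by rw [hS]; trivial)
  choose z hz using hint
  refine ⟨n, hn0, AddMonoidHom.mk' (fun x => z (Additive.toMul x)) (fun x y => ?_), fun x => hz _⟩
  have : ((z (Additive.toMul (x + y)) : ℤ) : ℚ) = ((z (Additive.toMul x) + z (Additive.toMul y) : ℤ) : ℚ) := by
    push_cast
    rw [hz, hz, hz, ofMul_toMul, ofMul_toMul, ofMul_toMul, map_add]
    ring
  exact_mod_cast this

/-- **Claim 3** -/
theorem claim3 {N q : ℕ} [hq : Fact q.Prime] [NeZero N] [NeZero (N * q)] {P : Set ℕ}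
    (hNq : PM P (N * q)) (h1 : N * 1 ∣ N * q) (hq' : N * q ∣ N * q) {t : TT P}
    (ht : ∀ f : S2 (N * q), rF hNq t f ∈ LinearMap.range (Newform.bL N (N * q) 1 one_ne_zero h1) ⊔
      LinearMap.range (Newform.bL N (N * q) q hq.out.ne_zero hq'))
    {x : X (N * q)} (hx : KC x) :
    ∃ n : ℤ, n ≠ 0 ∧ ∃ a b : X N, KC a ∧ KC b ∧ n • rX hNq t x = i1 N q a + i2 N q b := by
  set φ : Additive (Gamma0 (N * q)) →+ ℂ := (Int.castAddHom ℂ).comp x with hφ
  have hφm : φ ∈ NHA (Gamma0 (N * q)) ℂ := by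
    intro γ hγ
    rw [hφ, AddMonoidHom.comp_apply, KC.nha hx γ hγ, map_zero]
  obtain ⟨⟨f, g⟩, hfg⟩ : φ ∈ LinearMap.range (periodHomPair (N * q)) := by
    rw [(S21.result (N * q)).2, mem_parabolicHoms_iff]
    intro γ hγ
    exact hφm γ ((trace_sq_le_iff _).mp hγ.le)
  rw [periodHomPair_apply] at hfg
  have h2 : OldC N q (actM (N * q) ℂ (toP hNq t) φ) := by
    rw [← hfg, map_add, map_add, map_sub, actM_periodLin, actM_periodLin,
      actM_conj_periodLin, actM_conj_periodLin, actS_toP]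
    obtain ⟨a1, a2⟩ := oldC_per h1 hq' (ht f)
    obtain ⟨b1, b2⟩ := oldC_per h1 hq' (ht g)
    rw [sub_eq_add_neg]
    exact (a1.add a2).add (b1.add b2.neg)
  obtain ⟨A, hA, B, hB, hAB⟩ := h2
  -- retraction
  obtain ⟨π, hπ⟩ : ∃ π : ℂ →ₗ[ℚ] ℚ, ∀ r : ℚ, π (r : ℂ) = r := by
    obtain ⟨π, hπ⟩ := LinearMap.exists_leftInverse_of_injective (Algebra.linearMap ℚ ℂ)
      (LinearMap.ker_eq_bot.mpr (algebraMap ℚ ℂ).injective)
    exact ⟨π, fun r => DFunLike.congr_fun hπ r⟩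
  have hfg : Group.FG (Gamma0 N) := inferInstance
  obtain ⟨n1, hn1, a, ha⟩ := exists_clear ((π : ℂ →+ ℚ).comp A)
  obtain ⟨n2, hn2, b, hb⟩ := exists_clear ((π : ℂ →+ ℚ).comp B)
  have hka : KC a := by
    apply kc_of_nha
    intro γ hγ
    have := ha (Additive.ofMul γ)
    rw [AddMonoidHom.comp_apply, hA γ hγ, map_zero, mul_zero] at this
    exact_mod_cast this
  have hkb : KC b := by
    apply kc_of_nha
    intro γ hγ
    have := hb (Additive.ofMul γ)
    rw [AddMonoidHom.comp_apply, hB γ hγ, map_zero, mul_zero] at this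
    exact_mod_cast this
  refine ⟨n1 * n2, mul_ne_zero hn1 hn2, n2 • a, n1 • b, ?_, ?_, ?_⟩
  · intro γ α hα
    rw [AddMonoidHom.smul_apply, hka γ α hα, smul_zero]
  · intro γ α hα
    rw [AddMonoidHom.smul_apply, hkb γ α hα, smul_zero]
  · rw [map_zsmul, map_zsmul]
    refine AddMonoidHom.ext fun y => ?_
    obtain ⟨γ, rfl⟩ := Additive.ofMul.surjective y
    have h3 := DFunLike.congr_fun hAB (Additive.ofMul γ)
    rw [hφ, actM_comp, AddMonoidHom.comp_apply, ← rX_toP, AddMonoidHom.add_apply, wRes_apply,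
      wCj_apply] at h3
    have h4 := congrArg π h3
    rw [map_add] at h4
    have h5 : π ((Int.castAddHom ℂ) (rX hNq t x (Additive.ofMul γ))) =
        ((rX hNq t x (Additive.ofMul γ) : ℤ) : ℚ) := by
      have := hπ ((rX hNq t x (Additive.ofMul γ) : ℤ) : ℚ)
      rw [Rat.cast_intCast] at this
      exact this
    rw [h5] at h4
    have e1 := ha (Additive.ofMul ⟨γ, Gamma0_mul_le N q γ.2⟩)
    have e2 := hb (Additive.ofMul ((wCj N q).g γ ()))
    rw [AddMonoidHom.comp_apply] at e1 e2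
    change (a _ : ℚ) = n1 * π _ at e1
    change (b _ : ℚ) = n2 * π _ at e2
    rw [AddMonoidHom.smul_apply, AddMonoidHom.add_apply, AddMonoidHom.smul_apply,
      AddMonoidHom.smul_apply, i1, i2, wRes_apply, wCj_apply]
    have h6 : (((n1 * n2) • rX hNq t x (Additive.ofMul γ) : ℤ) : ℚ) =
        ((n2 • a (Additive.ofMul ⟨γ, Gamma0_mul_le N q γ.2⟩) +
          n1 • b (Additive.ofMul ((wCj N q).g γ ())) : ℤ) : ℚ) := by
      simp only [smul_eq_mul]
      push_cast
      rw [h4, e1, e2]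
      ring
    exact_mod_cast h6

end Fermat.Agent.LR.Pr
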