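import Fermat.Agent.LR.Op

/-!
# Symbols and unimodular symbols
-/

set_option autoImplicit false
set_option linter.unusedSectionVars false

noncomputable section

namespace Fermat.Agent.LR

open CongruenceSubgroup Matrix.SpecialLinearGroup Fermat.Agent.Ihara Fermat.Agent.AnJac
open scoped MatrixGroups

lemma mapGL_S_infty : mapGL ℚ ModularGroup.S • (OnePoint.infty : Cusp) = ((0 : ℚ) : Cusp) := by
  rw [OnePoint.smul_infty_eq_ite]
  have h1 : mapGL ℚ ModularGroup.S 1 0 = (1 : ℚ) := by rw [IharaL.mapGL_ent]; norm_num [ModularGroup.S]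
  have h2 : mapGL ℚ ModularGroup.S 0 0 = (0 : ℚ) := by rw [IharaL.mapGL_ent]; norm_num [ModularGroup.S]
  rw [h1, h2, if_neg one_ne_zero, zero_div]

lemma mapGL_T_infty : mapGL ℚ ModularGroup.T • (OnePoint.infty : Cusp) = OnePoint.infty := by
  rw [OnePoint.smul_infty_eq_self_iff, IharaL.mapGL_ent]
  norm_num [ModularGroup.T]

/-- symbols are determined by the unimodular ones -/
theorem mem_of_unimod {k : Type*} [AddCommGroup k] (J : AddSubgroup k) {φ : Cusp → Cusp → k}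
    (h : IsMS φ) (hJ : ∀ g : SL(2,ℤ), φ (mapGL ℚ g • ((0 : ℚ) : Cusp))
      (mapGL ℚ g • OnePoint.infty) ∈ J) (α β : Cusp) : φ α β ∈ J := by
  have key : ∀ g x : SL(2,ℤ), φ (mapGL ℚ x • OnePoint.infty)
      (mapGL ℚ (x * g) • OnePoint.infty) ∈ J := by
    intro g
    have hg : g ∈ Subgroup.closure ({ModularGroup.S, ModularGroup.T} : Set SL(2,ℤ)) := by
      rw [SpecialLinearGroup.SL2Z_generators]; trivial
    induction hg using Subgroup.closure_induction with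
    | mem g hg =>
      intro x
      rcases hg with rfl | rfl
      · rw [map_mul, mul_smul, mapGL_S_infty, ← neg_mem_iff, ← IsMS.swap h]
        exact hJ x
      · rw [map_mul, mul_smul, mapGL_T_infty, IsMS.self h]
        exact zero_mem _
    | one =>
      intro x
      rw [mul_one, IsMS.self h]
      exact zero_mem _
    | mul g g' _ _ hg hg' =>
      intro x
      rw [← h _ (mapGL ℚ (x * g) • OnePoint.infty), ← mul_assoc]
      exact add_mem (hg x) (hg' (x * g))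
    | inv g _ hg =>
      intro x
      have := hg (x * g⁻¹)
      rw [inv_mul_cancel_right] at this
      rw [IsMS.swap h]
      exact neg_mem this
  obtain ⟨a, rfl⟩ := IharaL.exists_inf α
  obtain ⟨b, rfl⟩ := IharaL.exists_inf β
  have := key (a⁻¹ * b) a
  rwa [mul_inv_cancel_left] at this

lemma div_of_dvd {M : ℕ} {n : ℤ} (hn : n ≠ 0) (φ : S M) (h : ∀ α β, n ∣ φ.1 α β) :
    ∃ ψ : S M, φ = n • ψ := by
  choose f hf using h
  refine ⟨⟨f, ⟨fun α β γ => ?_, fun γ hγ => ?_⟩⟩, ?_⟩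
  · have := φ.2.ms α β γ
    rw [hf, hf, hf, ← mul_add] at this
    exact mul_left_cancel₀ hn this
  · funext α β
    have h1 := congrFun (congrFun (φ.2.inv γ hγ) α) β
    change φ.1 _ _ = φ.1 _ _ at h1
    rw [hf, hf] at h1
    exact mul_left_cancel₀ hn h1
  · apply Subtype.ext
    funext α β
    rw [hf]
    rfl

/-- values on unimodular symbols -/
def uni (M : ℕ) : S M →ₗ[ℤ] (SL(2,ℤ) ⧸ Gamma0 M → ℤ) :=
  (AddMonoidHom.mk' (fun (φ : S M) (x : SL(2,ℤ) ⧸ Gamma0 M) =>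
    φ.1 (mapGL ℚ (x.out⁻¹) • ((0 : ℚ) : Cusp)) (mapGL ℚ (x.out⁻¹) • OnePoint.infty))
    fun _ _ => rfl).toIntLinearMap

lemma uni_apply (M : ℕ) (φ : S M) (x : SL(2,ℤ) ⧸ Gamma0 M) :
    uni M φ x = φ.1 (mapGL ℚ (x.out⁻¹) • ((0 : ℚ) : Cusp))
      (mapGL ℚ (x.out⁻¹) • OnePoint.infty) := rfl

lemma uni_mk (M : ℕ) (φ : S M) (g : SL(2,ℤ)) :
    uni M φ ((g⁻¹ : SL(2,ℤ)) : SL(2,ℤ) ⧸ Gamma0 M) = φ.1 (mapGL ℚ g • ((0 : ℚ) : Cusp))
      (mapGL ℚ g • OnePoint.infty) := by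
  rw [uni_apply]
  obtain ⟨γ, hγ⟩ := QuotientGroup.mk_out_eq_mul (Gamma0 M) g⁻¹
  rw [hγ, mul_inv_rev, inv_inv, map_mul, mul_smul, mul_smul]
  exact congrFun (congrFun (φ.2.inv _ (γ⁻¹).2) _) _

lemma uni_dvd {M : ℕ} (n : ℤ) (φ : S M) (h : ∀ x, n ∣ uni M φ x) (α β : Cusp) :
    n ∣ φ.1 α β := by
  rw [← Int.mem_zmultiples_iff]
  refine mem_of_unimod (AddSubgroup.zmultiples n) φ.2.ms (fun g => ?_) α β
  rw [Int.mem_zmultiples_iff, ← uni_mk M φ g]
  exact h _

lemma uni_injective (M : ℕ) : Function.Injective (uni M) := by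
  rw [← LinearMap.ker_eq_bot, LinearMap.ker_eq_bot']
  intro φ h
  apply Subtype.ext
  funext α β
  have := uni_dvd 0 φ (fun x => by rw [h]; simp) α β
  simpa using this

instance finIdx (M : ℕ) [NeZero M] : Finite (SL(2,ℤ) ⧸ Gamma0 M) := inferInstance

instance finS (M : ℕ) [NeZero M] : Module.Finite ℤ (S M) := by
  have : Finite (SL(2,ℤ) ⧸ Gamma0 M) := inferInstance
  exact Module.Finite.of_injective (uni M) (uni_injective M)

/-- **(F4)** -/
theorem exists_ev (M : ℕ) [NeZero M] (l : S M →+ ℤ) : ∃ D : Dv, ∀ φ : S M, l φ = ev φ.1 D := by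
  classical
  have hfin : Finite (SL(2,ℤ) ⧸ Gamma0 M) := inferInstance
  have : Fintype (SL(2,ℤ) ⧸ Gamma0 M) := Fintype.ofFinite _
  set L := LinearMap.range (uni M) with hL
  -- the quotient is torsion free
  have htf : Module.IsTorsionFree ℤ ((SL(2,ℤ) ⧸ Gamma0 M → ℤ) ⧸ L) := by
    refine Module.IsTorsionFree.of_smul_eq_zero fun n v h => ?_
    obtain ⟨f, rfl⟩ := L.mkQ_surjective v
    by_cases hn : n = 0
    · exact Or.inl hn
    right
    rw [← map_smul, Submodule.mkQ_apply, Submodule.Quotient.mk_eq_zero] at h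
    obtain ⟨φ, hφ⟩ := h
    obtain ⟨ψ, hψ⟩ := div_of_dvd hn φ (uni_dvd n φ fun x => ⟨f x, congrFun hφ x⟩)
    rw [Submodule.mkQ_apply, Submodule.Quotient.mk_eq_zero]
    refine ⟨ψ, ?_⟩
    rw [hψ, map_smul] at hφ
    funext x
    exact mul_left_cancel₀ hn (congrFun hφ x)
  have hfree : Module.Free ℤ ((SL(2,ℤ) ⧸ Gamma0 M → ℤ) ⧸ L) := inferInstance
  obtain ⟨s, hs⟩ := Module.projective_lifting_property L.mkQ LinearMap.id L.mkQ_surjective
  let e : S M ≃ₗ[ℤ] L := LinearEquiv.ofInjective (uni M) (uni_injective M)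
  let r : (SL(2,ℤ) ⧸ Gamma0 M → ℤ) →ₗ[ℤ] L :=
    (LinearMap.id - s.comp L.mkQ).codRestrict L fun f => by
      rw [← Submodule.Quotient.mk_eq_zero]
      have := LinearMap.congr_fun hs (L.mkQ f)
      simp only [LinearMap.comp_apply, LinearMap.id_apply, Submodule.mkQ_apply] at this
      simp [this]
  have hr : ∀ φ : S M, r (uni M φ) = e φ := by
    intro φ
    apply Subtype.ext
    change uni M φ - s (L.mkQ (uni M φ)) = uni M φ
    have : L.mkQ (uni M φ) = 0 := by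
      rw [Submodule.mkQ_apply, Submodule.Quotient.mk_eq_zero]
      exact ⟨φ, rfl⟩
    rw [this, map_zero, sub_zero]
  let l' : (SL(2,ℤ) ⧸ Gamma0 M → ℤ) →ₗ[ℤ] ℤ := l.toIntLinearMap.comp (e.symm.toLinearMap.comp r)
  have hl' : ∀ φ : S M, l' (uni M φ) = l φ := by
    intro φ
    change l (e.symm (r (uni M φ))) = l φ
    rw [hr, LinearEquiv.symm_apply_apply]
  refine ⟨∑ x, Finsupp.single (mapGL ℚ (x.out⁻¹) • ((0 : ℚ) : Cusp),
    mapGL ℚ (x.out⁻¹) • OnePoint.infty) (l' (Pi.single x 1)), fun φ => ?_⟩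
  rw [map_sum, ← hl' φ]
  have h1 : uni M φ = ∑ x, (uni M φ x) • (Pi.single x 1 : SL(2,ℤ) ⧸ Gamma0 M → ℤ) := by
    funext y
    simp [Finset.sum_apply, Pi.single_apply]
  conv_lhs => rw [h1]
  rw [map_sum]
  refine Finset.sum_congr rfl fun x _ => ?_
  rw [map_smul, ev_single, smul_eq_mul, mul_comm, uni_apply]

end Fermat.Agent.LR
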