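import Fermat.Agent.LR.Isec
import Mathlib.GroupTheory.DoubleCoset
import Mathlib.NumberTheory.Modular

/-!
# Surjectivity of the intersection pairing (up to 2)
-/

set_option autoImplicit false

noncomputable section

namespace Fermat.Agent.LR

open CongruenceSubgroup Matrix.SpecialLinearGroup Fermat.Agent.Ihara
open scoped MatrixGroups

/-- element of order 6 permuting `0 → ∞ → 1 → 0` -/
def rho : SL(2,ℤ) := ⟨!![1, -1; 1, 0], by norm_num [Matrix.det_fin_two_of]⟩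

/-- `0 ↔ ∞` -/
def sS : SL(2,ℤ) := ⟨!![0, -1; 1, 0], by norm_num [Matrix.det_fin_two_of]⟩

abbrev c0 : Cusp := ((0 : ℚ) : Cusp)
abbrev c1 : Cusp := ((1 : ℚ) : Cusp)
abbrev ci : Cusp := OnePoint.infty

lemma mq_smul_infty (g : SL(2,ℤ)) : mq g • ci = if (g 1 0 : ℚ) = 0 then ci else (((g 0 0 : ℚ) / (g 1 0 : ℚ) : ℚ) : Cusp) :=
  OnePoint.smul_infty_eq_ite _

lemma mq_smul_coe (g : SL(2,ℤ)) (x : ℚ) : mq g • (x : Cusp) =
    if (g 1 0 : ℚ) * x + (g 1 1 : ℚ) = 0 then ci else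
      ((((g 0 0 : ℚ) * x + (g 0 1 : ℚ)) / ((g 1 0 : ℚ) * x + (g 1 1 : ℚ)) : ℚ) : Cusp) :=
  OnePoint.smul_some_eq_ite

lemma rho_c0 : mq rho • c0 = ci := by
  rw [c0, mq_smul_coe]
  simp [rho]

lemma rho_ci : mq rho • ci = c1 := by
  rw [mq_smul_infty]
  simp [rho]

lemma rho_c1 : mq rho • c1 = c0 := by
  rw [c1, mq_smul_coe]
  simp [rho]

lemma sS_c0 : mq sS • c0 = ci := by
  rw [c0, mq_smul_coe]
  simp [sS]

lemma sS_ci : mq sS • ci = c0 := by
  rw [mq_smul_infty]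
  simp [sS]

lemma c0_ne_ci : c0 ≠ ci := OnePoint.coe_ne_infty _

/-! ### quasi-invariant functions -/

lemma exists_quasi {Γ : Subgroup SL(2,ℤ)} (x : Additive Γ →+ ℤ) (C : Subgroup SL(2,ℤ)) [Finite C] :
    ∃ B : SL(2,ℤ) → ℤ, ∀ (γ : Γ) (g c : SL(2,ℤ)), c ∈ C →
      B (γ * g * c) = x (Additive.ofMul γ) + B g := by
  classical
  -- representatives
  let r : SL(2,ℤ) → SL(2,ℤ) := fun g => (DoubleCoset.mk (Γ : Subgroup SL(2,ℤ)) C g).out
  have hr : ∀ g, ∃ (γ : Γ) (c : C), g = γ * r g * c := by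
    intro g
    have h1 : DoubleCoset.mk Γ C (r g) = DoubleCoset.mk Γ C g := Quotient.out_eq _
    rw [DoubleCoset.eq] at h1
    obtain ⟨h, hh, k, hk, e⟩ := h1
    exact ⟨⟨h, hh⟩, ⟨k, hk⟩, e⟩
  have hr2 : ∀ (γ : Γ) (g c : SL(2,ℤ)), c ∈ C → r (γ * g * c) = r g := by
    intro γ g c hc
    have : DoubleCoset.mk Γ C (γ * g * c) = DoubleCoset.mk Γ C g := by
      symm
      rw [DoubleCoset.eq]
      exact ⟨γ, γ.2, c, hc, rfl⟩
    change (DoubleCoset.mk Γ C (γ * g * c)).out = _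
    rw [this]
  have key : ∀ (γ γ' : Γ) (c c' : C) (g : SL(2,ℤ)), (γ * g * c : SL(2,ℤ)) = γ' * g * c' →
      x (Additive.ofMul γ) = x (Additive.ofMul γ') := by
    intro γ γ' c c' g e
    have e1 : ((γ'⁻¹ * γ : Γ) : SL(2,ℤ)) = g * ((c' * c⁻¹ : C) : SL(2,ℤ)) * g⁻¹ := by
      push_cast
      have e2 : (γ : SL(2,ℤ)) = γ' * g * c' * (c : SL(2,ℤ))⁻¹ * g⁻¹ := by
        rw [← e]; group
      rw [e2]; group
    obtain ⟨n, hn, hn1⟩ := (isOfFinOrder_of_finite (c' * c⁻¹ : C)).exists_pow_eq_one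
    have e3 : (γ'⁻¹ * γ : Γ) ^ n = 1 := by
      apply Subtype.ext
      rw [Subgroup.coe_pow, e1, conj_pow, ← Subgroup.coe_pow, hn1]
      simp
    have e4 : n • x (Additive.ofMul (γ'⁻¹ * γ)) = 0 := by
      rw [← map_nsmul, ← ofMul_pow, e3]
      simp
    have e5 : x (Additive.ofMul (γ'⁻¹ * γ)) = 0 := (nsmul_eq_zero_iff_right hn.ne').mp e4
    rw [ofMul_mul, map_add, ofMul_inv, map_neg] at e5
    linarith
  refine ⟨fun g => x (Additive.ofMul (hr g).choose), fun γ g c hc => ?_⟩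
  obtain ⟨c1, h1⟩ := (hr g).choose_spec
  obtain ⟨c2, h2⟩ := (hr (γ * g * c)).choose_spec
  have h2' : (γ : SL(2,ℤ)) * g * c = (hr (γ * g * c)).choose * r g * c2 :=
    h2.trans (congrArg (fun t => ((hr (γ * g * c)).choose : SL(2,ℤ)) * t * c2) (hr2 γ g c hc))
  have h3 : (((γ * (hr g).choose : Γ) : SL(2,ℤ)) * r g * ((c1 * ⟨c, hc⟩ : C) : SL(2,ℤ))) =
      (hr (γ * g * c)).choose * r g * c2 := by
    rw [← h2', Subgroup.coe_mul, Subgroup.coe_mul]
    have h5 : (γ : SL(2,ℤ)) * g * c = γ * (((hr g).choose : SL(2,ℤ)) * r g * c1) * c :=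
      congrArg (fun t => (γ : SL(2,ℤ)) * t * c) h1
    rw [h5]
    simp only [mul_assoc]
  have h4 := key _ _ _ _ _ h3
  change x (Additive.ofMul (hr (γ * g * c)).choose) = _
  rw [← h4, ofMul_mul, map_add]

/-! ### the reduced triangles -/

/-- the reducedness of the triangle `g(0,∞,1)` -/
def RedG (g : SL(2,ℤ)) : Prop := Red (gv (mq g) ![0, 1]) (gv (mq g) ![1, 0])

/-- integral version -/
def RedZ (a b c d : ℤ) : Prop :=
  (b - d) * (a - c) ≤ 0 ∧ d * c ≤ 0 ∧ b * a ≤ 0 ∧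
  (b - d) * (-(a + b) + (c + d)) ≤ 0 ∧ d * (-(c + d)) ≤ 0 ∧ b * (-(a + b)) ≤ 0 ∧
  (a - c) * (-(a + b) + (c + d)) ≤ 0 ∧ c * (-(c + d)) ≤ 0 ∧ a * (-(a + b)) ≤ 0

lemma sum_le {p q r : ℤ} (h : ((p : ℤ) : ℝ) + √2 * ((q : ℤ) : ℝ) + √3 * ((r : ℤ) : ℝ) ≤ 0)
    (hs : (0 ≤ p ∧ 0 ≤ q ∧ 0 ≤ r) ∨ (p ≤ 0 ∧ q ≤ 0 ∧ r ≤ 0)) : p ≤ 0 ∧ q ≤ 0 ∧ r ≤ 0 := by
  rcases hs with ⟨h1, h2, h3⟩ | h'
  · have k1 : (0 : ℝ) ≤ p := by exact_mod_cast h1
    have k2 : (0 : ℝ) ≤ q := by exact_mod_cast h2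
    have k3 : (0 : ℝ) ≤ r := by exact_mod_cast h3
    have s2 : (0 : ℝ) < √2 := by positivity
    have s3 : (0 : ℝ) < √3 := by positivity
    have m2 : (0 : ℝ) ≤ √2 * q := by positivity
    have m3 : (0 : ℝ) ≤ √3 * r := by positivity
    refine ⟨?_, ?_, ?_⟩
    · have : (p : ℝ) ≤ 0 := by linarith
      exact_mod_cast this
    · have : (q : ℝ) ≤ 0 := by
        by_contra hc
        push Not at hc
        have : 0 < √2 * q := by positivity
        linarith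
      exact_mod_cast this
    · have : (r : ℝ) ≤ 0 := by
        by_contra hc
        push Not at hc
        have : 0 < √3 * r := by positivity
        linarith
      exact_mod_cast this
  · exact h'

lemma sgn_aux {u v : ℤ} (h : u = v + 1) : (0 ≤ u ∧ 0 ≤ v) ∨ (u ≤ 0 ∧ v ≤ 0) := by omega

/-- the sign lemma -/
lemma sign_lemma {a b c d : ℤ} (h : a * d - b * c = 1 ∨ a * d - b * c = -1) :
    (0 ≤ (b - d) * (a - c) ∧ 0 ≤ d * c ∧ 0 ≤ b * a) ∨
    ((b - d) * (a - c) ≤ 0 ∧ d * c ≤ 0 ∧ b * a ≤ 0) := by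
  -- `ab·cd = (ad)(bc)`, a product of consecutive integers
  have key : ∀ u v : ℤ, (u - v = 1 ∨ u - v = -1) → 0 ≤ u * v := by
    intro u v huv
    rcases huv with e | e
    · rcases le_or_gt u 0 with h1 | h1
      · nlinarith
      · have : 0 ≤ v := by omega
        positivity
    · rcases le_or_gt v 0 with h1 | h1
      · nlinarith
      · have : 0 ≤ u := by omega
        positivity
  have k1 : 0 ≤ (b * a) * (d * c) := by
    have := key (a * d) (b * c) h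
    nlinarith
  have k2 : 0 ≤ (b * a) * ((b - d) * (a - c)) := by
    -- columns `(a, a-c)`, `(b, b-d)`: determinant `a(b-d) - b(a-c) = -(ad - bc)`
    have := key (a * (b - d)) (b * (a - c)) (by
      have : a * (b - d) - b * (a - c) = -(a * d - b * c) := by ring
      rw [this]; rcases h with h | h <;> rw [h] <;> simp)
    nlinarith
  have k3 : 0 ≤ (d * c) * ((b - d) * (a - c)) := by
    have := key (c * (b - d)) (d * (a - c)) (by
      have : c * (b - d) - d * (a - c) = -(a * d - b * c) := by ring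
      rw [this]; rcases h with h | h <;> rw [h] <;> simp)
    nlinarith
  rcases lt_trichotomy (b * a) 0 with h1 | h1 | h1
  · right
    exact ⟨by nlinarith, by nlinarith, h1.le⟩
  · rcases lt_trichotomy (d * c) 0 with h2 | h2 | h2
    · right
      exact ⟨by nlinarith, h2.le, h1.le⟩
    · rcases le_or_gt 0 ((b - d) * (a - c)) with h3 | h3
      · left; exact ⟨h3, h2.ge, h1.ge⟩
      · right; exact ⟨h3.le, h2.le, h1.le⟩
    · left
      exact ⟨by nlinarith, h2.le, h1.ge⟩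
  · left
    exact ⟨by nlinarith, by nlinarith, h1.le⟩

lemma redG_iff (g : SL(2,ℤ)) : RedG g ↔ RedZ (g 0 0) (g 0 1) (g 1 0) (g 1 1) := by
  have hdet := g.det_coe
  rw [Matrix.det_fin_two] at hdet
  set a := g 0 0 with ha
  set b := g 0 1 with hb
  set c := g 1 0 with hc
  set d := g 1 1 with hd
  have v0 : (gv (mq g) ![0, 1]) 0 = (b : ℚ) := by simp [mq_apply, hb]
  have v1 : (gv (mq g) ![0, 1]) 1 = (d : ℚ) := by simp [mq_apply, hd]
  have w0 : (gv (mq g) ![1, 0]) 0 = (a : ℚ) := by simp [mq_apply, ha]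
  have w1 : (gv (mq g) ![1, 0]) 1 = (c : ℚ) := by simp [mq_apply, hc]
  have e1 : bq (gv (mq g) ![0, 1]) (gv (mq g) ![1, 0]) =
      (((b - d) * (a - c) : ℤ) : ℝ) + √2 * ((d * c : ℤ) : ℝ) + √3 * ((b * a : ℤ) : ℝ) := by
    rw [bq, v0, v1, w0, w1]; push_cast; ring
  have e2 : bq (gv (mq g) ![0, 1]) (-(gv (mq g) ![0, 1]) - (gv (mq g) ![1, 0])) =
      (((b - d) * (-(a + b) + (c + d)) : ℤ) : ℝ) + √2 * ((d * (-(c + d)) : ℤ) : ℝ) +
        √3 * ((b * (-(a + b)) : ℤ) : ℝ) := by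
    rw [bq]; simp only [Pi.sub_apply, Pi.neg_apply]; rw [v0, v1, w0, w1]; push_cast; ring
  have e3 : bq (gv (mq g) ![1, 0]) (-(gv (mq g) ![0, 1]) - (gv (mq g) ![1, 0])) =
      (((a - c) * (-(a + b) + (c + d)) : ℤ) : ℝ) + √2 * ((c * (-(c + d)) : ℤ) : ℝ) +
        √3 * ((a * (-(a + b)) : ℤ) : ℝ) := by
    rw [bq]; simp only [Pi.sub_apply, Pi.neg_apply]; rw [v0, v1, w0, w1]; push_cast; ring
  rw [RedG, Red, e1, e2, e3]
  have s1 := sign_lemma (Or.inl hdet : a * d - b * c = 1 ∨ a * d - b * c = -1)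
  have s2 := sign_lemma (a := -(a + b)) (b := b) (c := -(c + d)) (d := d)
    (Or.inr (by nlinarith))
  have s3 := sign_lemma (a := -(a + b)) (b := a) (c := -(c + d)) (d := c)
    (Or.inl (by nlinarith))
  have t2 : (b - d) * (-(a + b) - -(c + d)) = (b - d) * (-(a + b) + (c + d)) := by ring
  have t3 : (a - c) * (-(a + b) - -(c + d)) = (a - c) * (-(a + b) + (c + d)) := by ring
  rw [t2] at s2
  rw [t3] at s3
  constructor
  · rintro ⟨h1, h2, h3⟩
    obtain ⟨x1, x2, x3⟩ := sum_le h1 s1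
    obtain ⟨y1, y2, y3⟩ := sum_le h2 s2
    obtain ⟨z1, z2, z3⟩ := sum_le h3 s3
    exact ⟨x1, x2, x3, y1, y2, y3, z1, z2, z3⟩
  · rintro ⟨x1, x2, x3, y1, y2, y3, z1, z2, z3⟩
    have conv : ∀ p q r : ℤ, p ≤ 0 → q ≤ 0 → r ≤ 0 →
        ((p : ℤ) : ℝ) + √2 * ((q : ℤ) : ℝ) + √3 * ((r : ℤ) : ℝ) ≤ 0 := by
      intro p q r hp hq hr
      have k1 : (p : ℝ) ≤ 0 := by exact_mod_cast hp
      have k2 : (q : ℝ) ≤ 0 := by exact_mod_cast hq
      have k3 : (r : ℝ) ≤ 0 := by exact_mod_cast hr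
      have s2 : (0 : ℝ) ≤ √2 := by positivity
      have s3 : (0 : ℝ) ≤ √3 := by positivity
      nlinarith [mul_nonneg s2 (neg_nonneg.mpr k2), mul_nonneg s3 (neg_nonneg.mpr k3)]
    exact ⟨conv _ _ _ x1 x2 x3, conv _ _ _ y1 y2 y3, conv _ _ _ z1 z2 z3⟩

/-- the six reduced elements -/
def T6 : Finset SL(2,ℤ) := {1, rho, rho * rho, -1, -rho, -(rho * rho)}

lemma T6_card : T6.card = 6 := by decide +kernel

lemma redZ_bdd {a b c d : ℤ} (hdet : a * d - b * c = 1) (h : RedZ a b c d) :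
    (-1 ≤ a ∧ a ≤ 1) ∧ (-1 ≤ b ∧ b ≤ 1) ∧ (-1 ≤ c ∧ c ≤ 1) ∧ (-1 ≤ d ∧ d ≤ 1) := by
  obtain ⟨x1, x2, x3, y1, y2, y3, z1, z2, z3⟩ := h
  -- rows: `a = 0` or `b = 0` or `b = -a`
  have row : ∀ u v : ℤ, v * u ≤ 0 → v * (-(u + v)) ≤ 0 → u * (-(u + v)) ≤ 0 →
      u = 0 ∨ v = 0 ∨ v = -u := by
    intro u v h1 h2 h3
    by_contra hc
    push Not at hc
    obtain ⟨hu, hv, huv⟩ := hc
    rcases lt_or_gt_of_ne hu with hu | hu <;> rcases lt_or_gt_of_ne hv with hv | hv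
    · nlinarith
    · have a1 : u + v ≤ 0 := by nlinarith
      have a2 : 0 ≤ u + v := by nlinarith
      apply huv; linarith
    · have a1 : u + v ≤ 0 := by nlinarith
      have a2 : 0 ≤ u + v := by nlinarith
      apply huv; linarith
    · nlinarith
  have r1 := row a b x3 y3 z3
  have r2 := row c d x2 y2 z2
  have un : ∀ u v : ℤ, u * v = 1 → (u = 1 ∧ v = 1) ∨ (u = -1 ∧ v = -1) := by
    intro u v h
    exact Int.mul_eq_one_iff_eq_one_or_neg_one.mp h
  rcases r1 with rfl | rfl | rfl <;> rcases r2 with rfl | rfl | rfl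
  · simp at hdet
  · rcases un (-b) c (by linarith) with ⟨h1, h2⟩ | ⟨h1, h2⟩ <;> omega
  · rcases un (-b) c (by linarith) with ⟨h1, h2⟩ | ⟨h1, h2⟩ <;> omega
  · rcases un a d (by linarith) with ⟨h1, h2⟩ | ⟨h1, h2⟩ <;> omega
  · simp at hdet
  · rcases un a (-c) (by linarith) with ⟨h1, h2⟩ | ⟨h1, h2⟩ <;> omega
  · rcases un a d (by linarith) with ⟨h1, h2⟩ | ⟨h1, h2⟩ <;> omega
  · rcases un a c (by linarith) with ⟨h1, h2⟩ | ⟨h1, h2⟩ <;> omega
  · exfalso
    have : a * -c - -a * c = 0 := by ring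
    omega

instance (a b c d : ℤ) : Decidable (RedZ a b c d) := by unfold RedZ; infer_instance

lemma redG_iff_mem (g : SL(2,ℤ)) : RedG g ↔ g ∈ T6 := by
  rw [redG_iff]
  have hdet := g.det_coe
  rw [Matrix.det_fin_two] at hdet
  constructor
  · intro h
    obtain ⟨⟨a1, a2⟩, ⟨b1, b2⟩, ⟨c1, c2⟩, ⟨d1, d2⟩⟩ := redZ_bdd hdet h
    have key : ∀ a b c d : ℤ, -1 ≤ a → a ≤ 1 → -1 ≤ b → b ≤ 1 → -1 ≤ c → c ≤ 1 → -1 ≤ d → d ≤ 1 →
        a * d - b * c = 1 → RedZ a b c d →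
        (a, b, c, d) ∈ ({(1, 0, 0, 1), (1, -1, 1, 0), (0, -1, 1, -1), (-1, 0, 0, -1),
          (-1, 1, -1, 0), (0, 1, -1, 1)} : Finset (ℤ × ℤ × ℤ × ℤ)) := by
      intro a b c d a1 a2 b1 b2 c1 c2 d1 d2 h1 h2
      obtain ⟨x1, x2, x3, y1, y2, y3, z1, z2, z3⟩ := h2
      interval_cases a <;> interval_cases b <;> interval_cases c <;> interval_cases d <;>
        first
        | (exfalso; omega)
        | decide
    have h3 := key _ _ _ _ a1 a2 b1 b2 c1 c2 d1 d2 hdet h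
    simp only [Finset.mem_insert, Finset.mem_singleton, Prod.mk.injEq] at h3
    have ext4 : ∀ g' : SL(2,ℤ), g 0 0 = g' 0 0 → g 0 1 = g' 0 1 → g 1 0 = g' 1 0 → g 1 1 = g' 1 1 →
        g = g' := by
      intro g' h1 h2 h3 h4
      ext i j
      fin_cases i <;> fin_cases j
      · exact h1
      · exact h2
      · exact h3
      · exact h4
    simp only [T6, Finset.mem_insert, Finset.mem_singleton]
    rcases h3 with ⟨h1, h2, h3, h4⟩ | ⟨h1, h2, h3, h4⟩ | ⟨h1, h2, h3, h4⟩ | ⟨h1, h2, h3, h4⟩ |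
      ⟨h1, h2, h3, h4⟩ | ⟨h1, h2, h3, h4⟩
    · left; exact ext4 _ (h1.trans (by decide +kernel)) (h2.trans (by decide +kernel))
        (h3.trans (by decide +kernel)) (h4.trans (by decide +kernel))
    · right; left; exact ext4 _ (h1.trans (by decide +kernel)) (h2.trans (by decide +kernel))
        (h3.trans (by decide +kernel)) (h4.trans (by decide +kernel))
    · right; right; left; exact ext4 _ (h1.trans (by decide +kernel)) (h2.trans (by decide +kernel))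
        (h3.trans (by decide +kernel)) (h4.trans (by decide +kernel))
    · right; right; right; left; exact ext4 _ (h1.trans (by decide +kernel)) (h2.trans (by decide +kernel))
        (h3.trans (by decide +kernel)) (h4.trans (by decide +kernel))
    · right; right; right; right; left; exact ext4 _ (h1.trans (by decide +kernel)) (h2.trans (by decide +kernel))
        (h3.trans (by decide +kernel)) (h4.trans (by decide +kernel))
    · right; right; right; right; right; exact ext4 _ (h1.trans (by decide +kernel)) (h2.trans (by decide +kernel))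
        (h3.trans (by decide +kernel)) (h4.trans (by decide +kernel))
  · intro h
    have : ∀ g ∈ T6, RedZ (g 0 0) (g 0 1) (g 1 0) (g 1 1) := by decide +kernel
    exact this g h

end Fermat.Agent.LR
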